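import Fermat.Agent.RR.Final
import Fermat.Agent.GJ.J1.InstGen
import Fermat.Agent.GJ.FF.ValRing

/-!
# `genusFF = genusRR` (GATE-K bridge, helper34)

The prelude genus `genusFF K F = dim H¹(0)` (used by the nodal Riemann–Roch files
`GK/NodalRR*.lean`, `GK/NodalGraded.lean`, `GK/NodalCount.lean`) versus the Riemann constant
`genusRR K F` of `GJ/J1/InstGen.lean` (used by J1: `genusRR_eq_gLat`).

* `genusRR_eq` : `genusRR K F = genusFF K F + 1 - ℓ(0)` (char-free, any constant field);
* `finrank_L_zero_eq_one` : `ℓ(0) = 1` for `K` algebraically closed, `F / K` a function field;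
* `genusRR_eq_genusFF` : `genusRR K F = genusFF K F` in that case.
-/

set_option autoImplicit false

noncomputable section

open AlgebraicCurve

namespace Fermat.Agent.GK.GenusFF

open Fermat.Agent.RRh45 Fermat.Agent.RR Fermat.Agent.S24 Fermat.Agent.GJ.J1.InstGen

variable {K F : Type*} [Field K] [Field F] [Algebra K F]

section General

variable [FiniteResidues K F] [HasPrincipalDivisors K F] [Nonempty (Place K F)]

/-- the Riemann constant is `dim H¹(0) + 1 - ℓ(0)` -/
theorem genusRR_eq :
    genusRR K F =
      (genusFF K F : ℤ) + 1 - Module.finrank K (riemannRochSpace (0 : Divisor K F)) :=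
  genus_eq (K := K) (F := F)
    (fun D => by
      have := Fermat.Agent.GJ.J1.InstGen.riemann_inequality (K := K) (F := F) D
      omega)
    exists_degree_add_one_sub_finrank_eq

end General

/-- `ℓ(0) = 1` over an algebraically closed constant field -/
theorem finrank_L_zero_eq_one [IsAlgClosed K] (x : F) [IsGen K x] :
    Module.finrank K (riemannRochSpace (0 : Divisor K F)) = 1 := by
  have hspan : riemannRochSpace (0 : Divisor K F) = Submodule.span K {(1 : F)} := by
    apply le_antisymm
    · intro f hf
      rw [mem_riemannRochSpace_iff] at hf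
      have h0 : ∀ v : Place K F, 0 ≤ v.ord f := by
        intro v
        rcases hf v with rfl | h
        · rw [Place.ord_zero]
        · simpa using h
      have halg : IsAlgebraic K f := Fermat.Agent.GJ.FF.isAlgebraic_of_forall_ord_nonneg x h0
      have hint : IsIntegral K f := halg.isIntegral
      have hdeg : (minpoly K f).degree = 1 :=
        IsAlgClosed.degree_eq_one_of_irreducible K (minpoly.irreducible hint)
      obtain ⟨c, hc⟩ := minpoly.mem_range_of_degree_eq_one K f hdeg
      rw [Submodule.mem_span_singleton]
      exact ⟨c, by rw [Algebra.smul_def, mul_one, hc]⟩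
    · rw [Submodule.span_le, Set.singleton_subset_iff]
      show (1 : F) ∈ riemannRochSpace (0 : Divisor K F)
      rw [mem_riemannRochSpace_iff]
      intro v
      right
      rw [Place.ord_one]
      simp
  rw [hspan]
  exact finrank_span_singleton (K := K) (one_ne_zero (α := F))

/-- **`genusRR = genusFF`** over an algebraically closed constant field -/
theorem genusRR_eq_genusFF [IsAlgClosed K] (x : F) [IsGen K x]
    [FiniteResidues K F] [HasPrincipalDivisors K F] [Nonempty (Place K F)] :
    genusRR K F = (genusFF K F : ℤ) := by
  rw [genusRR_eq, finrank_L_zero_eq_one x]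
  simp

end Fermat.Agent.GK.GenusFF
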