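/-
GATE-K / node (b) (helper32): the `U_q`–KRONECKER congruence and the inertia congruence, in UNIT
language, for the Gauss valuation `w₁` of `F_N = ℚ̄(X₀(N))` attached to a valuation subring `A` of
`ℚ̄` (ANY level `N`, `A` over ANY prime `q`; `q ∣ N` allowed).

* `IsPrin hGF z`  : `z` is a principal unit of the Gauss valuation ring (`z ∈ Rw`, `red z = 1`);
* `IsCPrin hGF z` : `z` is a nonzero constant times a principal unit (`= ker r₁` in unit language);
  `isPrin_iff_exists_frac`, `isCPrin_iff_exists_frac` : characterisations not mentioning `F`, hence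
  `isCPrin_inclusion_iff` (`r₁ ∘ α^* = r₁` at the lower level);
* `inertia_isCPrin`   : `σ ∈ I_A`, `u ≠ 0`  ⟹  `σ u / u` is `IsCPrin`        [(σ − 1) V ⊂ ker r₁];
* `frobenius_isCPrin` : `τ` a Frobenius at `A`, `Uu = normL q u` (the `U_q`-norm)
                         ⟹  `Uu / τ u` is `IsCPrin`                          [(U_q − φ) V ⊂ ker r₁];
* `isCPrin_gal_of_mem_decompositionSubgroup` : `ker r₁` is stable under the decomposition group;
* the `w₂ = w₁ ∘ W` versions for any ring automorphism `W` of `F_N` commuting with Galois;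
* Kummer-level packaging: `kerRedW N A W m`, `kerRed N A m : AddSubgroup (Additive (Kum ℚ̄ F_N m))`,
  `gal_sub_mem_kerRedW`, `uq_sub_frob_mem_kerRedW`, `gal_mem_kerRedW`.
-/
import Fermat.Agent.GJ.J1.Val.DegExport
import Fermat.Agent.GJ.Kum.ESKummer
import Fermat.Agent.GJ.Kum.KumType

set_option autoImplicit false

noncomputable section

namespace Fermat.Agent.GK.UqKronecker

open HahnSeries ModularCurve IsLocalRing
open Fermat.Agent.GJ.J1 Fermat.Agent.GJ.J1.Val Fermat.Agent.GJ.Kum Fermat.Agent.GJ.KumGroup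

section Generic

variable {L : Type*} [Field L] {A : ValuationSubring L}
  {F : IntermediateField L (LaurentSeries L)} (hGF : HasGaussFrac A F)

/-- `z ∈ F` is a *principal unit* of the Gauss valuation: `z ∈ Rw` and `z` reduces to `1`. -/
def IsPrin (z : F) : Prop := ∃ h : z ∈ Rw A F hGF, redL A F hGF ⟨z, h⟩ = 1

variable {hGF}

theorem isPrin_iff {z : F} :
    IsPrin hGF z ↔ ∃ x : Rw A F hGF, (x : F) = z ∧ redL A F hGF x = 1 := by
  constructor
  · rintro ⟨h, h1⟩
    exact ⟨⟨z, h⟩, rfl, h1⟩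
  · rintro ⟨x, rfl, h1⟩
    exact ⟨x.2, h1⟩

theorem isPrin_one : IsPrin hGF (1 : F) :=
  isPrin_iff.mpr ⟨1, rfl, map_one _⟩

theorem IsPrin.mul {x y : F} (hx : IsPrin hGF x) (hy : IsPrin hGF y) : IsPrin hGF (x * y) := by
  obtain ⟨x', rfl, hx2⟩ := isPrin_iff.mp hx
  obtain ⟨y', rfl, hy2⟩ := isPrin_iff.mp hy
  exact isPrin_iff.mpr ⟨x' * y', rfl, by rw [map_mul, hx2, hy2, mul_one]⟩

theorem IsPrin.inv {x : F} (hx : IsPrin hGF x) : IsPrin hGF x⁻¹ := by
  obtain ⟨x', rfl, hx2⟩ := isPrin_iff.mp hx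
  have hne : redL A F hGF x' ≠ 0 := by rw [hx2]; exact one_ne_zero
  refine isPrin_iff.mpr ⟨⟨((x' : F))⁻¹, inv_mem_of_redL_ne_zero hne⟩, rfl, ?_⟩
  rw [redL_inv hne, hx2, inv_one]

theorem IsPrin.div {x y : F} (hx : IsPrin hGF x) (hy : IsPrin hGF y) : IsPrin hGF (x / y) := by
  rw [div_eq_mul_inv]
  exact hx.mul hy.inv

theorem IsPrin.ne_zero {x : F} (hx : IsPrin hGF x) : x ≠ 0 := by
  obtain ⟨x', rfl, hx2⟩ := isPrin_iff.mp hx
  intro h
  have h0 : x' = 0 := Subtype.ext h
  rw [h0, map_zero] at hx2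
  exact zero_ne_one hx2

/-- **criterion**: `z · h = g` with `g, h ∈ A((q))` of EQUAL nonzero reduction. -/
theorem isPrin_of_frac {z : F} {g h : LaurentSeries A} (hh : rd A h ≠ 0)
    (hz : (z : LaurentSeries L) * emb A h = emb A g) (hgh : rd A g = rd A h) :
    IsPrin hGF z := by
  have hmem : z ∈ Rw A F hGF := mem_Rw_of_frac hh hz
  refine ⟨hmem, ?_⟩
  have h1 := redL_mul_rd_of_frac (hGF := hGF) (x := ⟨z, hmem⟩) hz
  rw [hgh] at h1
  exact mul_right_cancel₀ hh (h1.trans (one_mul _).symm)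

variable (hGF)

/-- `z` is a nonzero constant times a principal unit of the Gauss valuation. -/
def IsCPrin (z : F) : Prop := ∃ c : L, c ≠ 0 ∧ IsPrin hGF (z / algebraMap L F c)

variable {hGF}

theorem IsPrin.isCPrin {x : F} (hx : IsPrin hGF x) : IsCPrin hGF x :=
  ⟨1, one_ne_zero, by rwa [map_one, div_one]⟩

theorem isCPrin_one : IsCPrin hGF (1 : F) := isPrin_one.isCPrin

theorem isCPrin_algebraMap {c : L} (hc : c ≠ 0) : IsCPrin hGF (algebraMap L F c) :=
  ⟨c, hc, by
    rw [div_self ((map_ne_zero_iff _ (algebraMap L F).injective).mpr hc)]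
    exact isPrin_one⟩

theorem IsCPrin.mul {x y : F} (hx : IsCPrin hGF x) (hy : IsCPrin hGF y) :
    IsCPrin hGF (x * y) := by
  obtain ⟨c, hc, hx⟩ := hx
  obtain ⟨d, hd, hy⟩ := hy
  refine ⟨c * d, mul_ne_zero hc hd, ?_⟩
  rw [map_mul, mul_div_mul_comm]
  exact hx.mul hy

theorem IsCPrin.inv {x : F} (hx : IsCPrin hGF x) : IsCPrin hGF x⁻¹ := by
  obtain ⟨c, hc, hx⟩ := hx
  refine ⟨c⁻¹, inv_ne_zero hc, ?_⟩
  have h : x⁻¹ / algebraMap L F c⁻¹ = (x / algebraMap L F c)⁻¹ := by
    rw [map_inv₀, inv_div_inv, inv_div]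
  rw [h]
  exact hx.inv

theorem IsCPrin.div {x y : F} (hx : IsCPrin hGF x) (hy : IsCPrin hGF y) :
    IsCPrin hGF (x / y) := by
  rw [div_eq_mul_inv]
  exact hx.mul hy.inv

theorem IsCPrin.ne_zero {x : F} (hx : IsCPrin hGF x) : x ≠ 0 := by
  obtain ⟨c, hc, hx⟩ := hx
  intro h
  apply hx.ne_zero
  rw [h, zero_div]

/-- **criterion**: `z · single c' · h = single c · g` with `g, h ∈ A((q))` of EQUAL nonzero
reduction and nonzero constants `c, c'`. -/
theorem isCPrin_of_frac {z : F} {g h : LaurentSeries A} {c c' : L} (hc : c ≠ 0) (hc' : c' ≠ 0)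
    (hh : rd A h ≠ 0)
    (hz : (z : LaurentSeries L) * (HahnSeries.single 0 c' * emb A h) =
      HahnSeries.single 0 c * emb A g)
    (hgh : rd A g = rd A h) : IsCPrin hGF z := by
  refine ⟨c / c', div_ne_zero hc hc', isPrin_of_frac hh ?_ hgh⟩
  have hC' : (HahnSeries.single 0 c' : LaurentSeries L) ≠ 0 := HahnSeries.single_ne_zero hc'
  have hC : (HahnSeries.single 0 c : LaurentSeries L) ≠ 0 := HahnSeries.single_ne_zero hc
  have hcoe : ((algebraMap L F (c / c') : F) : LaurentSeries L) =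
      HahnSeries.single 0 c / HahnSeries.single 0 c' := by
    show algebraMap L (LaurentSeries L) (c / c') = _
    rw [map_div₀, algebraMap_laurentSeries_eq_single, algebraMap_laurentSeries_eq_single]
  have hcoe2 : ((z / algebraMap L F (c / c') : F) : LaurentSeries L) =
      (z : LaurentSeries L) / (HahnSeries.single 0 c / HahnSeries.single 0 c') := by
    rw [← hcoe]; rfl
  rw [hcoe2, div_div_eq_mul_div, div_mul_eq_mul_div, div_eq_iff hC]
  rw [mul_comm (emb A g), ← hz]
  ring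

/-- a principal unit is `a / b` with `a, b ∈ A((q)) ∩ F` of EQUAL nonzero reduction -/
theorem IsPrin.exists_frac {z : F} (hz : IsPrin hGF z) :
    ∃ a b : LaurentSeries A, IsFrac A F (z : LaurentSeries L) a b ∧ rd A a = rd A b := by
  obtain ⟨x, rfl, hx⟩ := isPrin_iff.mp hz
  obtain ⟨a, b, hab⟩ := x.2
  refine ⟨a, b, hab, ?_⟩
  have h := redL_eq hab
  rw [hx] at h
  exact (div_eq_one_iff_eq hab.2.2.1).mp h.symm

/-- **`F`-free characterisation of principal units**: `z · h = g` for SOME `g, h ∈ A((q))`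
(not necessarily in `F`) of equal nonzero reduction. -/
theorem isPrin_iff_exists_frac {z : F} :
    IsPrin hGF z ↔ ∃ g h : LaurentSeries A, rd A h ≠ 0 ∧
      (z : LaurentSeries L) * emb A h = emb A g ∧ rd A g = rd A h := by
  constructor
  · intro hz
    obtain ⟨a, b, hab, h⟩ := hz.exists_frac
    exact ⟨a, b, hab.2.2.1, hab.2.2.2, h⟩
  · rintro ⟨g, h, hh, hz, hgh⟩
    exact isPrin_of_frac hh hz hgh

theorem IsPrin.pow {x : F} (hx : IsPrin hGF x) (n : ℕ) : IsPrin hGF (x ^ n) := by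
  induction n with
  | zero => rw [pow_zero]; exact isPrin_one
  | succ n ih => rw [pow_succ]; exact ih.mul hx

theorem IsCPrin.pow {x : F} (hx : IsCPrin hGF x) (n : ℕ) : IsCPrin hGF (x ^ n) := by
  induction n with
  | zero => rw [pow_zero]; exact isCPrin_one
  | succ n ih => rw [pow_succ]; exact ih.mul hx

/-- **`F`-free characterisation** of constants times principal units. -/
theorem isCPrin_iff_exists_frac {z : F} :
    IsCPrin hGF z ↔ ∃ (c : L) (g h : LaurentSeries A), c ≠ 0 ∧ rd A h ≠ 0 ∧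
      (z : LaurentSeries L) * emb A h = HahnSeries.single 0 c * emb A g ∧ rd A g = rd A h := by
  constructor
  · rintro ⟨c, hc, hz⟩
    obtain ⟨g, h, hh, hzz, hgh⟩ := isPrin_iff_exists_frac.mp hz
    refine ⟨c, g, h, hc, hh, ?_, hgh⟩
    have hC : (HahnSeries.single 0 c : LaurentSeries L) ≠ 0 := HahnSeries.single_ne_zero hc
    have hcoe : ((z / algebraMap L F c : F) : LaurentSeries L) =
        (z : LaurentSeries L) / HahnSeries.single 0 c := by
      rw [← algebraMap_laurentSeries_eq_single]; rfl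
    rw [hcoe, div_mul_eq_mul_div, div_eq_iff hC] at hzz
    rw [hzz, mul_comm]
  · rintro ⟨c, g, h, hc, hh, hz, hgh⟩
    refine isCPrin_of_frac (c := c) (c' := 1) hc one_ne_zero hh ?_ hgh
    have h1 : (HahnSeries.single 0 (1 : L) : LaurentSeries L) = 1 := rfl
    rw [h1, one_mul]
    exact hz

end Generic

section Inclusion

variable {L : Type*} [Field L] {A : ValuationSubring L}
  {F F' : IntermediateField L (LaurentSeries L)} (hGF : HasGaussFrac A F)
  (hGF' : HasGaussFrac A F')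

/-- **compatibility of the Gauss valuations** of two fields `F ≤ F'` of Laurent series
(e.g. `F_{N'} ⊂ F_N` for `N' ∣ N`): principal units of `F'` lying in `F` are principal units of
`F` — i.e. `r₁ ∘ α^* = r₁` at the lower level. -/
theorem isPrin_inclusion_iff (hle : F ≤ F') (z : F) :
    IsPrin hGF' (IntermediateField.inclusion hle z) ↔ IsPrin hGF z := by
  rw [isPrin_iff_exists_frac, isPrin_iff_exists_frac]
  rfl

theorem isCPrin_inclusion_iff (hle : F ≤ F') (z : F) :
    IsCPrin hGF' (IntermediateField.inclusion hle z) ↔ IsCPrin hGF z := by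
  rw [isCPrin_iff_exists_frac, isCPrin_iff_exists_frac]
  rfl

end Inclusion

section Concrete

variable (N : ℕ) [NeZero N] (A : ValuationSubring Qb)

omit [NeZero N] in
theorem coe_gal (σ : Qb ≃ₐ[ℚ] Qb) (u : FK N) :
    ((gal N σ u : FK N) : LaurentSeries Qb) =
      coeffMap (σ : Qb →+* Qb) (u : LaurentSeries Qb) :=
  coe_arithmeticRingAut_apply (modularFunctionFieldFull N) σ u

variable {N A}

/-- transport of a Gauss fraction by an element of the decomposition group -/
theorem frac_transport {σ : Qb ≃ₐ[ℚ] Qb} (hσd : σ ∈ A.decompositionSubgroup ℚ)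
    {u : LaurentSeries Qb} {a b : LaurentSeries A} {c : Qb}
    (hub : u * emb A b = HahnSeries.single 0 c * emb A a) :
    coeffMap (σ : Qb →+* Qb) u * emb A (coeffMap (resA A σ hσd) b) =
      HahnSeries.single 0 (σ c) * emb A (coeffMap (resA A σ hσd) a) := by
  have h := congrArg (coeffMap (σ : Qb →+* Qb)) hub
  rw [map_mul, map_mul, coeffMap_single] at h
  rw [emb, coeffMap_subtype_resA, coeffMap_subtype_resA]
  exact h

/-- **(A) the inertia congruence**: for `σ` in the inertia group of `A`, `σ u / u` is a constant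
times a principal unit of the Gauss valuation of `F_N` — i.e. `(σ - 1) V ⊂ ker r₁`. -/
theorem inertia_isCPrin {σ : Qb ≃ₐ[ℚ] Qb} (hσ : σ ∈ A.inertiaSubgroupIn ℚ) {u : FK N}
    (hu : u ≠ 0) : IsCPrin (hasGaussFrac_bar N A) (gal N σ u / u) := by
  have huL : (u : LaurentSeries Qb) ≠ 0 := fun h => hu (Subtype.ext h)
  obtain ⟨c, a, b, hc, ha, hb, ha0, hb0, hub⟩ := hasGaussFrac_bar N A u u.2 huL
  have hσd := Fermat.Agent.S05.mem_decompositionSubgroup_of_mem_inertiaSubgroupIn hσ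
  have hredτ : ∀ y : LaurentSeries A, rd A (coeffMap (resA A σ hσd) y) = rd A y := by
    intro y
    ext n
    exact residue_resA_of_inertia A hσ _
  have hub' := frac_transport hσd hub
  have hσc : σ c ≠ 0 := (map_ne_zero_iff _ σ.injective).mpr hc
  refine isCPrin_of_frac (g := coeffMap (resA A σ hσd) a * b)
    (h := a * coeffMap (resA A σ hσd) b) (c := σ c) (c' := c) hσc hc ?_ ?_ ?_
  · rw [map_mul, hredτ]
    exact mul_ne_zero ha0 hb0
  · have hz : ((gal N σ u / u : FK N) : LaurentSeries Qb) =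
        coeffMap (σ : Qb →+* Qb) (u : LaurentSeries Qb) / (u : LaurentSeries Qb) := by
      rw [← coe_gal]; rfl
    rw [hz, div_mul_eq_mul_div, div_eq_iff huL, map_mul, map_mul]
    linear_combination (HahnSeries.single 0 c * emb A a) * hub' -
      (HahnSeries.single 0 (σ c) * emb A (coeffMap (resA A σ hσd) a)) * hub
  · rw [map_mul, map_mul, hredτ, hredτ]

/-- **(B) the `U_q`–Kronecker congruence**: for `τ` a Frobenius at `A` (over the prime `q`) and
`Uu ∈ F_N` with `q`-expansion `normL q u = ∏_{b mod q} u(ζ^b q^{1/q})` (the `U_q`-norm of `u`),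
`Uu / τ u` is a constant times a principal unit of the Gauss valuation of `F_N` — i.e.
`(U_q - φ) V ⊂ ker r₁`. -/
theorem frobenius_isCPrin {q : ℕ} [NeZero q] (hq : q.Prime) (hA : A.LiesOverPrime q)
    {τ : Qb ≃ₐ[ℚ] Qb} (hτ : A.IsFrobeniusAt τ q) {u Uu : FK N} (hu : u ≠ 0)
    (hU : (Uu : LaurentSeries Qb) = normL q (u : LaurentSeries Qb)) :
    IsCPrin (hasGaussFrac_bar N A) (Uu / gal N τ u) := by
  have : Fact q.Prime := ⟨hq⟩
  have : CharP (ResidueField A) q := charP_residueField A hq hA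
  have huL : (u : LaurentSeries Qb) ≠ 0 := fun h => hu (Subtype.ext h)
  obtain ⟨c, a, b, hc, ha, hb, ha0, hb0, hub⟩ := hasGaussFrac_bar N A u u.2 huL
  have hτd := hτ.mem_decompositionSubgroup
  have hres := residue_resA_of_frobenius A hτ
  have hredτ : ∀ y : LaurentSeries A, rd A (coeffMap (resA A τ hτd) y) =
      coeffMap (frobenius (ResidueField A) q) (rd A y) := fun y => red_coeffMap_frob q hres y
  have hredN : ∀ y : LaurentSeries A, rd A (normL q y) =
      coeffMap (frobenius (ResidueField A) q) (rd A y) := by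
    intro y
    rw [rd, coeffMap_normL, normL_of_charP]
  have hub' := frac_transport hτd hub
  -- the norm of the Gauss fraction
  have hubN : normL q (u : LaurentSeries Qb) * emb A (normL q b) =
      HahnSeries.single 0 (c ^ q) * emb A (normL q a) := by
    have h := congrArg (normL q) hub
    rw [normL_mul, normL_mul] at h
    have hC : normL q (HahnSeries.single 0 c : LaurentSeries Qb) = HahnSeries.single 0 (c ^ q) := by
      have := normL_C q c
      rwa [HahnSeries.C_apply, HahnSeries.C_apply] at this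
    rw [hC] at h
    rw [emb, coeffMap_normL, coeffMap_normL]
    exact h
  have hτc : τ c ≠ 0 := (map_ne_zero_iff _ τ.injective).mpr hc
  have hτuL : coeffMap (τ : Qb →+* Qb) (u : LaurentSeries Qb) ≠ 0 := by
    rw [← coe_gal]
    intro h
    have h0 : gal N τ u = 0 := Subtype.ext h
    exact hu ((map_eq_zero_iff _ (gal N τ).injective).mp h0)
  have hfa : coeffMap (frobenius (ResidueField A) q) (rd A a) ≠ 0 :=
    coeffMap_frobenius_ne_zero _ q ha0
  have hfb : coeffMap (frobenius (ResidueField A) q) (rd A b) ≠ 0 :=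
    coeffMap_frobenius_ne_zero _ q hb0
  refine isCPrin_of_frac (g := normL q a * coeffMap (resA A τ hτd) b)
    (h := coeffMap (resA A τ hτd) a * normL q b) (c := c ^ q) (c' := τ c)
    (pow_ne_zero _ hc) hτc ?_ ?_ ?_
  · rw [map_mul, hredτ, hredN]
    exact mul_ne_zero hfa hfb
  · have hz : ((Uu / gal N τ u : FK N) : LaurentSeries Qb) =
        normL q (u : LaurentSeries Qb) /
          coeffMap (τ : Qb →+* Qb) (u : LaurentSeries Qb) := by
      rw [← coe_gal, ← hU]; rfl
    rw [hz, div_mul_eq_mul_div, div_eq_iff hτuL, map_mul, map_mul]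
    linear_combination (HahnSeries.single 0 (τ c) * emb A (coeffMap (resA A τ hτd) a)) * hubN -
      (HahnSeries.single 0 (c ^ q) * emb A (normL q a)) * hub'
  · rw [map_mul, map_mul, hredτ, hredτ, hredN, hredN, mul_comm]

/-- the coefficientwise action of the decomposition group of `A` preserves `ker r₁` (constants
times principal units). -/
theorem isCPrin_gal_of_mem_decompositionSubgroup {σ : Qb ≃ₐ[ℚ] Qb}
    (hσd : σ ∈ A.decompositionSubgroup ℚ) {z : FK N}
    (hz : IsCPrin (hasGaussFrac_bar N A) z) : IsCPrin (hasGaussFrac_bar N A) (gal N σ z) := by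
  obtain ⟨c, g, h, hc, hh, hzz, hgh⟩ := isCPrin_iff_exists_frac.mp hz
  have hσc : σ c ≠ 0 := (map_ne_zero_iff _ σ.injective).mpr hc
  -- the induced automorphism of the residue field
  set ψ : ResidueField A →+* ResidueField A :=
    MulSemiringAction.toRingHom (A.decompositionSubgroup ℚ) (ResidueField A) ⟨σ, hσd⟩ with hψ
  have hres : ∀ x : A, residue A (resA A σ hσd x) = ψ (residue A x) := by
    intro x
    show _ = (⟨σ, hσd⟩ : A.decompositionSubgroup ℚ) • residue A x
    rw [← IsLocalRing.ResidueField.residue_smul]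
    rfl
  have hred : ∀ y : LaurentSeries A, rd A (coeffMap (resA A σ hσd) y) = coeffMap ψ (rd A y) :=
    fun y => red_coeffMap hres y
  have hinj : ∀ y : LaurentSeries (ResidueField A), y ≠ 0 → coeffMap ψ y ≠ 0 := by
    intro y hy h0
    apply hy
    ext n
    have h1 := congrArg (fun w : LaurentSeries (ResidueField A) => w.coeff n) h0
    simp only [coeffMap_coeff, HahnSeries.coeff_zero] at h1
    rw [HahnSeries.coeff_zero]
    exact ψ.injective (by rw [h1, map_zero])
  refine isCPrin_iff_exists_frac.mpr ⟨σ c, coeffMap (resA A σ hσd) g, coeffMap (resA A σ hσd) h,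
    hσc, ?_, ?_, ?_⟩
  · rw [hred]
    exact hinj _ hh
  · rw [coe_gal]
    exact frac_transport hσd hzz
  · rw [hred, hred, hgh]

/-! ### the `w₂ = w₁ ∘ W` versions -/

/-- **(A) for `w₂ = w₁ ∘ W`**, `W` any ring automorphism of `F_N` commuting with `σ`
(e.g. the Atkin–Lehner involution `W_q`, which is defined over `ℚ`). -/
theorem inertia_isCPrin_conj (W : FK N ≃+* FK N) {σ : Qb ≃ₐ[ℚ] Qb}
    (hW : ∀ x, W (gal N σ x) = gal N σ (W x)) (hσ : σ ∈ A.inertiaSubgroupIn ℚ) {u : FK N}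
    (hu : u ≠ 0) : IsCPrin (hasGaussFrac_bar N A) (W (gal N σ u / u)) := by
  rw [map_div₀, hW]
  exact inertia_isCPrin hσ ((map_ne_zero_iff _ W.injective).mpr hu)

/-- **(B) for `w₂ = w₁ ∘ W`**: if `U'u` is the value at `u` of the conjugate operator
`U' = W⁻¹ U_q W` (i.e. `W (U'u)` has `q`-expansion `normL q (W u)`), then `W (U'u / τ u)` is a
constant times a principal unit — i.e. `(W⁻¹ U_q W - φ) V ⊂ ker r₂`. -/
theorem frobenius_isCPrin_conj (W : FK N ≃+* FK N) {q : ℕ} [NeZero q] (hq : q.Prime)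
    (hA : A.LiesOverPrime q) {τ : Qb ≃ₐ[ℚ] Qb} (hW : ∀ x, W (gal N τ x) = gal N τ (W x))
    (hτ : A.IsFrobeniusAt τ q) {u U'u : FK N} (hu : u ≠ 0)
    (hU : ((W U'u : FK N) : LaurentSeries Qb) = normL q ((W u : FK N) : LaurentSeries Qb)) :
    IsCPrin (hasGaussFrac_bar N A) (W (U'u / gal N τ u)) := by
  rw [map_div₀, hW]
  exact frobenius_isCPrin hq hA hτ ((map_ne_zero_iff _ W.injective).mpr hu) hU

/-! ### Kummer-level packaging -/

variable (N A)

/-- the units `u` of `F_N` such that `W u` is a constant times a principal unit of the Gauss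
valuation `w₁` attached to `A` (i.e. `u` is one for `w₁ ∘ W`). -/
def cprinUnits (W : FK N ≃+* FK N) : Subgroup (FK N)ˣ where
  carrier := {u | IsCPrin (hasGaussFrac_bar N A) (W (u : FK N))}
  one_mem' := by
    show IsCPrin (hasGaussFrac_bar N A) (W ((1 : (FK N)ˣ) : FK N))
    rw [Units.val_one, map_one]
    exact isCPrin_one
  mul_mem' := by
    intro a b ha hb
    show IsCPrin (hasGaussFrac_bar N A) (W ((a * b : (FK N)ˣ) : FK N))
    rw [Units.val_mul, map_mul]
    exact IsCPrin.mul ha hb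
  inv_mem' := by
    intro a ha
    show IsCPrin (hasGaussFrac_bar N A) (W ((a⁻¹ : (FK N)ˣ) : FK N))
    rw [Units.val_inv_eq_inv_val, map_inv₀]
    exact IsCPrin.inv ha

variable {N A} in
theorem mem_cprinUnits {W : FK N ≃+* FK N} {u : (FK N)ˣ} :
    u ∈ cprinUnits N A W ↔ IsCPrin (hasGaussFrac_bar N A) (W (u : FK N)) := Iff.rfl

/-- **`ker r`** for `r = r₁ ∘ W` on `Kum_m(F_N)`, in unit language: the classes having a
representative `u` such that `W u` is a constant times a principal unit of the Gauss valuation. -/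
def kerRedW (W : FK N ≃+* FK N) (m : ℕ) : AddSubgroup (Additive (Kum Qb (FK N) m)) :=
  Subgroup.toAddSubgroup
    (((cprinUnits N A W).subgroupOf (pDivUnits Qb (FK N) m)).map
      (Kum.mk : pDivUnits Qb (FK N) m →* Kum Qb (FK N) m))

/-- **`ker r₁`** on `Kum_m(F_N)`. -/
def kerRed (m : ℕ) : AddSubgroup (Additive (Kum Qb (FK N) m)) :=
  kerRedW N A (RingEquiv.refl (FK N)) m

variable {N A}

theorem mem_kerRedW {W : FK N ≃+* FK N} {m : ℕ} {x : Additive (Kum Qb (FK N) m)} :
    x ∈ kerRedW N A W m ↔ ∃ u : pDivUnits Qb (FK N) m,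
      IsCPrin (hasGaussFrac_bar N A) (W ((u : (FK N)ˣ) : FK N)) ∧
        Additive.ofMul (Kum.mk u) = x := by
  constructor
  · rintro ⟨u, hu, rfl⟩
    exact ⟨u, hu, rfl⟩
  · rintro ⟨u, hu, rfl⟩
    exact ⟨u, hu, rfl⟩

theorem mem_kerRed {m : ℕ} {x : Additive (Kum Qb (FK N) m)} :
    x ∈ kerRed N A m ↔ ∃ u : pDivUnits Qb (FK N) m,
      IsCPrin (hasGaussFrac_bar N A) ((u : (FK N)ˣ) : FK N) ∧
        Additive.ofMul (Kum.mk u) = x :=
  mem_kerRedW

/-- `[u] - [v] ∈ ker (r₁ ∘ W)` as soon as `W (u / v)` is a constant times a principal unit. -/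
theorem ofMul_sub_mem_kerRedW {W : FK N ≃+* FK N} {m : ℕ} (u v : pDivUnits Qb (FK N) m)
    (h : IsCPrin (hasGaussFrac_bar N A) (W (((u : (FK N)ˣ) : FK N) / ((v : (FK N)ˣ) : FK N)))) :
    Additive.ofMul (Kum.mk u) - Additive.ofMul (Kum.mk v) ∈ kerRedW N A W m := by
  refine mem_kerRedW.mpr ⟨u / v, ?_, ?_⟩
  · have h1 : (((u / v : pDivUnits Qb (FK N) m) : (FK N)ˣ) : FK N) =
        ((u : (FK N)ˣ) : FK N) / ((v : (FK N)ˣ) : FK N) := by
      rw [Subgroup.coe_div, Units.val_div_eq_div_val]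
    rw [h1]
    exact h
  · rw [map_div, ofMul_div]

open Fermat.Agent.GJ.Kum.KumType in
/-- **(A) on `Kum_m`**: `(σ - 1) Kum_m ⊂ ker (r₁ ∘ W)` for `σ` in the inertia group of `A` and
`W` commuting with `σ`. -/
theorem gal_sub_mem_kerRedW (W : FK N ≃+* FK N) {σ : Qb ≃ₐ[ℚ] Qb}
    (hW : ∀ x, W (Fermat.Agent.GJ.Kum.gal N σ x) = Fermat.Agent.GJ.Kum.gal N σ (W x))
    (hσ : σ ∈ A.inertiaSubgroupIn ℚ) (m : ℕ) (x : Additive (Kum Qb (FK N) m)) :
    KumType.gal N m σ x - x ∈ kerRedW N A W m := by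
  obtain ⟨u, rfl⟩ := exists_rep (K := Qb) (F := FK N) (p := m) x
  rw [gal_mk]
  refine ofMul_sub_mem_kerRedW _ u ?_
  exact inertia_isCPrin_conj W hW hσ (u : (FK N)ˣ).ne_zero

open Fermat.Agent.GJ.Kum.KumType in
/-- **(A) on `Kum_m`**, `W = id`: `(σ - 1) Kum_m ⊂ ker r₁`. -/
theorem gal_sub_mem_kerRed {σ : Qb ≃ₐ[ℚ] Qb} (hσ : σ ∈ A.inertiaSubgroupIn ℚ) (m : ℕ)
    (x : Additive (Kum Qb (FK N) m)) : KumType.gal N m σ x - x ∈ kerRed N A m :=
  gal_sub_mem_kerRedW (RingEquiv.refl (FK N)) (fun _ => rfl) hσ m x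

open Fermat.Agent.GJ.Kum.KumType in
/-- **(B) on `Kum_m`**, relational form: if `U'u` represents the value at `[u]` of
`U' = W⁻¹ U_q W` (i.e. `W U'u` has `q`-expansion `normL q (W u)`), then
`[U'u] - φ [u] ∈ ker (r₁ ∘ W)` for every Frobenius `τ = φ` at `A`. -/
theorem uq_sub_frob_mem_kerRedW (W : FK N ≃+* FK N) {q : ℕ} [NeZero q] (hq : q.Prime)
    (hA : A.LiesOverPrime q) {τ : Qb ≃ₐ[ℚ] Qb}
    (hW : ∀ x, W (Fermat.Agent.GJ.Kum.gal N τ x) = Fermat.Agent.GJ.Kum.gal N τ (W x))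
    (hτ : A.IsFrobeniusAt τ q) {m : ℕ} (u U'u : pDivUnits Qb (FK N) m)
    (hU : ((W ((U'u : (FK N)ˣ) : FK N) : FK N) : LaurentSeries Qb) =
      normL q ((W ((u : (FK N)ˣ) : FK N) : FK N) : LaurentSeries Qb)) :
    Additive.ofMul (Kum.mk U'u) - KumType.gal N m τ (Additive.ofMul (Kum.mk u)) ∈
      kerRedW N A W m := by
  rw [gal_mk]
  refine ofMul_sub_mem_kerRedW U'u _ ?_
  exact frobenius_isCPrin_conj W hq hA hW hτ (u : (FK N)ˣ).ne_zero hU

open Fermat.Agent.GJ.Kum.KumType in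
/-- **(B) on `Kum_m`**, `W = id`: `[U_q u] - φ [u] ∈ ker r₁`. -/
theorem uq_sub_frob_mem_kerRed {q : ℕ} [NeZero q] (hq : q.Prime)
    (hA : A.LiesOverPrime q) {τ : Qb ≃ₐ[ℚ] Qb} (hτ : A.IsFrobeniusAt τ q) {m : ℕ}
    (u Uu : pDivUnits Qb (FK N) m)
    (hU : ((((Uu : (FK N)ˣ) : FK N)) : LaurentSeries Qb) =
      normL q ((((u : (FK N)ˣ) : FK N)) : LaurentSeries Qb)) :
    Additive.ofMul (Kum.mk Uu) - KumType.gal N m τ (Additive.ofMul (Kum.mk u)) ∈
      kerRed N A m :=
  uq_sub_frob_mem_kerRedW (RingEquiv.refl (FK N)) hq hA (fun _ => rfl) hτ u Uu hU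

open Fermat.Agent.GJ.Kum.KumType in
/-- `ker (r₁ ∘ W)` is stable under the decomposition group of `A` (for `W` commuting with it). -/
theorem gal_mem_kerRedW (W : FK N ≃+* FK N) {σ : Qb ≃ₐ[ℚ] Qb}
    (hW : ∀ x, W (Fermat.Agent.GJ.Kum.gal N σ x) = Fermat.Agent.GJ.Kum.gal N σ (W x))
    (hσd : σ ∈ A.decompositionSubgroup ℚ) (m : ℕ) {x : Additive (Kum Qb (FK N) m)}
    (hx : x ∈ kerRedW N A W m) : KumType.gal N m σ x ∈ kerRedW N A W m := by
  obtain ⟨u, hu, rfl⟩ := mem_kerRedW.mp hx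
  rw [gal_mk]
  refine mem_kerRedW.mpr ⟨_, ?_, rfl⟩
  show IsCPrin (hasGaussFrac_bar N A) (W (Fermat.Agent.GJ.Kum.gal N σ ((u : (FK N)ˣ) : FK N)))
  rw [hW]
  exact isCPrin_gal_of_mem_decompositionSubgroup hσd hu

end Concrete

end Fermat.Agent.GK.UqKronecker
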