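/-
GATE-K / node (b), corollaries (helper32):

* `autEnd W m` : the endomorphism of `Kum_m(F)` induced by a `K`-algebra automorphism `W` of `F`
  (e.g. helper42's Atkin–Lehner involution `wAut`), `autEnd_mk`, `autEnd_symm_autEnd`;
* `mem_kerRedW_iff` : `x ∈ ker (r₁ ∘ W) ↔ autEnd W x ∈ ker r₁`;
* `UEnd_sub_gal_mem_kerRed` : the `U_q`–Kronecker congruence for helper86's operator
  `UEnd N m hqN` on `Kum_m(F_N)`:  `(U_q - φ) Kum_m ⊂ ker r₁`  for every Frobenius lift `φ = τ` at a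
  valuation subring `A` of `ℚ̄` over `q ∣ N`;
* `UEnd_conj_sub_gal_mem_kerRedW` : `(W⁻¹ U_q W - φ) Kum_m ⊂ ker (r₁ ∘ W)` for `W` commuting with
  `τ`; `autEnd_comm_gal`;
* the instances `W = wAut h` (helper42's Atkin–Lehner involution at `q ∥ N`): `kerRed₂ h A m`
  (`= ker r₂`), `gal_sub_mem_kerRed₂`, `UEnd_sub_gal_mem_kerRed₂_of_comm`, ...
-/
import Fermat.Agent.GK.UqKronecker
import Fermat.Agent.GK.UQ.KumU
import Fermat.Agent.GK.AL.WGal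

set_option autoImplicit false

noncomputable section

namespace Fermat.Agent.GK.UqKronecker

open HahnSeries ModularCurve IsLocalRing AlgebraicCurve
open Fermat.Agent.GJ.J1 Fermat.Agent.GJ.J1.Val Fermat.Agent.GJ.Kum Fermat.Agent.GJ.KumGroup
open Fermat.Agent.GK.UQ

/-! ### the endomorphism of `Kum` induced by an algebra automorphism -/

section AutEnd

variable {K F : Type*} [Field K] [Field F] [Algebra K F]

/-- an algebra automorphism on units -/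
def autUnits (W : F ≃ₐ[K] F) : Fˣ →* Fˣ := Units.map ((W : F ≃+* F) : F →* F)

@[simp] theorem coe_autUnits (W : F ≃ₐ[K] F) (u : Fˣ) : ((autUnits W u : Fˣ) : F) = W (u : F) :=
  rfl

theorem autUnits_mem (W : F ≃ₐ[K] F) (m : ℕ) (u : Fˣ) (hu : u ∈ pDivUnits K F m) :
    autUnits W u ∈ pDivUnits K F m :=
  fun P => Fermat.Agent.GJ.Kum.GalDiv.dvd_ord_smul (SemilinearAut.ofAlgAut W) (m : ℤ)
    (f := (u : F)) hu P

/-- **the endomorphism of `Kum_m(F)` induced by a `K`-algebra automorphism of `F`** -/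
def autEnd (W : F ≃ₐ[K] F) (m : ℕ) : Module.End (ZMod m) (Additive (Kum K F m)) :=
  KumType.kumEnd (autUnits W) (autUnits_mem W m)

theorem autEnd_mk (W : F ≃ₐ[K] F) (m : ℕ) (u : pDivUnits K F m) :
    autEnd W m (Additive.ofMul (Kum.mk u)) =
      Additive.ofMul (Kum.mk ⟨autUnits W u, autUnits_mem W m u u.2⟩) := rfl

theorem autEnd_symm_autEnd (W : F ≃ₐ[K] F) (m : ℕ) (x : Additive (Kum K F m)) :
    autEnd W.symm m (autEnd W m x) = x := by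
  obtain ⟨u, rfl⟩ := KumType.exists_rep x
  rw [autEnd_mk, autEnd_mk]
  refine congrArg (fun v => Additive.ofMul (Kum.mk v)) (Subtype.ext (Units.ext ?_))
  show W.symm (W ((u : Fˣ) : F)) = ((u : Fˣ) : F)
  exact W.symm_apply_apply _

theorem autEnd_autEnd_symm (W : F ≃ₐ[K] F) (m : ℕ) (x : Additive (Kum K F m)) :
    autEnd W m (autEnd W.symm m x) = x := by
  have h := autEnd_symm_autEnd W.symm m x
  rwa [AlgEquiv.symm_symm] at h

end AutEnd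

/-! ### `ker (r₁ ∘ W)` via `autEnd W` -/

section KerRedW

variable {N : ℕ} [NeZero N] {A : ValuationSubring Qb}

/-- `x ∈ ker (r₁ ∘ W) ↔ W x ∈ ker r₁`. -/
theorem mem_kerRedW_iff (W : FK N ≃ₐ[Qb] FK N) (m : ℕ) (x : Additive (Kum Qb (FK N) m)) :
    x ∈ kerRedW N A (W : FK N ≃+* FK N) m ↔ autEnd W m x ∈ kerRed N A m := by
  constructor
  · intro hx
    obtain ⟨u, hu, rfl⟩ := mem_kerRedW.mp hx
    rw [autEnd_mk]
    refine mem_kerRed.mpr ⟨⟨autUnits W u, autUnits_mem W m u u.2⟩, ?_, rfl⟩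
    exact hu
  · intro hx
    obtain ⟨v, hv, hvx⟩ := mem_kerRed.mp hx
    -- `x = W⁻¹ (W x) = W⁻¹ [v] = [W⁻¹ v]`
    have h1 : x = autEnd W.symm m (Additive.ofMul (Kum.mk v)) := by
      rw [hvx, autEnd_symm_autEnd]
    rw [h1, autEnd_mk]
    refine mem_kerRedW.mpr ⟨⟨autUnits W.symm v, autUnits_mem W.symm m v v.2⟩, ?_, rfl⟩
    have h2 : (W : FK N ≃+* FK N) (W.symm ((v : (FK N)ˣ) : FK N)) = ((v : (FK N)ˣ) : FK N) :=
      W.apply_symm_apply _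
    show IsCPrin (hasGaussFrac_bar N A) ((W : FK N ≃+* FK N) (W.symm ((v : (FK N)ˣ) : FK N)))
    rw [h2]
    exact hv

omit [NeZero N] in
/-- `autEnd W` commutes with the Galois action, for `W` defined over `ℚ`. -/
theorem autEnd_comm_gal (W : FK N ≃ₐ[Qb] FK N) {σ : Qb ≃ₐ[ℚ] Qb}
    (hW : ∀ x, W (gal N σ x) = gal N σ (W x)) (m : ℕ) (x : Additive (Kum Qb (FK N) m)) :
    autEnd W m (KumType.gal N m σ x) = KumType.gal N m σ (autEnd W m x) := by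
  obtain ⟨u, rfl⟩ := KumType.exists_rep x
  rw [KumType.gal_mk, autEnd_mk, autEnd_mk, KumType.gal_mk]
  refine congrArg (fun v => Additive.ofMul (Kum.mk v)) (Subtype.ext (Units.ext ?_))
  exact hW _

end KerRedW

/-! ### the congruence for `UEnd` -/

section UEnd

variable {N : ℕ} [NeZero N] {A : ValuationSubring Qb} {q : ℕ} [Fact q.Prime]

/-- unit form: `U_q u / τ u` is a constant times a principal unit of the Gauss valuation. -/
theorem uNormF_div_gal_isCPrin (hqN : q ∣ N) (hA : A.LiesOverPrime q) {τ : Qb ≃ₐ[ℚ] Qb}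
    (hτ : A.IsFrobeniusAt τ q) {u : FK N} (hu : u ≠ 0) :
    IsCPrin (hasGaussFrac_bar N A) (uNormF N q u / gal N τ u) := by
  have hq : q.Prime := Fact.out
  have : NeZero q := ⟨hq.ne_zero⟩
  exact frobenius_isCPrin hq hA hτ hu (coe_uNormF hqN u)

/-- **(b) on `Kum_m(F_N)`**: `(U_q - φ) x ∈ ker r₁`. -/
theorem UEnd_sub_gal_mem_kerRed (hqN : q ∣ N) (hA : A.LiesOverPrime q) {τ : Qb ≃ₐ[ℚ] Qb}
    (hτ : A.IsFrobeniusAt τ q) (m : ℕ) (x : Additive (Kum Qb (FK N) m)) :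
    UEnd N m hqN x - KumType.gal N m τ x ∈ kerRed N A m := by
  have hq : q.Prime := Fact.out
  have : NeZero q := ⟨hq.ne_zero⟩
  obtain ⟨u, rfl⟩ := KumType.exists_rep (K := Qb) (F := FK N) (p := m) x
  rw [UEnd_mk]
  exact uq_sub_frob_mem_kerRed hq hA hτ u _ (series_uNormUnits hqN (u : (FK N)ˣ))

/-- **(b) for `r₂ = r₁ ∘ W`**: `(W⁻¹ U_q W - φ) x ∈ ker (r₁ ∘ W)` for `W` commuting with `τ`. -/
theorem UEnd_conj_sub_gal_mem_kerRedW (W : FK N ≃ₐ[Qb] FK N) (hqN : q ∣ N)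
    (hA : A.LiesOverPrime q) {τ : Qb ≃ₐ[ℚ] Qb}
    (hW : ∀ x, W (gal N τ x) = gal N τ (W x)) (hτ : A.IsFrobeniusAt τ q) (m : ℕ)
    (x : Additive (Kum Qb (FK N) m)) :
    autEnd W.symm m (UEnd N m hqN (autEnd W m x)) - KumType.gal N m τ x ∈
      kerRedW N A (W : FK N ≃+* FK N) m := by
  rw [mem_kerRedW_iff, map_sub, autEnd_autEnd_symm, autEnd_comm_gal W hW]
  exact UEnd_sub_gal_mem_kerRed hqN hA hτ m _

/-- variant: `(U_q - φ) (W x) ∈ ker r₁` rewritten as `W ((W⁻¹ U_q W - φ) x) ∈ ker r₁`; if moreover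
`U_q` commutes with `W` on `x` this is `(U_q - φ) x ∈ ker (r₁ ∘ W)`. -/
theorem UEnd_sub_gal_mem_kerRedW_of_comm (W : FK N ≃ₐ[Qb] FK N) (hqN : q ∣ N)
    (hA : A.LiesOverPrime q) {τ : Qb ≃ₐ[ℚ] Qb}
    (hW : ∀ x, W (gal N τ x) = gal N τ (W x)) (hτ : A.IsFrobeniusAt τ q) (m : ℕ)
    (x : Additive (Kum Qb (FK N) m))
    (hcomm : autEnd W m (UEnd N m hqN x) = UEnd N m hqN (autEnd W m x)) :
    UEnd N m hqN x - KumType.gal N m τ x ∈ kerRedW N A (W : FK N ≃+* FK N) m := by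
  rw [mem_kerRedW_iff, map_sub, hcomm, autEnd_comm_gal W hW]
  exact UEnd_sub_gal_mem_kerRed hqN hA hτ m _

end UEnd

/-! ### the instance `W = wAut h` (Atkin–Lehner involution at `q ∥ N`) -/

section WAut

open Fermat.Agent.GK.AL

variable {N : ℕ} [NeZero N] {q : ℕ} (h : ExactDvd q N) (A : ValuationSubring Qb)

/-- **`ker r₂`**, `r₂ = r₁ ∘ W_q`, on `Kum_m(F_N)`. -/
def kerRed₂ (m : ℕ) : AddSubgroup (Additive (Kum Qb (FK N) m)) :=
  kerRedW N A ((wAut h : FK N ≃ₐ[Qb] FK N) : FK N ≃+* FK N) m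

variable {A}

theorem wAut_comm_gal (σ : Qb ≃ₐ[ℚ] Qb) (x : FK N) :
    (wAut h : FK N ≃ₐ[Qb] FK N) (gal N σ x) = gal N σ ((wAut h : FK N ≃ₐ[Qb] FK N) x) :=
  wAut_arithmeticRingAut h σ x

theorem mem_kerRed₂_iff (m : ℕ) (x : Additive (Kum Qb (FK N) m)) :
    x ∈ kerRed₂ h A m ↔ autEnd (wAut h : FK N ≃ₐ[Qb] FK N) m x ∈ kerRed N A m :=
  mem_kerRedW_iff _ m x

/-- `W_q` is an involution on `Kum_m(F_N)`. -/
theorem autEnd_wAut_autEnd_wAut (m : ℕ) (x : Additive (Kum Qb (FK N) m)) :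
    autEnd (wAut h : FK N ≃ₐ[Qb] FK N) m (autEnd (wAut h : FK N ≃ₐ[Qb] FK N) m x) = x := by
  have h1 := autEnd_symm_autEnd (wAut h : FK N ≃ₐ[Qb] FK N) m x
  rwa [wAut_symm] at h1

/-- **(a)** `(σ - 1) Kum_m ⊂ ker r₁ ∩ ker r₂` for `σ` in the inertia group of `A`: the `r₂` half. -/
theorem gal_sub_mem_kerRed₂ {σ : Qb ≃ₐ[ℚ] Qb} (hσ : σ ∈ A.inertiaSubgroupIn ℚ) (m : ℕ)
    (x : Additive (Kum Qb (FK N) m)) : KumType.gal N m σ x - x ∈ kerRed₂ h A m :=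
  gal_sub_mem_kerRedW _ (wAut_comm_gal h σ) hσ m x

/-- `ker r₂` is stable under the decomposition group of `A`. -/
theorem gal_mem_kerRed₂ {σ : Qb ≃ₐ[ℚ] Qb} (hσd : σ ∈ A.decompositionSubgroup ℚ) (m : ℕ)
    {x : Additive (Kum Qb (FK N) m)} (hx : x ∈ kerRed₂ h A m) :
    KumType.gal N m σ x ∈ kerRed₂ h A m :=
  gal_mem_kerRedW _ (wAut_comm_gal h σ) hσd m hx

variable [Fact q.Prime]

/-- **(b) for `r₂`**: `(W U_q W - φ) x ∈ ker r₂`. -/
theorem UEnd_conj_sub_gal_mem_kerRed₂ (hA : A.LiesOverPrime q) {τ : Qb ≃ₐ[ℚ] Qb}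
    (hτ : A.IsFrobeniusAt τ q) (m : ℕ) (x : Additive (Kum Qb (FK N) m)) :
    autEnd (wAut h : FK N ≃ₐ[Qb] FK N) m
        (UEnd N m h.dvd (autEnd (wAut h : FK N ≃ₐ[Qb] FK N) m x)) - KumType.gal N m τ x ∈
      kerRed₂ h A m := by
  have h1 := UEnd_conj_sub_gal_mem_kerRedW (A := A) (wAut h : FK N ≃ₐ[Qb] FK N) h.dvd hA
    (wAut_comm_gal h τ) hτ m x
  rwa [wAut_symm] at h1

/-- **(b) for `r₂`** where `U_q` commutes with `W_q` on `x` (e.g. on the `q`-new part):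
`(U_q - φ) x ∈ ker r₂`. -/
theorem UEnd_sub_gal_mem_kerRed₂_of_comm (hA : A.LiesOverPrime q) {τ : Qb ≃ₐ[ℚ] Qb}
    (hτ : A.IsFrobeniusAt τ q) (m : ℕ) (x : Additive (Kum Qb (FK N) m))
    (hcomm : autEnd (wAut h : FK N ≃ₐ[Qb] FK N) m (UEnd N m h.dvd x) =
      UEnd N m h.dvd (autEnd (wAut h : FK N ≃ₐ[Qb] FK N) m x)) :
    UEnd N m h.dvd x - KumType.gal N m τ x ∈ kerRed₂ h A m :=
  UEnd_sub_gal_mem_kerRedW_of_comm _ h.dvd hA (wAut_comm_gal h τ) hτ m x hcomm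

end WAut

end Fermat.Agent.GK.UqKronecker
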