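import Fermat.Agent.GK.NodalGraded
import Fermat.Agent.GJ.J1.PlaceLattice
import Fermat.Agent.GJ.FF.PrincipalGen
import Fermat.Agent.GK.Red.FrobChart

/-!
# Pole bounds for the glued Riemann–Roch spaces in chart language (GATE-K N7d, helper34)

`F / K` a function field in one variable (`[IsGen K x₀]`), `t : F` with exact pole divisor `D`
(`NodalGraded.ExactPoles t D`).  Then for `x ∈ L(n • D)`:

* `regFin_of_mem_rr` : `x` is integral over `K[t]`;
* `regFin_inv_of_mem_rr` : `t⁻¹ ^ n * x` is integral over `K[t⁻¹]`;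

and conversely (`mem_rr_of_regFin`).  For the graded family `T n` of `NodalGraded`:

* `pole_T` : `z ∈ T n → RegFin k t₁ z.1 ∧ RegFin k t₂ z.2 ∧ RegFin k t₁⁻¹ (t₁⁻¹ ^ n * z.1) ∧
  RegFin k t₂⁻¹ (t₂⁻¹ ^ n * z.2)` (= `hpole` of helper29's `PencilInf.hinf_of_hfin`);
* `exactPoles_poleDiv` : `ExactPoles t (poleDiv K t)`;
* `degree_poleDiv_pos`.
-/

set_option autoImplicit false
set_option linter.unusedSectionVars false

noncomputable section

open AlgebraicCurve IntermediateField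

namespace Fermat.Agent.GK.NodalPole

open Fermat.Agent.RRh45 Fermat.Agent.RR Fermat.Agent.S24 Fermat.Agent.GK.NodalGraded
open Fermat.Agent.GJ.J1 Fermat.Agent.GJ.J1.PlaceLattice

variable {K F : Type*} [Field K] [Field F] [Algebra K F]

section Exact

variable {t : F} {D : Divisor K F}

theorem apply_nonneg (h : ExactPoles t D) (v : Place K F) : 0 ≤ D v :=
  Finsupp.le_def.mp h.nonneg v

/-- where `t` is regular, `D` vanishes -/
theorem apply_eq_zero_of_ord_nonneg (h : ExactPoles t D) {v : Place K F} (hv : 0 ≤ v.ord t) :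
    D v = 0 := by
  rcases (apply_nonneg h v).lt_or_eq with hpos | hz
  · have := h.ord_eq v hpos
    omega
  · exact hz.symm

/-- at a pole of `t`, `D v = - ord_v t` -/
theorem apply_eq_neg_ord_of_ord_neg (h : ExactPoles t D) {v : Place K F} (hv : v.ord t < 0) :
    D v = -v.ord t := by
  rcases (apply_nonneg h v).lt_or_eq with hpos | hz
  · have := h.ord_eq v hpos
    omega
  · have := h.ord_nonneg v hz.symm
    omega

theorem nsmul_apply' (n : ℕ) (v : Place K F) : (n • D) v = (n : ℤ) * D v := by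
  rw [Finsupp.smul_apply, nsmul_eq_mul]

/-- elements of `L(n D)` are integral over `K[t]` -/
theorem regFin_of_mem_rr (x₀ : F) [IsGen K x₀] (h : ExactPoles t D) {n : ℕ} {x : F}
    (hx : x ∈ riemannRochSpace (n • D)) : RegFin K t x := by
  rw [regFin_iff_ord x₀]
  intro v hv
  rw [mem_riemannRochSpace_iff] at hx
  rcases hx v with rfl | hx
  · rw [Place.ord_zero]
  · rw [nsmul_apply', apply_eq_zero_of_ord_nonneg h hv] at hx
    simpa using hx

/-- elements of `L(n D)` divided by `t ^ n` are integral over `K[t⁻¹]` -/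
theorem regFin_inv_of_mem_rr (x₀ : F) [IsGen K x₀] (h : ExactPoles t D) {n : ℕ} {x : F}
    (hx : x ∈ riemannRochSpace (n • D)) : RegFin K t⁻¹ (t⁻¹ ^ n * x) := by
  rw [regFin_iff_ord x₀]
  intro v hv
  rw [Place.ord_inv] at hv
  rw [mem_riemannRochSpace_iff] at hx
  rcases hx v with rfl | hx
  · rw [mul_zero, Place.ord_zero]
  · by_cases hx0 : x = 0
    · rw [hx0, mul_zero, Place.ord_zero]
    have ht0 : t⁻¹ ^ n ≠ 0 := pow_ne_zero _ (inv_ne_zero h.ne_zero)
    rw [Place.ord_mul v ht0 hx0, ← zpow_natCast, Place.ord_zpow, Place.ord_inv]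
    rw [nsmul_apply'] at hx
    rcases (show v.ord t < 0 ∨ v.ord t = 0 by omega) with hneg | hzero
    · rw [apply_eq_neg_ord_of_ord_neg h hneg] at hx
      linarith
    · rw [apply_eq_zero_of_ord_nonneg h hzero.ge] at hx
      rw [hzero]
      simpa using hx

/-- conversely, the two chart conditions cut out `L(n D)` -/
theorem mem_rr_of_regFin (x₀ : F) [IsGen K x₀] (h : ExactPoles t D) {n : ℕ} {x : F}
    (h1 : RegFin K t x) (h2 : RegFin K t⁻¹ (t⁻¹ ^ n * x)) : x ∈ riemannRochSpace (n • D) := by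
  rw [regFin_iff_ord x₀] at h1 h2
  rw [mem_riemannRochSpace_iff]
  intro v
  by_cases hx0 : x = 0
  · exact Or.inl hx0
  right
  rw [nsmul_apply']
  rcases (show v.ord t < 0 ∨ 0 ≤ v.ord t by omega) with hneg | hnn
  · have h3 := h2 v (by rw [Place.ord_inv]; omega)
    have ht0 : t⁻¹ ^ n ≠ 0 := pow_ne_zero _ (inv_ne_zero h.ne_zero)
    rw [Place.ord_mul v ht0 hx0, ← zpow_natCast, Place.ord_zpow, Place.ord_inv] at h3
    rw [apply_eq_neg_ord_of_ord_neg h hneg]
    linarith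
  · rw [apply_eq_zero_of_ord_nonneg h hnn]
    simpa using h1 v hnn

theorem mem_rr_iff_regFin (x₀ : F) [IsGen K x₀] (h : ExactPoles t D) {n : ℕ} {x : F} :
    x ∈ riemannRochSpace (n • D) ↔ RegFin K t x ∧ RegFin K t⁻¹ (t⁻¹ ^ n * x) :=
  ⟨fun hx => ⟨regFin_of_mem_rr x₀ h hx, regFin_inv_of_mem_rr x₀ h hx⟩,
    fun hx => mem_rr_of_regFin x₀ h hx.1 hx.2⟩

end Exact

section PoleDiv

variable [HasPrincipalDivisors K F]

/-- the pole divisor of `t` is an exact pole divisor -/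
theorem exactPoles_poleDiv {t : F} (ht : t ≠ 0) : ExactPoles t (Bound.poleDiv K t) where
  ne_zero := ht
  nonneg := Bound.poleDiv_nonneg t
  ord_eq := by
    intro v hv
    rw [Bound.poleDiv_apply ht] at hv ⊢
    rcases le_total (-(v.ord t)) 0 with h | h
    · rw [max_eq_right h] at hv; omega
    · rw [max_eq_left h]; ring
  ord_nonneg := by
    intro v hv
    rw [Bound.poleDiv_apply ht] at hv
    have := le_max_left (-(v.ord t)) 0
    omega

/-- an exact pole divisor is the pole divisor -/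
theorem eq_poleDiv {t : F} {D : Divisor K F} (h : ExactPoles t D) : D = Bound.poleDiv K t := by
  ext v
  rw [Bound.poleDiv_apply h.ne_zero]
  rcases (show v.ord t < 0 ∨ 0 ≤ v.ord t by omega) with hneg | hnn
  · rw [apply_eq_neg_ord_of_ord_neg h hneg, max_eq_left (by omega)]
  · rw [apply_eq_zero_of_ord_nonneg h hnn, max_eq_right (by omega)]

/-- `deg (t)_∞ = [F : K(t)] > 0` -/
theorem degree_poleDiv_eq (x₀ : F) [IsGen K x₀] {t : F}
    (ht : Transcendental K t) :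
    Divisor.degree (Bound.poleDiv K t) = (Module.finrank K⟮t⟯ F : ℤ) := by
  have ht0 : t ≠ 0 := fun h0 => ht (h0 ▸ isAlgebraic_zero)
  exact Fermat.Agent.GJ.FF.PrincipalOf.degree_eq_finrank_of_poles (K := K) x₀ ht
    (Bound.poleDiv K t) (fun v => Bound.poleDiv_apply ht0 v)

theorem degree_poleDiv_pos (x₀ : F) [IsGen K x₀] {t : F}
    (ht : Transcendental K t) : 0 < Divisor.degree (Bound.poleDiv K t) := by
  rw [degree_poleDiv_eq x₀ ht]
  have := (IsGen.of_transcendental x₀ ht).finite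
  exact_mod_cast Module.finrank_pos (R := K⟮t⟯) (M := F)

end PoleDiv

/-! ### the graded family -/

section Graded

variable {k F₁ F₂ : Type*} [Field k] [Field F₁] [Field F₂] [Algebra k F₁] [Algebra k F₂]
variable {ι : Type*} {P : ι → Place k F₁} {Q : ι → Place k F₂}
variable {D₁ : Divisor k F₁} {D₂ : Divisor k F₂} {t₁ : F₁} {t₂ : F₂}

/-- **pole bound for `T n`** (= `hpole` of `PencilInf.hinf_of_hfin`, and its finite twin) -/
theorem pole_T (x₁ : F₁) [IsGen k x₁] (x₂ : F₂) [IsGen k x₂]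
    (ht₁ : ExactPoles t₁ D₁) (ht₂ : ExactPoles t₂ D₂) {n : ℕ} {z : F₁ × F₂}
    (hz : z ∈ T P Q D₁ D₂ n) :
    RegFin k t₁ z.1 ∧ RegFin k t₂ z.2 ∧
      RegFin k t₁⁻¹ (t₁⁻¹ ^ n * z.1) ∧ RegFin k t₂⁻¹ (t₂⁻¹ ^ n * z.2) :=
  ⟨regFin_of_mem_rr x₁ ht₁ hz.1, regFin_of_mem_rr x₂ ht₂ hz.2.1,
    regFin_inv_of_mem_rr x₁ ht₁ hz.1, regFin_inv_of_mem_rr x₂ ht₂ hz.2.1⟩

end Graded

/-- the form used in `PencilInf.hinf_of_hfin`: one field `Ft`, `σ = (tt, tt ^ q)`, `t₁ = tt⁻¹`,
`t₂ = (tt ^ q)⁻¹`, `C₁ = {RegFin k tt}` -/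
theorem hpole_T {k Ft : Type*} [Field k] [Field Ft] [Algebra k Ft] {ι : Type*}
    {P Q : ι → Place k Ft} {D₁ D₂ : Divisor k Ft} (x₁ : Ft) [IsGen k x₁]
    {tt : Ft} {q : ℕ} (hq : 0 < q)
    (ht₁ : ExactPoles tt⁻¹ D₁) (ht₂ : ExactPoles (tt ^ q)⁻¹ D₂) {n : ℕ} {z : Ft × Ft}
    (hz : z ∈ T P Q D₁ D₂ n) :
    RegFin k tt ((((tt, tt ^ q) : Ft × Ft) ^ n * z).1) ∧
      RegFin k tt ((((tt, tt ^ q) : Ft × Ft) ^ n * z).2) := by
  obtain ⟨-, -, h3, h4⟩ := pole_T x₁ x₁ ht₁ ht₂ hz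
  rw [inv_inv] at h3 h4
  refine ⟨?_, ?_⟩
  · simpa using h3
  · have : RegFin k tt ((tt ^ q) ^ n * z.2) := (Red.regFin_pow_iff hq).mp h4
    simpa using this

end Fermat.Agent.GK.NodalPole
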