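import Fermat.Agent.GK.NodalFibre

/-!
# The graded family `T n` of glued Riemann–Roch spaces on a nodal fibre
(GATE-K N7d, fibre side of the pencil count, helper34)

`F₁`, `F₂` function fields over `k`, nodes `P j ∈ Place k F₁`, `Q j ∈ Place k F₂` (degree one),
divisors `D₁, D₂ ≥ 0` avoiding the nodes, `t₁ ∈ F₁`, `t₂ ∈ F₂` with EXACT pole divisors `D₁`, `D₂`,
`s = (t₁, t₂) ∈ F₁ × F₂`.

`T n = {z ∈ F₁ × F₂ | z.1 ∈ L(n D₁), z.2 ∈ L(n D₂), z.1(P j) = z.2(Q j) for all j}`.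

* `one_mem_T`, `T_mono`, `smul_mem_T` (`s * T n ⊆ T (n+1)` when `s ∈ T 1`);
* `cancel_mem_T` (h4) : `w ∈ T (n+1) → s * w ∈ T (n+1) → w ∈ T n`;
* `finrank_T_eq_glueSub`, `exists_finrank_T` : `dim T n = n (deg D₁ + deg D₂) + ℓ₁(0) + ℓ₂(0)
  - g₁ - g₂ - card ι` for `n ≥ n₀`.
-/

set_option autoImplicit false
set_option linter.unusedSectionVars false

noncomputable section

open AlgebraicCurve

namespace Fermat.Agent.GK.NodalGraded

open Fermat.Agent.RRh45 Fermat.Agent.RR Fermat.Agent.GK.NodalRR Fermat.Agent.GK.EvalK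
open Fermat.Agent.GK.Glue Fermat.Agent.S24

section Value

variable {K F : Type*} [Field K] [Field F] [Algebra K F] (v : Place K F)

theorem mul_mem_ordGE {a b : ℤ} {f g : F} (hf : f ∈ ordGE v a) (hg : g ∈ ordGE v b) :
    f * g ∈ ordGE v (a + b) := by
  rw [mem_ordGE] at hf hg ⊢
  by_cases hf0 : f = 0
  · left; rw [hf0, zero_mul]
  by_cases hg0 : g = 0
  · left; rw [hg0, mul_zero]
  right
  rw [v.ord_mul hf0 hg0]
  have := hf.resolve_left hf0
  have := hg.resolve_left hg0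
  omega

theorem algebraMap_mem_ordGE_zero (c : K) : algebraMap K F c ∈ ordGE v 0 := by
  rw [mem_ordGE]
  by_cases hc : c = 0
  · left; rw [hc, map_zero]
  · right; rw [PlaceB.ord_algebraMap v hc]

/-- `f(v) = c` : `f - c` vanishes at `v` -/
def ValueAt (f : F) (c : K) : Prop := f - algebraMap K F c ∈ ordGE v 1

variable {v}

theorem ValueAt.mem_zero {f : F} {c : K} (h : ValueAt v f c) : f ∈ ordGE v 0 := by
  have h1 : f - algebraMap K F c ∈ ordGE v 0 := ordGE_anti v (by norm_num) h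
  have h2 := (ordGE v 0).add_mem h1 (algebraMap_mem_ordGE_zero v c)
  simpa using h2

theorem valueAt_zero : ValueAt v (0 : F) (0 : K) := by
  unfold ValueAt
  rw [map_zero, sub_zero]
  exact (ordGE v 1).zero_mem

theorem valueAt_one : ValueAt v (1 : F) (1 : K) := by
  unfold ValueAt
  rw [map_one, sub_self]
  exact (ordGE v 1).zero_mem

theorem ValueAt.add {f g : F} {a c : K} (hf : ValueAt v f a) (hg : ValueAt v g c) :
    ValueAt v (f + g) (a + c) := by
  unfold ValueAt at *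
  have := (ordGE v 1).add_mem hf hg
  rw [map_add]
  convert this using 1
  ring

theorem ValueAt.smul {f : F} {a : K} (r : K) (hf : ValueAt v f a) :
    ValueAt v (r • f) (r * a) := by
  unfold ValueAt at *
  have := (ordGE v 1).smul_mem r hf
  rw [map_mul]
  convert this using 1
  rw [Algebra.smul_def, Algebra.smul_def]
  ring

theorem ValueAt.mul {f g : F} {a c : K} (hf : ValueAt v f a) (hg : ValueAt v g c) :
    ValueAt v (f * g) (a * c) := by
  have hg0 := hg.mem_zero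
  unfold ValueAt at *
  have h1 : (f - algebraMap K F a) * g ∈ ordGE v (1 + 0) := mul_mem_ordGE v hf hg0
  have h2 : a • (g - algebraMap K F c) ∈ ordGE v 1 := (ordGE v 1).smul_mem a hg
  have := (ordGE v 1).add_mem h1 h2
  rw [map_mul]
  convert this using 1
  rw [Algebra.smul_def]
  ring

theorem residue_eq_zero_iff (x : v.toValuationSubring) :
    IsLocalRing.residue v.toValuationSubring x = 0 ↔ (x : F) ∈ ordGE v 1 := by
  have hx0 : (x : F) ∈ ordGE v 0 := by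
    rw [mem_ordGE]
    by_cases h0 : (x : F) = 0
    · exact Or.inl h0
    · exact Or.inr ((PlaceB.ord_nonneg_iff v h0).mpr x.2)
  have key := leadCoeff_eq_zero_iff v (n := 0) ⟨(x : F), hx0⟩
  rw [zero_add] at key
  rw [← key]
  unfold leadCoeff
  simp only [LinearMap.coe_mk, AddHom.coe_mk]
  have : (⟨(x : F) * unif v ^ (-(0 : ℤ)), mul_unif_zpow_mem v hx0⟩ : v.toValuationSubring) = x := by
    ext
    simp
  rw [this]

/-- `evalK` computes the value, off the support of the divisor -/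
theorem evalK_eq_iff_valueAt {D : Divisor K F} (h : v.deg = 1) (hD : D v = 0)
    (f : riemannRochSpace D) (c : K) : evalK D v h f = c ↔ ValueAt v (f : F) c := by
  rw [evalK_eq_iff_residue h hD]
  have hc : algebraMap K v.ResidueField c =
      IsLocalRing.residue v.toValuationSubring (algebraMap K v.toValuationSubring c) := by
    rw [← IsLocalRing.ResidueField.algebraMap_eq,
      ← IsScalarTower.algebraMap_apply K v.toValuationSubring v.ResidueField]
  rw [hc, ← sub_eq_zero, ← map_sub, residue_eq_zero_iff]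
  rfl

end Value

section Graded

variable {k F₁ F₂ : Type*} [Field k] [Field F₁] [Field F₂] [Algebra k F₁] [Algebra k F₂]
variable {ι : Type*}
variable (P : ι → Place k F₁) (Q : ι → Place k F₂)
variable (D₁ : Divisor k F₁) (D₂ : Divisor k F₂)

/-- **the glued Riemann–Roch space of `n D`** inside `F₁ × F₂` -/
def T (n : ℕ) : Submodule k (F₁ × F₂) where
  carrier := {z | z.1 ∈ riemannRochSpace (n • D₁) ∧ z.2 ∈ riemannRochSpace (n • D₂) ∧
    ∀ j, ∃ c : k, ValueAt (P j) z.1 c ∧ ValueAt (Q j) z.2 c}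
  zero_mem' := ⟨Submodule.zero_mem _, Submodule.zero_mem _, fun _ => ⟨0, valueAt_zero, valueAt_zero⟩⟩
  add_mem' := by
    rintro a b ⟨ha1, ha2, ha3⟩ ⟨hb1, hb2, hb3⟩
    refine ⟨Submodule.add_mem _ ha1 hb1, Submodule.add_mem _ ha2 hb2, fun j => ?_⟩
    obtain ⟨c, hc1, hc2⟩ := ha3 j
    obtain ⟨c', hc1', hc2'⟩ := hb3 j
    exact ⟨c + c', hc1.add hc1', hc2.add hc2'⟩
  smul_mem' := by
    rintro r a ⟨ha1, ha2, ha3⟩
    refine ⟨Submodule.smul_mem _ r ha1, Submodule.smul_mem _ r ha2, fun j => ?_⟩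
    obtain ⟨c, hc1, hc2⟩ := ha3 j
    exact ⟨r * c, hc1.smul r, hc2.smul r⟩

variable {P Q D₁ D₂}

theorem mem_T {n : ℕ} {z : F₁ × F₂} :
    z ∈ T P Q D₁ D₂ n ↔ z.1 ∈ riemannRochSpace (n • D₁) ∧ z.2 ∈ riemannRochSpace (n • D₂) ∧
      ∀ j, ∃ c : k, ValueAt (P j) z.1 c ∧ ValueAt (Q j) z.2 c := Iff.rfl

theorem one_mem_riemannRochSpace_zero {K F : Type*} [Field K] [Field F] [Algebra K F] :
    (1 : F) ∈ riemannRochSpace (0 : Divisor K F) := by
  rw [mem_riemannRochSpace_iff]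
  intro v
  right
  rw [v.ord_one]
  simp

theorem one_mem_T : (1 : F₁ × F₂) ∈ T P Q D₁ D₂ 0 := by
  refine ⟨?_, ?_, fun j => ⟨1, valueAt_one, valueAt_one⟩⟩
  · rw [zero_smul]; exact one_mem_riemannRochSpace_zero
  · rw [zero_smul]; exact one_mem_riemannRochSpace_zero

theorem T_mono (h₁ : 0 ≤ D₁) (h₂ : 0 ≤ D₂) (n : ℕ) : T P Q D₁ D₂ n ≤ T P Q D₁ D₂ (n + 1) := by
  rintro z ⟨h1, h2, h3⟩
  refine ⟨riemannRochSpace_mono ?_ h1, riemannRochSpace_mono ?_ h2, h3⟩
  · rw [succ_nsmul]; exact le_add_of_nonneg_right h₁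
  · rw [succ_nsmul]; exact le_add_of_nonneg_right h₂

/-- `t` has exact pole divisor `D` -/
structure ExactPoles {K F : Type*} [Field K] [Field F] [Algebra K F] (t : F) (D : Divisor K F) :
    Prop where
  ne_zero : t ≠ 0
  nonneg : 0 ≤ D
  ord_eq : ∀ v : Place K F, 0 < D v → v.ord t = -D v
  ord_nonneg : ∀ v : Place K F, D v = 0 → 0 ≤ v.ord t

theorem ExactPoles.mem {K F : Type*} [Field K] [Field F] [Algebra K F] {t : F}
    {D : Divisor K F} (h : ExactPoles t D) : t ∈ riemannRochSpace D := by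
  rw [mem_riemannRochSpace_iff]
  intro v
  right
  have h0 : 0 ≤ D v := Finsupp.le_def.mp h.nonneg v
  rcases h0.lt_or_eq with hpos | hz
  · rw [h.ord_eq v hpos]
  · rw [← hz, neg_zero]; exact h.ord_nonneg v hz.symm

/-- cancellation of a function with exact poles -/
theorem ExactPoles.cancel {K F : Type*} [Field K] [Field F] [Algebra K F] {t : F}
    {D : Divisor K F} (h : ExactPoles t D) {n : ℕ} {w : F}
    (hw : w ∈ riemannRochSpace ((n + 1) • D)) (htw : t * w ∈ riemannRochSpace ((n + 1) • D)) :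
    w ∈ riemannRochSpace (n • D) := by
  rw [mem_riemannRochSpace_iff] at hw htw ⊢
  intro v
  by_cases hw0 : w = 0
  · exact Or.inl hw0
  right
  have h0 : 0 ≤ D v := Finsupp.le_def.mp h.nonneg v
  have e1 : ((n + 1) • D) v = ((n : ℤ) + 1) * D v := by
    rw [Finsupp.smul_apply, nsmul_eq_mul]; push_cast; ring
  have e2 : (n • D) v = (n : ℤ) * D v := by
    rw [Finsupp.smul_apply, nsmul_eq_mul]
  rw [e2]
  rcases h0.lt_or_eq with hpos | hz
  · have h1 := (htw v).resolve_left (mul_ne_zero h.ne_zero hw0)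
    rw [v.ord_mul h.ne_zero hw0, h.ord_eq v hpos, e1] at h1
    linarith
  · have h1 := (hw v).resolve_left hw0
    rw [e1, ← hz] at h1
    rw [← hz]
    simpa using h1

variable {t₁ : F₁} {t₂ : F₂}

/-- multiplication by `s = (t₁, t₂) ∈ T 1` raises the degree by one -/
theorem smul_mem_T (ht₁ : ExactPoles t₁ D₁) (ht₂ : ExactPoles t₂ D₂)
    (hs : ((t₁, t₂) : F₁ × F₂) ∈ T P Q D₁ D₂ 1) {n : ℕ} {z : F₁ × F₂}
    (hz : z ∈ T P Q D₁ D₂ n) : ((t₁, t₂) : F₁ × F₂) * z ∈ T P Q D₁ D₂ (n + 1) := by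
  obtain ⟨h1, h2, h3⟩ := hz
  obtain ⟨-, -, hs3⟩ := hs
  refine ⟨?_, ?_, fun j => ?_⟩
  · show t₁ * z.1 ∈ _
    rw [succ_nsmul']
    exact mul_mem_riemannRochSpace ht₁.mem h1
  · show t₂ * z.2 ∈ _
    rw [succ_nsmul']
    exact mul_mem_riemannRochSpace ht₂.mem h2
  · obtain ⟨a, ha1, ha2⟩ := hs3 j
    obtain ⟨c, hc1, hc2⟩ := h3 j
    exact ⟨a * c, ha1.mul hc1, ha2.mul hc2⟩

/-- **(h4)** exact-pole cancellation: `w, s w ∈ T (n+1) ⟹ w ∈ T n` -/
theorem cancel_mem_T (ht₁ : ExactPoles t₁ D₁) (ht₂ : ExactPoles t₂ D₂) {n : ℕ} {w : F₁ × F₂}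
    (hw : w ∈ T P Q D₁ D₂ (n + 1)) (hsw : ((t₁, t₂) : F₁ × F₂) * w ∈ T P Q D₁ D₂ (n + 1)) :
    w ∈ T P Q D₁ D₂ n := by
  obtain ⟨h1, h2, h3⟩ := hw
  obtain ⟨g1, g2, -⟩ := hsw
  exact ⟨ht₁.cancel h1 g1, ht₂.cancel h2 g2, h3⟩

/-! ### dimension -/

variable [Fintype ι] [DecidableEq ι]

/-- the comparison map from helper47's glued subspace -/
def fromGlue (hdegP : ∀ j, (P j).deg = 1) (hdegQ : ∀ j, (Q j).deg = 1) (n : ℕ) :
    glueSub (evalKFamily (n • D₁) P hdegP) (evalKFamily (n • D₂) Q hdegQ) ∅ (fun _ => (1 : k))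
      →ₗ[k] (F₁ × F₂) :=
  (LinearMap.prodMap (riemannRochSpace (n • D₁)).subtype (riemannRochSpace (n • D₂)).subtype).comp
    (glueSub (evalKFamily (n • D₁) P hdegP) (evalKFamily (n • D₂) Q hdegQ) ∅
      (fun _ => (1 : k))).subtype

theorem fromGlue_injective (hdegP : ∀ j, (P j).deg = 1) (hdegQ : ∀ j, (Q j).deg = 1) (n : ℕ) :
    Function.Injective (fromGlue (D₁ := D₁) (D₂ := D₂) hdegP hdegQ n) := by
  intro x y hxy
  apply Subtype.ext
  have h1 := congrArg Prod.fst hxy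
  have h2 := congrArg Prod.snd hxy
  exact Prod.ext (Subtype.ext h1) (Subtype.ext h2)

theorem range_fromGlue (hdegP : ∀ j, (P j).deg = 1) (hdegQ : ∀ j, (Q j).deg = 1)
    (hD₁ : ∀ j, D₁ (P j) = 0) (hD₂ : ∀ j, D₂ (Q j) = 0) (n : ℕ) :
    LinearMap.range (fromGlue (D₁ := D₁) (D₂ := D₂) hdegP hdegQ n) = T P Q D₁ D₂ n := by
  have hn1 : ∀ j, (n • D₁) (P j) = 0 := fun j => by rw [Finsupp.smul_apply, hD₁, smul_zero]
  have hn2 : ∀ j, (n • D₂) (Q j) = 0 := fun j => by rw [Finsupp.smul_apply, hD₂, smul_zero]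
  ext z
  constructor
  · rintro ⟨x, rfl⟩
    have hx := x.2
    rw [mem_glueSub_empty] at hx
    refine ⟨x.1.1.2, x.1.2.2, fun j => ?_⟩
    refine ⟨evalK (n • D₂) (Q j) (hdegQ j) x.1.2, ?_, ?_⟩
    · have := hx j
      rw [one_mul] at this
      exact (evalK_eq_iff_valueAt (hdegP j) (hn1 j) _ _).mp this
    · exact (evalK_eq_iff_valueAt (hdegQ j) (hn2 j) _ _).mp rfl
  · rintro ⟨h1, h2, h3⟩
    refine ⟨⟨(⟨z.1, h1⟩, ⟨z.2, h2⟩), ?_⟩, rfl⟩
    rw [mem_glueSub_empty]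
    intro j
    obtain ⟨c, hc1, hc2⟩ := h3 j
    rw [one_mul]
    show evalK (n • D₁) (P j) (hdegP j) ⟨z.1, h1⟩ = evalK (n • D₂) (Q j) (hdegQ j) ⟨z.2, h2⟩
    rw [(evalK_eq_iff_valueAt (hdegP j) (hn1 j) ⟨z.1, h1⟩ c).mpr hc1,
      (evalK_eq_iff_valueAt (hdegQ j) (hn2 j) ⟨z.2, h2⟩ c).mpr hc2]

theorem finrank_T_eq_glueSub (hdegP : ∀ j, (P j).deg = 1) (hdegQ : ∀ j, (Q j).deg = 1)
    (hD₁ : ∀ j, D₁ (P j) = 0) (hD₂ : ∀ j, D₂ (Q j) = 0) (n : ℕ) :
    Module.finrank k (T P Q D₁ D₂ n) =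
      Module.finrank k (glueSub (evalKFamily (n • D₁) P hdegP) (evalKFamily (n • D₂) Q hdegQ) ∅
        (fun _ => (1 : k))) := by
  rw [← range_fromGlue hdegP hdegQ hD₁ hD₂ n]
  exact LinearMap.finrank_range_of_inj (fromGlue_injective hdegP hdegQ n)

variable [FiniteResidues k F₁] [HasPrincipalDivisors k F₁] [Nonempty (Place k F₁)]
variable [FiniteResidues k F₂] [HasPrincipalDivisors k F₂] [Nonempty (Place k F₂)]

instance finiteDimensional_T (n : ℕ) : FiniteDimensional k (T P Q D₁ D₂ n) := by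
  have hle : T P Q D₁ D₂ n ≤
      (riemannRochSpace (n • D₁)).prod (riemannRochSpace (n • D₂)) := fun z hz => ⟨hz.1, hz.2.1⟩
  have : FiniteDimensional k ((riemannRochSpace (n • D₁)).prod (riemannRochSpace (n • D₂))) := by
    have h := LinearMap.range_prodMap (riemannRochSpace (n • D₁)).subtype
      (riemannRochSpace (n • D₂)).subtype
    rw [Submodule.range_subtype, Submodule.range_subtype] at h
    rw [← h]
    infer_instance
  exact Submodule.finiteDimensional_of_le hle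

/-- **affine-linear dimension of `T n`** -/
theorem exists_finrank_T (hP : Function.Injective P) (hQ : Function.Injective Q)
    (hdegP : ∀ j, (P j).deg = 1) (hdegQ : ∀ j, (Q j).deg = 1)
    (hD₁ : ∀ j, D₁ (P j) = 0) (hD₂ : ∀ j, D₂ (Q j) = 0)
    (hpos₁ : 0 < Divisor.degree D₁) (hpos₂ : 0 < Divisor.degree D₂) :
    ∃ n₀ : ℕ, ∀ n : ℕ, n₀ ≤ n →
      (Module.finrank k (T P Q D₁ D₂ n) : ℤ) =
        n * (Divisor.degree D₁ + Divisor.degree D₂)
          + Module.finrank k (riemannRochSpace (0 : Divisor k F₁))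
          + Module.finrank k (riemannRochSpace (0 : Divisor k F₂))
          - genusFF k F₁ - genusFF k F₂ - Fintype.card ι := by
  obtain ⟨c, hc⟩ := NodalFibre.exists_finrank_glueSub hP hQ hdegP hdegQ
  refine ⟨c.toNat, fun n hn => ?_⟩
  have hcn : c ≤ n := by
    have := Int.self_le_toNat c
    exact le_trans this (by exact_mod_cast hn)
  have d1 : Divisor.degree (n • D₁) = n * Divisor.degree D₁ := by
    rw [map_nsmul, nsmul_eq_mul]
  have d2 : Divisor.degree (n • D₂) = n * Divisor.degree D₂ := by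
    rw [map_nsmul, nsmul_eq_mul]
  have hn0 : (0 : ℤ) ≤ n := by positivity
  have l1 : c ≤ Divisor.degree (n • D₁) := by
    rw [d1]; nlinarith
  have l2 : c ≤ Divisor.degree (n • D₂) := by
    rw [d2]; nlinarith
  have key := (hc (n • D₁) (n • D₂) l1 l2).2 ∅ (fun _ => (1 : k))
  rw [finrank_T_eq_glueSub hdegP hdegQ hD₁ hD₂ n, key, d1, d2, Finset.card_empty]
  push_cast
  ring

end Graded

end Fermat.Agent.GK.NodalGraded
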