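import Fermat.Agent.GK.NodalGraded
import Fermat.Agent.GK.Flat.Pencil

/-!
# The pencil count on a nodal fibre (GATE-K N7d, adapter, helper34)

Instantiates helper66's abstract pencil count (`GK/Flat/Pencil.lean`) with the graded family
`T n = NodalGraded.T P Q D₁ D₂ n` of glued Riemann–Roch spaces, `s0 = 1`, `s1 = (t₁, t₂)`.

All the `T`-side hypotheses of `Pencil.eventually_eq_of_count` (`hs0 hs1 hT0 hT1 hint hdim`) are
discharged here, so that the owner of the `S`-side (`S n = ` reduction of `L(nD)_A`) only has to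
provide `S n ≤ T n`, stability of `S` and the localisation hypothesis.

* `eventually_eq_T` : `S N = T N` for `N` large;
* `coeff_eq_T` : if moreover `dim S n = a' n + b'` for `n` large then `a' = deg D₁ + deg D₂` and
  `b' = ℓ₁(0) + ℓ₂(0) - g₁ - g₂ - card ι`;
* `card_nodes_eq` : the number of nodes, `card ι = ℓ₁(0) + ℓ₂(0) - g₁ - g₂ - b'`.
-/

set_option autoImplicit false
set_option linter.unusedSectionVars false

noncomputable section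

open AlgebraicCurve

namespace Fermat.Agent.GK.NodalCount

open Fermat.Agent.RRh45 Fermat.Agent.RR Fermat.Agent.GK.NodalRR Fermat.Agent.GK.EvalK
open Fermat.Agent.GK.Glue Fermat.Agent.S24 Fermat.Agent.GK.NodalGraded

variable {k F₁ F₂ : Type*} [Field k] [Field F₁] [Field F₂] [Algebra k F₁] [Algebra k F₂]
variable {ι : Type*}
variable {P : ι → Place k F₁} {Q : ι → Place k F₂}
variable {D₁ : Divisor k F₁} {D₂ : Divisor k F₂}
variable {t₁ : F₁} {t₂ : F₂}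

theorem pair_mul_eq_zero (h₁ : t₁ ≠ 0) (h₂ : t₂ ≠ 0) (z : F₁ × F₂)
    (hz : ((t₁, t₂) : F₁ × F₂) * z = 0) : z = 0 := by
  have e1 : t₁ * z.1 = 0 := congrArg Prod.fst hz
  have e2 : t₂ * z.2 = 0 := congrArg Prod.snd hz
  have z1 : z.1 = 0 := (mul_eq_zero.mp e1).resolve_left h₁
  have z2 : z.2 = 0 := (mul_eq_zero.mp e2).resolve_left h₂
  exact Prod.ext z1 z2

/-- the "no common zero" hypothesis of the pencil step for `s0 = 1`, `s1 = (t₁, t₂)` -/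
theorem hint_T (ht₁ : ExactPoles t₁ D₁) (ht₂ : ExactPoles t₂ D₂) (n : ℕ)
    (x : F₁ × F₂) (hx : x ∈ T P Q D₁ D₂ (n + 1)) (y : F₁ × F₂) (hy : y ∈ T P Q D₁ D₂ (n + 1))
    (hxy : (1 : F₁ × F₂) * x = ((t₁, t₂) : F₁ × F₂) * y) :
    ∃ w ∈ T P Q D₁ D₂ n, x = ((t₁, t₂) : F₁ × F₂) * w ∧ y = (1 : F₁ × F₂) * w := by
  rw [one_mul] at hxy
  refine ⟨y, cancel_mem_T ht₁ ht₂ hy (hxy ▸ hx), hxy, (one_mul y).symm⟩

variable [Fintype ι] [DecidableEq ι]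
variable [FiniteResidues k F₁] [HasPrincipalDivisors k F₁] [Nonempty (Place k F₁)]
variable [FiniteResidues k F₂] [HasPrincipalDivisors k F₂] [Nonempty (Place k F₂)]

/-- **`S N = T N` for `N` large**: the pencil count with all `T`-side hypotheses discharged -/
theorem eventually_eq_T (hP : Function.Injective P) (hQ : Function.Injective Q)
    (hdegP : ∀ j, (P j).deg = 1) (hdegQ : ∀ j, (Q j).deg = 1)
    (hD₁ : ∀ j, D₁ (P j) = 0) (hD₂ : ∀ j, D₂ (Q j) = 0)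
    (hpos₁ : 0 < Divisor.degree D₁) (hpos₂ : 0 < Divisor.degree D₂)
    (ht₁ : ExactPoles t₁ D₁) (ht₂ : ExactPoles t₂ D₂)
    (hs : ((t₁, t₂) : F₁ × F₂) ∈ T P Q D₁ D₂ 1)
    (S : ℕ → Submodule k (F₁ × F₂))
    (hST : ∀ n, S n ≤ T P Q D₁ D₂ n)
    (hS0 : ∀ n, S n ≤ S (n + 1))
    (hS1 : ∀ n, ∀ z ∈ S n, ((t₁, t₂) : F₁ × F₂) * z ∈ S (n + 1))
    (hloc : ∀ n, ∀ z ∈ T P Q D₁ D₂ n,
      ∃ c, z ∈ S (n + c) ∧ ((t₁, t₂) : F₁ × F₂) ^ c * z ∈ S (n + c)) :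
    ∃ N0, ∀ N, N0 ≤ N → S N = T P Q D₁ D₂ N := by
  obtain ⟨n₀, hn₀⟩ := exists_finrank_T (k := k) hP hQ hdegP hdegQ hD₁ hD₂ hpos₁ hpos₂
  refine Pencil.eventually_eq_of_count (1 : F₁ × F₂) ((t₁, t₂) : F₁ × F₂) S (T P Q D₁ D₂)
    (fun z hz => by rwa [one_mul] at hz)
    (pair_mul_eq_zero ht₁.ne_zero ht₂.ne_zero) hST
    (fun n z hz => by rw [one_mul]; exact hS0 n hz) hS1
    (fun n z hz => by rw [one_mul]; exact T_mono ht₁.nonneg ht₂.nonneg n hz)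
    (fun n z hz => smul_mem_T ht₁ ht₂ hs hz)
    (hint_T ht₁ ht₂)
    (Divisor.degree D₁ + Divisor.degree D₂)
    ((Module.finrank k (riemannRochSpace (0 : Divisor k F₁)) : ℤ)
      + Module.finrank k (riemannRochSpace (0 : Divisor k F₂))
      - genusFF k F₁ - genusFF k F₂ - Fintype.card ι) n₀ ?_ ?_
  · intro n hn
    rw [hn₀ n hn]
    ring
  · intro z hz
    obtain ⟨c, h1, h2⟩ := hloc (n₀ + 1) z hz
    exact ⟨c, by rwa [one_pow, one_mul], h2⟩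

/-- **the coefficients of the Hilbert function of `S`** -/
theorem coeff_eq_T (hP : Function.Injective P) (hQ : Function.Injective Q)
    (hdegP : ∀ j, (P j).deg = 1) (hdegQ : ∀ j, (Q j).deg = 1)
    (hD₁ : ∀ j, D₁ (P j) = 0) (hD₂ : ∀ j, D₂ (Q j) = 0)
    (hpos₁ : 0 < Divisor.degree D₁) (hpos₂ : 0 < Divisor.degree D₂)
    (ht₁ : ExactPoles t₁ D₁) (ht₂ : ExactPoles t₂ D₂)
    (hs : ((t₁, t₂) : F₁ × F₂) ∈ T P Q D₁ D₂ 1)
    (S : ℕ → Submodule k (F₁ × F₂))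
    (hST : ∀ n, S n ≤ T P Q D₁ D₂ n)
    (hS0 : ∀ n, S n ≤ S (n + 1))
    (hS1 : ∀ n, ∀ z ∈ S n, ((t₁, t₂) : F₁ × F₂) * z ∈ S (n + 1))
    (hloc : ∀ n, ∀ z ∈ T P Q D₁ D₂ n,
      ∃ c, z ∈ S (n + c) ∧ ((t₁, t₂) : F₁ × F₂) ^ c * z ∈ S (n + c))
    (a' b' : ℤ) (n₁ : ℕ)
    (hdimS : ∀ n, n₁ ≤ n → (Module.finrank k (S n) : ℤ) = a' * n + b') :
    a' = Divisor.degree D₁ + Divisor.degree D₂ ∧
      b' = (Module.finrank k (riemannRochSpace (0 : Divisor k F₁)) : ℤ)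
        + Module.finrank k (riemannRochSpace (0 : Divisor k F₂))
        - genusFF k F₁ - genusFF k F₂ - Fintype.card ι := by
  obtain ⟨n₀, hn₀⟩ := exists_finrank_T (k := k) hP hQ hdegP hdegQ hD₁ hD₂ hpos₁ hpos₂
  have heq := eventually_eq_T hP hQ hdegP hdegQ hD₁ hD₂ hpos₁ hpos₂ ht₁ ht₂ hs S hST hS0 hS1 hloc
  refine Pencil.coeff_eq_of_eventually_eq S (T P Q D₁ D₂) heq _ _ a' b' (max n₀ n₁) ?_ ?_
  · intro n hn
    rw [hn₀ n (le_trans (le_max_left _ _) hn)]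
    ring
  · intro n hn
    exact hdimS n (le_trans (le_max_right _ _) hn)

/-- **the number of nodes** from the Hilbert function of `S` -/
theorem card_nodes_eq (hP : Function.Injective P) (hQ : Function.Injective Q)
    (hdegP : ∀ j, (P j).deg = 1) (hdegQ : ∀ j, (Q j).deg = 1)
    (hD₁ : ∀ j, D₁ (P j) = 0) (hD₂ : ∀ j, D₂ (Q j) = 0)
    (hpos₁ : 0 < Divisor.degree D₁) (hpos₂ : 0 < Divisor.degree D₂)
    (ht₁ : ExactPoles t₁ D₁) (ht₂ : ExactPoles t₂ D₂)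
    (hs : ((t₁, t₂) : F₁ × F₂) ∈ T P Q D₁ D₂ 1)
    (S : ℕ → Submodule k (F₁ × F₂))
    (hST : ∀ n, S n ≤ T P Q D₁ D₂ n)
    (hS0 : ∀ n, S n ≤ S (n + 1))
    (hS1 : ∀ n, ∀ z ∈ S n, ((t₁, t₂) : F₁ × F₂) * z ∈ S (n + 1))
    (hloc : ∀ n, ∀ z ∈ T P Q D₁ D₂ n,
      ∃ c, z ∈ S (n + c) ∧ ((t₁, t₂) : F₁ × F₂) ^ c * z ∈ S (n + c))
    (a' g : ℤ) (n₁ : ℕ)
    (hdimS : ∀ n, n₁ ≤ n → (Module.finrank k (S n) : ℤ) = a' * n + 1 - g) :
    (Fintype.card ι : ℤ) + genusFF k F₁ + genusFF k F₂ + 1 =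
      g + Module.finrank k (riemannRochSpace (0 : Divisor k F₁))
        + Module.finrank k (riemannRochSpace (0 : Divisor k F₂)) := by
  have h := (coeff_eq_T hP hQ hdegP hdegQ hD₁ hD₂ hpos₁ hpos₂ ht₁ ht₂ hs S hST hS0 hS1 hloc
    a' (1 - g) n₁ (fun n hn => by rw [hdimS n hn]; ring)).2
  linarith

end Fermat.Agent.GK.NodalCount
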