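import Fermat.Agent.GK.NodalPole
import Fermat.Agent.GK.NodalCount
import Fermat.Agent.GK.Nodal.FrobGlue
import Fermat.Agent.GK.GenusFF
import Fermat.Agent.S24.DegOne

/-!
# Places versus maximal ideals: the nodal bridge (GATE-K N7d, helper34)

`k` algebraically closed, `F / k` a function field in one variable (`[IsGen k x₀]`), `C` a
`k`-algebra with an injective `algebraMap C F` whose image contains every element integral over
`k[t₁]` (resp. `k[t₂]`): in use `C` = integral closure of `k[j~]` in the residue function field,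
`Ψ : C →ₐ[k] C` the (linearised) Frobenius, `J' ⊇ fixIdeal Ψ` the ideal of the nodes
(`GK/Nodal/FrobGlue.lean`), `FrobGlue.nodes J'` the maximal ideals containing `J'`.

* `CentredAt v m` : the place `v` of `F` is centred at the ideal `m` of `C`;
  `exists_centredAt` : every maximal ideal is the centre of a place (Chevalley);
* `Tglue Ψ J' D₁ D₂ n` : `{(g, h) ∈ L(n D₁) × L(n D₂) | g, h ∈ C, g - Ψ h ∈ J'}`, i.e.
  `gluedAlg Ψ J' ∩ (L(n D₁) × L(n D₂))`, a definition WITHOUT places;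
* `Tglue_eq_T` : `Tglue = NodalGraded.T P Q D₁ D₂` for places `P i`, `Q i` centred at the nodes
  `m_i` resp. `Ψ⁻¹ m_i`;
* `exists_node_places` : such places exist, and `P`, `Q` are injective;
* `exists_finrank_Tglue` : `dim Tglue n = n (deg D₁ + deg D₂) + 2 - 2 g - #nodes` for `n ≥ n₀`;
* `eventually_eq_Tglue`, `card_nodes_eq_Tglue` : the pencil count of `GK/NodalCount.lean` in this
  language.
-/

set_option autoImplicit false
set_option linter.unusedSectionVars false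

noncomputable section

open AlgebraicCurve IntermediateField

namespace Fermat.Agent.GK.NodalBridge

open Fermat.Agent.RRh45 Fermat.Agent.RR Fermat.Agent.S24 Fermat.Agent.GK.NodalGraded
open Fermat.Agent.GJ.J1 Fermat.Agent.GJ.J1.PlaceLattice Fermat.Agent.GK.FrobGlue
open Fermat.Agent.GK.NodalPole

variable {k F : Type*} [Field k] [Field F] [Algebra k F]
variable {C : Type*} [CommRing C] [Algebra k C] [Algebra C F] [IsScalarTower k C F]

theorem algebraMap_smul_eq (r : k) (g : C) :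
    algebraMap C F (r • g) = r • algebraMap C F g := by
  rw [Algebra.smul_def, map_mul, ← IsScalarTower.algebraMap_apply, ← Algebra.smul_def]

/-! ### places centred at maximal ideals -/

/-- the place `v` is centred at the ideal `m` of `C` -/
structure CentredAt (v : Place k F) (m : Ideal C) : Prop where
  mem : ∀ c : C, algebraMap C F c ∈ v.toValuationSubring
  mem_iff : ∀ c : C, c ∈ m ↔ algebraMap C F c ∈ ordGE v 1

theorem CentredAt.ord_nonneg {v : Place k F} {m : Ideal C} (h : CentredAt v m) (c : C) :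
    0 ≤ v.ord (algebraMap C F c) :=
  (ord_nonneg_iff_mem v _).mpr (h.mem c)

theorem CentredAt.valueAt_iff {v : Place k F} {m : Ideal C} (h : CentredAt v m) (g : C) (c : k) :
    ValueAt v (algebraMap C F g) c ↔ g - algebraMap k C c ∈ m := by
  rw [h.mem_iff, map_sub, ← IsScalarTower.algebraMap_apply k C F]
  rfl

theorem CentredAt.eq {v : Place k F} {m m' : Ideal C} (h : CentredAt v m) (h' : CentredAt v m') :
    m = m' := by
  ext c
  rw [h.mem_iff, h'.mem_iff]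

/-- the centre of a place of a function field over an algebraically closed field is
`k`-rational -/
theorem CentredAt.exists_value [IsAlgClosed k] (x₀ : F) [IsGen k x₀] {v : Place k F}
    {m : Ideal C} (h : CentredAt v m) (g : C) : ∃ c : k, g - algebraMap k C c ∈ m := by
  have hdeg : v.deg = 1 := PlaceB.deg_eq_one v x₀
  obtain ⟨c, hc⟩ := (EvalK.algebraMap_residueField_bijective v hdeg).2
    (IsLocalRing.residue _ ⟨algebraMap C F g, h.mem g⟩)
  refine ⟨c, ?_⟩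
  rw [← h.valueAt_iff]
  have hres : IsLocalRing.residue v.toValuationSubring
      ((⟨algebraMap C F g, h.mem g⟩ : v.toValuationSubring) -
        algebraMap k v.toValuationSubring c) = 0 := by
    rw [map_sub, sub_eq_zero, ← hc, IsScalarTower.algebraMap_apply k v.toValuationSubring
      v.ResidueField]
    rfl
  exact (residue_eq_zero_iff _).mp hres

/-- **Chevalley**: every maximal ideal of `C` is the centre of a place -/
theorem exists_centredAt (x₀ : F) [IsGen k x₀] (hinj : Function.Injective (algebraMap C F))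
    (hCf : ¬ IsField C) (m : Ideal C) (hm : m.IsMaximal) : ∃ v : Place k F, CentredAt v m := by
  classical
  set A : Subring F := (algebraMap C F).range with hA
  set f : C →+* A := (algebraMap C F).rangeRestrict with hf
  have hfs : Function.Surjective f := (algebraMap C F).rangeRestrict_surjective
  have hfv : ∀ c : C, ((f c : A) : F) = algebraMap C F c := fun c => rfl
  have hfi : Function.Injective f := fun a b h => hinj (by rw [← hfv a, ← hfv b, h])
  have hI : m.map f ≠ ⊤ := by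
    intro htop
    have h1 : (1 : A) ∈ m.map f := htop ▸ Submodule.mem_top
    obtain ⟨c, hc, hc1⟩ := (Ideal.mem_map_iff_of_surjective f hfs).mp h1
    have hc' : c = 1 := hfi (by rw [hc1, map_one])
    exact hm.ne_top ((Ideal.eq_top_iff_one _).mpr (hc' ▸ hc))
  obtain ⟨B, hAB, hIB⟩ := Ideal.image_subset_nonunits_valuationSubring (m.map f) hI
  have hmemB : ∀ c : C, algebraMap C F c ∈ B := fun c => hAB ⟨c, rfl⟩
  have hK : ∀ a : k, algebraMap k F a ∈ B := fun a => by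
    rw [IsScalarTower.algebraMap_apply k C F]; exact hmemB _
  have hnon : ∀ c ∈ m, algebraMap C F c ∈ B.nonunits := fun c hc =>
    hIB ⟨f c, Ideal.mem_map_of_mem f hc, rfl⟩
  have : Nontrivial C := (algebraMap C F).domain_nontrivial
  have hm0 : m ≠ ⊥ := Ring.ne_bot_of_isMaximal_of_not_isField hm hCf
  obtain ⟨c₀, hc₀m, hc₀⟩ := Submodule.exists_mem_ne_zero_of_ne_bot hm0
  have hB : B ≠ ⊤ := by
    rintro rfl
    have h1 := hnon c₀ hc₀m
    rw [ValuationSubring.mem_nonunits_iff_or] at h1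
    rcases h1 with h1 | h1
    · exact hc₀ (hinj (by rw [h1, map_zero]))
    · exact h1 (ValuationSubring.mem_top _)
  refine ⟨Fermat.Agent.GJ.FF.placeOf x₀ B hK hB, ⟨fun c => hmemB c, fun c => ?_⟩⟩
  set v : Place k F := Fermat.Agent.GJ.FF.placeOf x₀ B hK hB with hv
  have hvB : v.toValuationSubring = B := rfl
  constructor
  · intro hc
    rw [mem_ordGE]
    by_cases h0 : algebraMap C F c = 0
    · exact Or.inl h0
    · right
      have : 0 < v.ord (algebraMap C F c) :=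
        (Fermat.Agent.GJ.FF.ord_pos_iff_mem_nonunits v h0).mpr (hvB ▸ hnon c hc)
      omega
  · intro hc
    by_contra hcm
    rw [mem_ordGE] at hc
    have hcnon : algebraMap C F c ∈ B.nonunits := by
      rcases hc with h0 | h1
      · rw [h0, ValuationSubring.mem_nonunits_iff_or]; exact Or.inl rfl
      · have h0 : algebraMap C F c ≠ 0 := by
          intro h0
          rw [h0, Place.ord_zero] at h1
          omega
        have := (Fermat.Agent.GJ.FF.ord_pos_iff_mem_nonunits v h0).mp (by omega)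
        rwa [hvB] at this
    obtain ⟨y, i, hi, hyi⟩ := hm.exists_inv hcm
    have e : algebraMap C F y * algebraMap C F c + algebraMap C F i = 1 := by
      rw [← map_mul, ← map_add, hyi, map_one]
    have v1 : B.valuation (algebraMap C F y * algebraMap C F c) < 1 := by
      rw [map_mul]
      have hy1 : B.valuation (algebraMap C F y) ≤ 1 := (B.valuation_le_one_iff _).mpr (hmemB y)
      have hc1 : B.valuation (algebraMap C F c) < 1 := B.mem_nonunits_iff.mp hcnon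
      exact mul_lt_one_of_nonneg_of_lt_one_right hy1 zero_le hc1
    have v2 : B.valuation (algebraMap C F i) < 1 := B.mem_nonunits_iff.mp (hnon i hi)
    have := Valuation.map_add_lt B.valuation v1 v2
    rw [e, map_one] at this
    exact lt_irrefl _ this

/-! ### Frobenius pull-back of nodes -/

theorem comap_isMaximal (Ψ : C →ₐ[k] C) {m : Ideal C} (hm : m.IsMaximal)
    (hrat : ∀ g : C, ∃ c : k, g - algebraMap k C c ∈ m) : (m.comap Ψ).IsMaximal := by
  rw [Ideal.isMaximal_iff]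
  refine ⟨fun h1 => hm.ne_top ((Ideal.eq_top_iff_one _).mpr (by simpa using h1)),
    fun J x hJ hx hxJ => ?_⟩
  obtain ⟨c, hc⟩ := hrat (Ψ x)
  have h1 : x - algebraMap k C c ∈ m.comap Ψ := by
    rw [Ideal.mem_comap, map_sub, AlgHom.commutes]; exact hc
  have hc0 : c ≠ 0 := by
    rintro rfl
    apply hx
    simpa using h1
  have h2 : algebraMap k C c ∈ J := by
    have := J.sub_mem hxJ (hJ h1)
    simpa using this
  have h3 : (1 : C) = algebraMap k C c⁻¹ * algebraMap k C c := by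
    rw [← map_mul, inv_mul_cancel₀ hc0, map_one]
  rw [h3]
  exact J.mul_mem_left _ h2

theorem comap_comap_eq (Ψ : C →ₐ[k] C) {J' m : Ideal C} (hfix : fixIdeal Ψ ≤ J') (hm : J' ≤ m) :
    (m.comap Ψ).comap Ψ = m := by
  ext a
  rw [Ideal.mem_comap, Ideal.mem_comap]
  have h := hm (hfix (sub_mem_fixIdeal Ψ a))
  constructor
  · intro h1
    have := m.add_mem h h1
    simpa using this
  · intro h1
    have := m.sub_mem h1 h
    simpa using this

/-! ### the glued graded family, without places -/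

variable (Ψ : C →ₐ[k] C) (J' : Ideal C) (D₁ D₂ : Divisor k F)

/-- `gluedAlg Ψ J' ∩ (L(n D₁) × L(n D₂))` inside `F × F` -/
def Tglue (n : ℕ) : Submodule k (F × F) where
  carrier := {z | z.1 ∈ riemannRochSpace (n • D₁) ∧ z.2 ∈ riemannRochSpace (n • D₂) ∧
    ∃ g h : C, algebraMap C F g = z.1 ∧ algebraMap C F h = z.2 ∧ g - Ψ h ∈ J'}
  zero_mem' := ⟨Submodule.zero_mem _, Submodule.zero_mem _, 0, 0, by simp, by simp, by simp⟩
  add_mem' := by
    rintro a b ⟨ha1, ha2, g, h, hg, hh, hgh⟩ ⟨hb1, hb2, g', h', hg', hh', hgh'⟩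
    refine ⟨Submodule.add_mem _ ha1 hb1, Submodule.add_mem _ ha2 hb2, g + g', h + h', ?_, ?_, ?_⟩
    · rw [map_add, hg, hg']; rfl
    · rw [map_add, hh, hh']; rfl
    · have := J'.add_mem hgh hgh'
      rw [map_add]
      convert this using 1
      ring
  smul_mem' := by
    rintro r a ⟨ha1, ha2, g, h, hg, hh, hgh⟩
    refine ⟨Submodule.smul_mem _ r ha1, Submodule.smul_mem _ r ha2, r • g, r • h, ?_, ?_, ?_⟩
    · rw [algebraMap_smul_eq, hg]; rfl
    · rw [algebraMap_smul_eq, hh]; rfl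
    · rw [map_smul, ← smul_sub, Algebra.smul_def]
      exact J'.mul_mem_left _ hgh

variable {Ψ J' D₁ D₂}

theorem mem_Tglue {n : ℕ} {z : F × F} :
    z ∈ Tglue Ψ J' D₁ D₂ n ↔ z.1 ∈ riemannRochSpace (n • D₁) ∧ z.2 ∈ riemannRochSpace (n • D₂) ∧
      ∃ g h : C, algebraMap C F g = z.1 ∧ algebraMap C F h = z.2 ∧ g - Ψ h ∈ J' := Iff.rfl

/-! ### the graded structure of `Tglue`, directly -/

theorem Tglue_mono (h₁ : 0 ≤ D₁) (h₂ : 0 ≤ D₂) (n : ℕ) :
    Tglue Ψ J' D₁ D₂ n ≤ Tglue Ψ J' D₁ D₂ (n + 1) := by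
  rintro z ⟨h1, h2, h3⟩
  refine ⟨riemannRochSpace_mono ?_ h1, riemannRochSpace_mono ?_ h2, h3⟩
  · rw [succ_nsmul]; exact le_add_of_nonneg_right h₁
  · rw [succ_nsmul]; exact le_add_of_nonneg_right h₂

theorem one_mem_Tglue : (1 : F × F) ∈ Tglue Ψ J' D₁ D₂ 0 := by
  refine ⟨?_, ?_, 1, 1, by simp, by simp, by simp⟩
  · rw [zero_smul]; exact one_mem_riemannRochSpace_zero
  · rw [zero_smul]; exact one_mem_riemannRochSpace_zero

/-- membership from the glueing condition and the two chart conditions -/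
theorem mem_Tglue_of_regFin (x₀ : F) [IsGen k x₀] {t₁ t₂ : F}
    (ht₁ : ExactPoles t₁ D₁) (ht₂ : ExactPoles t₂ D₂) {n : ℕ} {g h : C}
    (hgh : g - Ψ h ∈ J')
    (hg : RegFin k t₁ (algebraMap C F g)) (hh : RegFin k t₂ (algebraMap C F h))
    (hg' : RegFin k t₁⁻¹ (t₁⁻¹ ^ n * algebraMap C F g))
    (hh' : RegFin k t₂⁻¹ (t₂⁻¹ ^ n * algebraMap C F h)) :
    ((algebraMap C F g, algebraMap C F h) : F × F) ∈ Tglue Ψ J' D₁ D₂ n :=
  ⟨mem_rr_of_regFin x₀ ht₁ hg hg', mem_rr_of_regFin x₀ ht₂ hh hh', g, h, rfl, rfl, hgh⟩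

/-- elements of `Tglue n` come from the glued algebra `gluedAlg Ψ J'` -/
theorem exists_mem_gluedAlg_of_mem_Tglue {n : ℕ} {z : F × F} (hz : z ∈ Tglue Ψ J' D₁ D₂ n) :
    ∃ w ∈ gluedAlg Ψ J', ((algebraMap C F w.1, algebraMap C F w.2) : F × F) = z := by
  obtain ⟨-, -, g, h, hg, hh, hgh⟩ := hz
  exact ⟨(g, h), hgh, Prod.ext hg hh⟩

variable {t₁ t₂ : F}

theorem smul_mem_Tglue (ht₁ : ExactPoles t₁ D₁) (ht₂ : ExactPoles t₂ D₂)
    (hs : ((t₁, t₂) : F × F) ∈ Tglue Ψ J' D₁ D₂ 1) {n : ℕ} {z : F × F}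
    (hz : z ∈ Tglue Ψ J' D₁ D₂ n) : ((t₁, t₂) : F × F) * z ∈ Tglue Ψ J' D₁ D₂ (n + 1) := by
  obtain ⟨h1, h2, g, h, hg, hh, hgh⟩ := hz
  obtain ⟨-, -, g₁, g₂, hg₁, hg₂, hs3⟩ := hs
  refine ⟨?_, ?_, g₁ * g, g₂ * h, ?_, ?_, ?_⟩
  · show t₁ * z.1 ∈ _
    rw [succ_nsmul']
    exact EvalK.mul_mem_riemannRochSpace ht₁.mem h1
  · show t₂ * z.2 ∈ _
    rw [succ_nsmul']
    exact EvalK.mul_mem_riemannRochSpace ht₂.mem h2
  · rw [map_mul, hg, hg₁]; rfl
  · rw [map_mul, hh, hg₂]; rfl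
  · have e : g₁ * g - Ψ (g₂ * h) = g₁ * (g - Ψ h) + Ψ h * (g₁ - Ψ g₂) := by
      rw [map_mul]; ring
    rw [e]
    exact J'.add_mem (J'.mul_mem_left _ hgh) (J'.mul_mem_left _ hs3)

/-- **(h4)** exact-pole cancellation for `Tglue` -/
theorem cancel_mem_Tglue (ht₁ : ExactPoles t₁ D₁) (ht₂ : ExactPoles t₂ D₂) {n : ℕ} {w : F × F}
    (hw : w ∈ Tglue Ψ J' D₁ D₂ (n + 1))
    (hsw : ((t₁, t₂) : F × F) * w ∈ Tglue Ψ J' D₁ D₂ (n + 1)) :
    w ∈ Tglue Ψ J' D₁ D₂ n := by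
  obtain ⟨h1, h2, h3⟩ := hw
  obtain ⟨g1, g2, -⟩ := hsw
  exact ⟨ht₁.cancel h1 g1, ht₂.cancel h2 g2, h3⟩

instance finiteDimensional_Tglue [FiniteResidues k F] [HasPrincipalDivisors k F]
    [Nonempty (Place k F)] (n : ℕ) : FiniteDimensional k (Tglue Ψ J' D₁ D₂ n) := by
  have hle : Tglue Ψ J' D₁ D₂ n ≤
      (riemannRochSpace (n • D₁)).prod (riemannRochSpace (n • D₂)) := fun z hz => ⟨hz.1, hz.2.1⟩
  have : FiniteDimensional k ((riemannRochSpace (n • D₁)).prod (riemannRochSpace (n • D₂))) := by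
    have h := LinearMap.range_prodMap (riemannRochSpace (n • D₁)).subtype
      (riemannRochSpace (n • D₂)).subtype
    rw [Submodule.range_subtype, Submodule.range_subtype] at h
    rw [← h]
    infer_instance
  exact Submodule.finiteDimensional_of_le hle

/-- **the bridge**: the glued family in ideal language is the glued family in place language -/
theorem Tglue_eq_T {ι : Type*} (node : ι → Ideal C) (P Q : ι → Place k F)
    (hP : ∀ i, CentredAt (P i) (node i)) (hQ : ∀ i, CentredAt (Q i) ((node i).comap Ψ))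
    (hJ : ∀ c : C, c ∈ J' ↔ ∀ i, c ∈ node i)
    (hrat : ∀ i, ∀ g : C, ∃ c : k, g - algebraMap k C c ∈ node i)
    (x₀ : F) [IsGen k x₀] {t₁ t₂ : F}
    (hC₁ : ∀ x : F, RegFin k t₁ x → x ∈ Set.range (algebraMap C F))
    (hC₂ : ∀ x : F, RegFin k t₂ x → x ∈ Set.range (algebraMap C F))
    (ht₁ : ExactPoles t₁ D₁) (ht₂ : ExactPoles t₂ D₂) (n : ℕ) :
    Tglue Ψ J' D₁ D₂ n = T P Q D₁ D₂ n := by
  ext z
  constructor
  · rintro ⟨h1, h2, g, h, hg, hh, hgh⟩
    refine ⟨h1, h2, fun i => ?_⟩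
    obtain ⟨c, hc⟩ := hrat i g
    refine ⟨c, ?_, ?_⟩
    · rw [← hg]; exact ((hP i).valueAt_iff g c).mpr hc
    · rw [← hh, (hQ i).valueAt_iff h c, Ideal.mem_comap, map_sub, AlgHom.commutes]
      have := (node i).sub_mem hc ((hJ _).mp hgh i)
      convert this using 1
      ring
  · rintro ⟨h1, h2, h3⟩
    obtain ⟨g, hg⟩ := hC₁ z.1 (regFin_of_mem_rr x₀ ht₁ h1)
    obtain ⟨h, hh⟩ := hC₂ z.2 (regFin_of_mem_rr x₀ ht₂ h2)
    refine ⟨h1, h2, g, h, hg, hh, (hJ _).mpr fun i => ?_⟩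
    obtain ⟨c, hc1, hc2⟩ := h3 i
    rw [← hg] at hc1
    rw [← hh] at hc2
    have e1 := ((hP i).valueAt_iff g c).mp hc1
    have e2 := ((hQ i).valueAt_iff h c).mp hc2
    rw [Ideal.mem_comap, map_sub, AlgHom.commutes] at e2
    have := (node i).sub_mem e1 e2
    convert this using 1
    ring

/-- places at the nodes and at their Frobenius pull-backs -/
theorem exists_node_places [IsAlgClosed k] (x₀ : F) [IsGen k x₀]
    (hinj : Function.Injective (algebraMap C F)) (hCf : ¬ IsField C)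
    (hfix : fixIdeal Ψ ≤ J') :
    ∃ P Q : ↥(nodes J') → Place k F,
      (∀ i, CentredAt (P i) i.1) ∧ (∀ i, CentredAt (Q i) (i.1.comap Ψ)) ∧
        Function.Injective P ∧ Function.Injective Q ∧
          ∀ i : ↥(nodes J'), ∀ g : C, ∃ c : k, g - algebraMap k C c ∈ i.1 := by
  have hex : ∀ i : ↥(nodes J'), ∃ v : Place k F, CentredAt v i.1 := fun i =>
    exists_centredAt x₀ hinj hCf i.1 i.2.1
  choose P hP using hex
  have hrat : ∀ i : ↥(nodes J'), ∀ g : C, ∃ c : k, g - algebraMap k C c ∈ i.1 := fun i g =>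
    (hP i).exists_value x₀ g
  have hex2 : ∀ i : ↥(nodes J'), ∃ v : Place k F, CentredAt v (i.1.comap Ψ) := fun i =>
    exists_centredAt x₀ hinj hCf _ (comap_isMaximal Ψ i.2.1 (hrat i))
  choose Q hQ using hex2
  refine ⟨P, Q, hP, hQ, ?_, ?_, hrat⟩
  · intro i j hij
    exact Subtype.ext ((hP i).eq (hij ▸ hP j))
  · intro i j hij
    have h1 : i.1.comap Ψ = j.1.comap Ψ := (hQ i).eq (hij ▸ hQ j)
    have h2 := congrArg (Ideal.comap Ψ) h1
    rw [comap_comap_eq Ψ hfix i.2.2, comap_comap_eq Ψ hfix j.2.2] at h2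
    exact Subtype.ext h2

/-! ### dimension and pencil count in ideal language -/

section Count

variable [IsAlgClosed k]

/-- all the place-side data for the nodes of `J'`, packaged -/
theorem exists_places_T (x₀ : F) [IsGen k x₀]
    (hinj : Function.Injective (algebraMap C F)) (hCf : ¬ IsField C)
    (hfix : fixIdeal Ψ ≤ J')
    (hJ : ∀ c : C, c ∈ J' ↔ ∀ m ∈ nodes J', c ∈ m)
    {t₁ t₂ : F}
    (hC₁ : ∀ x : F, RegFin k t₁ x → x ∈ Set.range (algebraMap C F))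
    (hC₂ : ∀ x : F, RegFin k t₂ x → x ∈ Set.range (algebraMap C F))
    (ht₁C : t₁ ∈ Set.range (algebraMap C F)) (ht₂C : t₂ ∈ Set.range (algebraMap C F))
    (ht₁ : ExactPoles t₁ D₁) (ht₂ : ExactPoles t₂ D₂) :
    ∃ P Q : ↥(nodes J') → Place k F, Function.Injective P ∧ Function.Injective Q ∧
      (∀ i, (P i).deg = 1) ∧ (∀ i, (Q i).deg = 1) ∧
      (∀ i, D₁ (P i) = 0) ∧ (∀ i, D₂ (Q i) = 0) ∧
      ∀ n, Tglue Ψ J' D₁ D₂ n = T P Q D₁ D₂ n := by
  obtain ⟨P, Q, hP, hQ, hPinj, hQinj, hrat⟩ :=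
    exists_node_places (Ψ := Ψ) (J' := J') x₀ hinj hCf hfix
  refine ⟨P, Q, hPinj, hQinj, fun i => PlaceB.deg_eq_one _ x₀, fun i => PlaceB.deg_eq_one _ x₀,
    ?_, ?_, fun n => ?_⟩
  · intro i
    obtain ⟨g, rfl⟩ := ht₁C
    exact apply_eq_zero_of_ord_nonneg ht₁ ((hP i).ord_nonneg g)
  · intro i
    obtain ⟨g, rfl⟩ := ht₂C
    exact apply_eq_zero_of_ord_nonneg ht₂ ((hQ i).ord_nonneg g)
  · exact Tglue_eq_T (fun i : ↥(nodes J') => i.1) P Q hP hQ
      (fun c => by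
        rw [hJ]
        exact ⟨fun h i => h i.1 i.2, fun h m hm => h ⟨m, hm⟩⟩)
      hrat x₀ hC₁ hC₂ ht₁ ht₂ n

/-- **affine-linear dimension of the glued family**, `#nodes = (nodes J').ncard` -/
theorem exists_finrank_Tglue (x₀ : F) [IsGen k x₀]
    (hinj : Function.Injective (algebraMap C F)) (hCf : ¬ IsField C)
    (hfix : fixIdeal Ψ ≤ J') (hfin : (nodes J').Finite)
    (hJ : ∀ c : C, c ∈ J' ↔ ∀ m ∈ nodes J', c ∈ m)
    {t₁ t₂ : F}
    (hC₁ : ∀ x : F, RegFin k t₁ x → x ∈ Set.range (algebraMap C F))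
    (hC₂ : ∀ x : F, RegFin k t₂ x → x ∈ Set.range (algebraMap C F))
    (ht₁C : t₁ ∈ Set.range (algebraMap C F)) (ht₂C : t₂ ∈ Set.range (algebraMap C F))
    (ht₁ : ExactPoles t₁ D₁) (ht₂ : ExactPoles t₂ D₂)
    (hpos₁ : 0 < Divisor.degree D₁) (hpos₂ : 0 < Divisor.degree D₂) :
    ∃ n₀ : ℕ, ∀ n : ℕ, n₀ ≤ n →
      (Module.finrank k (Tglue Ψ J' D₁ D₂ n) : ℤ) =
        n * (Divisor.degree D₁ + Divisor.degree D₂) + 2 - 2 * (genusFF k F : ℤ)
          - ((nodes J').ncard : ℤ) := by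
  classical
  have : FiniteResidues k F := Fermat.Agent.GJ.FF.finiteResidues x₀
  have : HasPrincipalDivisors k F := Fermat.Agent.GJ.FF.PrincipalOf.hasPrincipalDivisors_gen x₀
  have : Nonempty (Place k F) := Fermat.Agent.GJ.FF.nonempty_place x₀
  have : Fintype ↥(nodes J') := hfin.fintype
  obtain ⟨P, Q, hPinj, hQinj, hdP, hdQ, hD₁, hD₂, hT⟩ :=
    exists_places_T (Ψ := Ψ) (J' := J') x₀ hinj hCf hfix hJ hC₁ hC₂ ht₁C ht₂C ht₁ ht₂
  obtain ⟨n₀, hn₀⟩ := exists_finrank_T (k := k) hPinj hQinj hdP hdQ hD₁ hD₂ hpos₁ hpos₂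
  refine ⟨n₀, fun n hn => ?_⟩
  have hcard : Fintype.card ↥(nodes J') = (nodes J').ncard := by
    rw [Set.ncard_eq_toFinset_card', Set.toFinset_card]
  rw [hT n, hn₀ n hn, GenusFF.finrank_L_zero_eq_one x₀, hcard]
  push_cast
  ring

/-- **the pencil count in ideal language**: `S N = Tglue N` for `N` large -/
theorem eventually_eq_Tglue (x₀ : F) [IsGen k x₀]
    (hinj : Function.Injective (algebraMap C F)) (hCf : ¬ IsField C)
    (hfix : fixIdeal Ψ ≤ J') (hfin : (nodes J').Finite)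
    (hJ : ∀ c : C, c ∈ J' ↔ ∀ m ∈ nodes J', c ∈ m)
    {t₁ t₂ : F}
    (hC₁ : ∀ x : F, RegFin k t₁ x → x ∈ Set.range (algebraMap C F))
    (hC₂ : ∀ x : F, RegFin k t₂ x → x ∈ Set.range (algebraMap C F))
    (ht₁C : t₁ ∈ Set.range (algebraMap C F)) (ht₂C : t₂ ∈ Set.range (algebraMap C F))
    (ht₁ : ExactPoles t₁ D₁) (ht₂ : ExactPoles t₂ D₂)
    (hpos₁ : 0 < Divisor.degree D₁) (hpos₂ : 0 < Divisor.degree D₂)
    (hs : ((t₁, t₂) : F × F) ∈ Tglue Ψ J' D₁ D₂ 1)
    (S : ℕ → Submodule k (F × F))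
    (hST : ∀ n, S n ≤ Tglue Ψ J' D₁ D₂ n)
    (hS0 : ∀ n, S n ≤ S (n + 1))
    (hS1 : ∀ n, ∀ z ∈ S n, ((t₁, t₂) : F × F) * z ∈ S (n + 1))
    (hloc : ∀ n, ∀ z ∈ Tglue Ψ J' D₁ D₂ n,
      ∃ c, z ∈ S (n + c) ∧ ((t₁, t₂) : F × F) ^ c * z ∈ S (n + c)) :
    ∃ N0, ∀ N, N0 ≤ N → S N = Tglue Ψ J' D₁ D₂ N := by
  classical
  have : FiniteResidues k F := Fermat.Agent.GJ.FF.finiteResidues x₀
  have : HasPrincipalDivisors k F := Fermat.Agent.GJ.FF.PrincipalOf.hasPrincipalDivisors_gen x₀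
  have : Nonempty (Place k F) := Fermat.Agent.GJ.FF.nonempty_place x₀
  have : Fintype ↥(nodes J') := hfin.fintype
  obtain ⟨P, Q, hPinj, hQinj, hdP, hdQ, hD₁, hD₂, hT⟩ :=
    exists_places_T (Ψ := Ψ) (J' := J') x₀ hinj hCf hfix hJ hC₁ hC₂ ht₁C ht₂C ht₁ ht₂
  have hfun : Tglue Ψ J' D₁ D₂ = T P Q D₁ D₂ := funext hT
  rw [hfun] at hs hST hloc ⊢
  exact NodalCount.eventually_eq_T hPinj hQinj hdP hdQ hD₁ hD₂ hpos₁ hpos₂ ht₁ ht₂ hs S hST hS0
    hS1 hloc

/-- **the number of nodes** from the Hilbert function of `S` (ideal language) -/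
theorem card_nodes_eq_Tglue (x₀ : F) [IsGen k x₀]
    (hinj : Function.Injective (algebraMap C F)) (hCf : ¬ IsField C)
    (hfix : fixIdeal Ψ ≤ J') (hfin : (nodes J').Finite)
    (hJ : ∀ c : C, c ∈ J' ↔ ∀ m ∈ nodes J', c ∈ m)
    {t₁ t₂ : F}
    (hC₁ : ∀ x : F, RegFin k t₁ x → x ∈ Set.range (algebraMap C F))
    (hC₂ : ∀ x : F, RegFin k t₂ x → x ∈ Set.range (algebraMap C F))
    (ht₁C : t₁ ∈ Set.range (algebraMap C F)) (ht₂C : t₂ ∈ Set.range (algebraMap C F))
    (ht₁ : ExactPoles t₁ D₁) (ht₂ : ExactPoles t₂ D₂)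
    (hpos₁ : 0 < Divisor.degree D₁) (hpos₂ : 0 < Divisor.degree D₂)
    (hs : ((t₁, t₂) : F × F) ∈ Tglue Ψ J' D₁ D₂ 1)
    (S : ℕ → Submodule k (F × F))
    (hST : ∀ n, S n ≤ Tglue Ψ J' D₁ D₂ n)
    (hS0 : ∀ n, S n ≤ S (n + 1))
    (hS1 : ∀ n, ∀ z ∈ S n, ((t₁, t₂) : F × F) * z ∈ S (n + 1))
    (hloc : ∀ n, ∀ z ∈ Tglue Ψ J' D₁ D₂ n,
      ∃ c, z ∈ S (n + c) ∧ ((t₁, t₂) : F × F) ^ c * z ∈ S (n + c))
    (a' g : ℤ) (n₁ : ℕ)
    (hdimS : ∀ n, n₁ ≤ n → (Module.finrank k (S n) : ℤ) = a' * n + 1 - g) :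
    ((nodes J').ncard : ℤ) + 2 * (genusFF k F : ℤ) = g + 1 := by
  classical
  have : FiniteResidues k F := Fermat.Agent.GJ.FF.finiteResidues x₀
  have : HasPrincipalDivisors k F := Fermat.Agent.GJ.FF.PrincipalOf.hasPrincipalDivisors_gen x₀
  have : Nonempty (Place k F) := Fermat.Agent.GJ.FF.nonempty_place x₀
  have : Fintype ↥(nodes J') := hfin.fintype
  obtain ⟨P, Q, hPinj, hQinj, hdP, hdQ, hD₁, hD₂, hT⟩ :=
    exists_places_T (Ψ := Ψ) (J' := J') x₀ hinj hCf hfix hJ hC₁ hC₂ ht₁C ht₂C ht₁ ht₂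
  have hfun : Tglue Ψ J' D₁ D₂ = T P Q D₁ D₂ := funext hT
  rw [hfun] at hs hST hloc
  have key := NodalCount.card_nodes_eq hPinj hQinj hdP hdQ hD₁ hD₂ hpos₁ hpos₂ ht₁ ht₂ hs S hST
    hS0 hS1 hloc a' g n₁ hdimS
  have hcard : Fintype.card ↥(nodes J') = (nodes J').ncard := by
    rw [Set.ncard_eq_toFinset_card', Set.toFinset_card]
  rw [GenusFF.finrank_L_zero_eq_one x₀, hcard] at key
  push_cast at key
  linarith

end Count

end Fermat.Agent.GK.NodalBridge
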