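import Fermat.Agent.GK.EvalK

/-!
# The glued Riemann–Roch spaces of a nodal fibre, in helper47's `Glue.glueSub` form
(GATE-K N7(b), helper34)

`F₁`, `F₂` function fields over `k` (RR typeclasses), `P : ι → Place k F₁`, `Q : ι → Place k F₂`
injective families of places of degree one (the two branches of the nodes).  Then for
`deg E₁, deg E₂ ≥ c`, uniformly in `J` and `ξ`:

`finrank (Glue.glueSub (evalKFamily E₁ P _) (evalKFamily E₂ Q _) J ξ)
   = deg E₁ + deg E₂ + ℓ₁(0) + ℓ₂(0) - g₁ - g₂ - card ι - card J`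

and all the hypotheses of `Glue.exists_eq_glueSub` / `Glue.eq_glueSub_of_finrank` other than the
dimension equality are discharged (`hsurj`).
-/

set_option autoImplicit false
set_option linter.unusedSectionVars false

noncomputable section

open AlgebraicCurve

namespace Fermat.Agent.GK.NodalFibre

open Fermat.Agent.RRh45 Fermat.Agent.RR Fermat.Agent.GK.NodalRR Fermat.Agent.GK.EvalK
open Fermat.Agent.GK.Glue

variable {k F₁ F₂ : Type*} [Field k] [Field F₁] [Field F₂] [Algebra k F₁] [Algebra k F₂]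
variable {ι : Type*} [Fintype ι] [DecidableEq ι]
variable [FiniteResidues k F₁] [HasPrincipalDivisors k F₁] [Nonempty (Place k F₁)]
variable [FiniteResidues k F₂] [HasPrincipalDivisors k F₂] [Nonempty (Place k F₂)]
variable {P : ι → Place k F₁} {Q : ι → Place k F₂}

/-- **dimension of the glued spaces** on a fibre with nodes of degree one, uniformly in `J`, `ξ` -/
theorem exists_finrank_glueSub (hP : Function.Injective P) (hQ : Function.Injective Q)
    (hdegP : ∀ j, (P j).deg = 1) (hdegQ : ∀ j, (Q j).deg = 1) :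
    ∃ c : ℤ, ∀ (E₁ : Divisor k F₁) (E₂ : Divisor k F₂),
      c ≤ Divisor.degree E₁ → c ≤ Divisor.degree E₂ →
      Function.Surjective (evPair (evalKFamily E₁ P hdegP) (evalKFamily E₂ Q hdegQ)) ∧
      ∀ (J : Finset ι) (ξ : ι → k),
        (Module.finrank k
            (glueSub (evalKFamily E₁ P hdegP) (evalKFamily E₂ Q hdegQ) J ξ) : ℤ) =
          Divisor.degree E₁ + Divisor.degree E₂
            + Module.finrank k (riemannRochSpace (0 : Divisor k F₁))
            + Module.finrank k (riemannRochSpace (0 : Divisor k F₂))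
            - genusFF k F₁ - genusFF k F₂ - Fintype.card ι - J.card := by
  obtain ⟨c₀, hc₀⟩ := exists_evPair_surjective hP hQ hdegP hdegQ
  obtain ⟨c₁, hc₁⟩ := exists_ell_eq k F₁
  obtain ⟨c₂, hc₂⟩ := exists_ell_eq k F₂
  refine ⟨max c₀ (max c₁ c₂), fun E₁ E₂ h1 h2 => ?_⟩
  have hs := hc₀ E₁ E₂ (le_trans (le_max_left _ _) h1) (le_trans (le_max_left _ _) h2)
  refine ⟨hs, fun J ξ => ?_⟩
  have h := finrank_glueSub (evalKFamily E₁ P hdegP) (evalKFamily E₂ Q hdegQ) J ξ hs
  have e1 := (hc₁ E₁ (le_trans (le_trans (le_max_left _ _) (le_max_right _ _)) h1)).1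
  have e2 := (hc₂ E₂ (le_trans (le_trans (le_max_right _ _) (le_max_right _ _)) h2)).1
  have h' : (Module.finrank k
      (glueSub (evalKFamily E₁ P hdegP) (evalKFamily E₂ Q hdegQ) J ξ) : ℤ)
        + Fintype.card ι + J.card =
      Module.finrank k (riemannRochSpace E₁) + Module.finrank k (riemannRochSpace E₂) := by
    exact_mod_cast h
  linarith

/-- constants: `(ξ₀, 1)` lies in the glued space with constant glueing `ξ₀`, when the divisors
avoid the nodes and are effective there (so that constants are sections) -/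
theorem const_mem_glueSub' (hdegP : ∀ j, (P j).deg = 1) (hdegQ : ∀ j, (Q j).deg = 1)
    {E₁ : Divisor k F₁} {E₂ : Divisor k F₂} (hE₁ : ∀ j, E₁ (P j) = 0) (hE₂ : ∀ j, E₂ (Q j) = 0)
    (h1 : algebraMap k F₁ 1 ∈ riemannRochSpace E₁) (h2 : algebraMap k F₂ 1 ∈ riemannRochSpace E₂)
    (ξ₀ : k) :
    ((ξ₀ • (⟨algebraMap k F₁ 1, h1⟩ : riemannRochSpace E₁),
        (⟨algebraMap k F₂ 1, h2⟩ : riemannRochSpace E₂)) :
        riemannRochSpace E₁ × riemannRochSpace E₂) ∈
      glueSub (evalKFamily E₁ P hdegP) (evalKFamily E₂ Q hdegQ) ∅ fun _ => ξ₀ :=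
  const_mem_glueSub (fun x => evalK_const (hdegP x) (hE₁ x) 1 h1)
    (fun x => evalK_const (hdegQ x) (hE₂ x) 1 h2) ξ₀

end Fermat.Agent.GK.NodalFibre
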