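import Fermat.Agent.GK.NodalRR
import Fermat.Agent.GK.Glue.GlueAbs

/-!
# `k`-valued evaluation at places of degree one  (GATE-K, adapter NodalRR → Glue/GlueAbs, helper34)

For a place `v` of degree one (`v.deg = 1`, automatic over an algebraically closed constant field)
the residue field is `K`, and helper45's `evalMap D v : L(D) → κ(v)` becomes a linear functional

`evalK D v h : L(D) →ₗ[K] K`.

* `algebraMap_evalK`, `evalK_eq_zero_iff`, `evalK_eq_iff_residue` (honest value off `supp D`);
* `evalK_mul` : multiplicativity `L(D) × L(D') → L(D + D')` (hypothesis `h1`/`h2` of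
  `Glue.mul_mem_glueSub`), `evalK_const`;
* `exists_evPair_surjective` : for `deg E₁, deg E₂ ≥ c` the joint evaluation
  `Glue.evPair` at two injective families of degree-one places is onto (hypothesis `hsurj` of
  `Glue.finrank_glueSub`, `Glue.exists_eq_glueSub`).
-/

set_option autoImplicit false
set_option linter.unusedSectionVars false

noncomputable section

open AlgebraicCurve

namespace Fermat.Agent.GK.EvalK

open Fermat.Agent.RRh45 Fermat.Agent.RR Fermat.Agent.GK.NodalRR

variable {K F : Type*} [Field K] [Field F] [Algebra K F]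

theorem algebraMap_residueField_bijective (v : Place K F) (h : v.deg = 1) :
    Function.Bijective (algebraMap K v.ResidueField) := by
  refine ⟨(algebraMap K v.ResidueField).injective, ?_⟩
  have h1 : Module.finrank K v.ResidueField = 1 := h
  have h2 : (⊥ : Subalgebra K v.ResidueField) = ⊤ := Subalgebra.bot_eq_top_of_finrank_eq_one h1
  intro x
  have hx : x ∈ (⊥ : Subalgebra K v.ResidueField) := by rw [h2]; exact Algebra.mem_top
  exact Algebra.mem_bot.mp hx

/-- `κ(v) = K` for a place of degree one -/
def residueEquiv (v : Place K F) (h : v.deg = 1) : K ≃ₗ[K] v.ResidueField :=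
  LinearEquiv.ofBijective (Algebra.linearMap K v.ResidueField)
    (algebraMap_residueField_bijective v h)

@[simp] theorem residueEquiv_apply (v : Place K F) (h : v.deg = 1) (c : K) :
    residueEquiv v h c = algebraMap K v.ResidueField c := rfl

/-- **evaluation at a place of degree one**, with values in `K` -/
def evalK (D : Divisor K F) (v : Place K F) (h : v.deg = 1) : riemannRochSpace D →ₗ[K] K :=
  ((residueEquiv v h).symm : v.ResidueField →ₗ[K] K).comp (evalMap D v)

theorem algebraMap_evalK (D : Divisor K F) (v : Place K F) (h : v.deg = 1)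
    (f : riemannRochSpace D) :
    algebraMap K v.ResidueField (evalK D v h f) = evalMap D v f := by
  rw [← residueEquiv_apply v h]
  exact (residueEquiv v h).apply_symm_apply _

theorem evalK_eq_iff (D : Divisor K F) (v : Place K F) (h : v.deg = 1)
    (f : riemannRochSpace D) (c : K) :
    evalK D v h f = c ↔ evalMap D v f = algebraMap K v.ResidueField c := by
  rw [← algebraMap_evalK D v h f]
  exact ⟨fun hc => by rw [hc], fun hc => (algebraMap K v.ResidueField).injective hc⟩

theorem evalK_eq_zero_iff (D : Divisor K F) (v : Place K F) (h : v.deg = 1)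
    (f : riemannRochSpace D) :
    evalK D v h f = 0 ↔ (f : F) ∈ riemannRochSpace (D - Finsupp.single v 1) := by
  rw [evalK_eq_iff, map_zero, evalMap_eq_zero_iff]

/-- off the support of `D`, `evalK` is the honest value: `f ≡ c` modulo the maximal ideal -/
theorem evalK_eq_iff_residue {D : Divisor K F} {v : Place K F} (h : v.deg = 1) (hD : D v = 0)
    (f : riemannRochSpace D) (c : K) :
    evalK D v h f = c ↔
      IsLocalRing.residue v.toValuationSubring
        ⟨(f : F), mem_valuationSubring_of_apply_eq_zero hD f⟩ =
          algebraMap K v.ResidueField c := by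
  rw [evalK_eq_iff, evalMap_eq_residue hD]

/-! ### multiplicativity -/

theorem mul_mem_riemannRochSpace {D D' : Divisor K F} {f g : F} (hf : f ∈ riemannRochSpace D)
    (hg : g ∈ riemannRochSpace D') : f * g ∈ riemannRochSpace (D + D') := by
  rw [mem_riemannRochSpace_iff] at hf hg ⊢
  intro v
  by_cases hf0 : f = 0
  · left; rw [hf0, zero_mul]
  by_cases hg0 : g = 0
  · left; rw [hg0, mul_zero]
  right
  have h1 := (hf v).resolve_left hf0
  have h2 := (hg v).resolve_left hg0
  rw [v.ord_mul hf0 hg0, Finsupp.coe_add, Pi.add_apply]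
  omega

/-- the product `L(D) × L(D') → L(D + D')` -/
def mulL {D D' : Divisor K F} (f : riemannRochSpace D) (g : riemannRochSpace D') :
    riemannRochSpace (D + D') :=
  ⟨(f : F) * g, mul_mem_riemannRochSpace f.2 g.2⟩

@[simp] theorem coe_mulL {D D' : Divisor K F} (f : riemannRochSpace D)
    (g : riemannRochSpace D') : ((mulL f g : riemannRochSpace (D + D')) : F) = f * g := rfl

theorem evalMap_mulL {D D' : Divisor K F} (v : Place K F) (f : riemannRochSpace D)
    (g : riemannRochSpace D') :
    evalMap (D + D') v (mulL f g) = evalMap D v f * evalMap D' v g := by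
  unfold evalMap leadCoeff
  simp only [LinearMap.coe_comp, LinearMap.coe_mk, AddHom.coe_mk, Function.comp_apply,
    Submodule.coe_inclusion, coe_mulL]
  rw [← map_mul]
  congr 1
  ext
  simp only [MulMemClass.mk_mul_mk]
  have hu := unif_ne_zero v
  rw [Finsupp.coe_add, Pi.add_apply, neg_add, neg_add, zpow_add₀ hu]
  ring

theorem evalK_mulL {D D' : Divisor K F} (v : Place K F) (h : v.deg = 1)
    (f : riemannRochSpace D) (g : riemannRochSpace D') :
    evalK (D + D') v h (mulL f g) = evalK D v h f * evalK D' v h g := by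
  rw [evalK_eq_iff, map_mul, algebraMap_evalK, algebraMap_evalK, evalMap_mulL]

/-- constants evaluate to themselves (off the support of `D`) -/
theorem evalK_const {D : Divisor K F} {v : Place K F} (h : v.deg = 1) (hD : D v = 0) (c : K)
    (hc : algebraMap K F c ∈ riemannRochSpace D) :
    evalK D v h ⟨algebraMap K F c, hc⟩ = c := by
  rw [evalK_eq_iff_residue h hD]
  rw [← IsLocalRing.ResidueField.algebraMap_eq,
    IsScalarTower.algebraMap_apply K v.toValuationSubring v.ResidueField]
  congr 1

/-! ### joint evaluation is onto for large degree -/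

section Surj

variable {ι : Type*} [Fintype ι]

/-- the family of `K`-valued evaluations at a family of degree-one places -/
def evalKFamily (D : Divisor K F) (P : ι → Place K F) (hdeg : ∀ j, (P j).deg = 1) :
    ι → riemannRochSpace D →ₗ[K] K := fun j => evalK D (P j) (hdeg j)

theorem pi_evalKFamily_surjective {D : Divisor K F} {P : ι → Place K F}
    (hdeg : ∀ j, (P j).deg = 1) (h : LinearMap.range (evalFamily D P) = ⊤) :
    Function.Surjective (LinearMap.pi (evalKFamily D P hdeg)) := by
  rw [LinearMap.range_eq_top] at h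
  intro y
  obtain ⟨f, hf⟩ := h fun j => algebraMap K (P j).ResidueField (y j)
  refine ⟨f, ?_⟩
  funext j
  show evalK D (P j) (hdeg j) f = y j
  rw [evalK_eq_iff, ← evalFamily_apply, hf]

end Surj

section Pair

variable {k F₁ F₂ : Type*} [Field k] [Field F₁] [Field F₂] [Algebra k F₁] [Algebra k F₂]
variable {ι : Type*} [Fintype ι]
variable [FiniteResidues k F₁] [HasPrincipalDivisors k F₁] [Nonempty (Place k F₁)]
variable [FiniteResidues k F₂] [HasPrincipalDivisors k F₂] [Nonempty (Place k F₂)]

/-- **`hsurj` of `Glue.finrank_glueSub` / `Glue.exists_eq_glueSub`** for `deg E₁, deg E₂ ≥ c`. -/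
theorem exists_evPair_surjective {P : ι → Place k F₁} {Q : ι → Place k F₂}
    (hP : Function.Injective P) (hQ : Function.Injective Q)
    (hdegP : ∀ j, (P j).deg = 1) (hdegQ : ∀ j, (Q j).deg = 1) :
    ∃ c : ℤ, ∀ (E₁ : Divisor k F₁) (E₂ : Divisor k F₂),
      c ≤ Divisor.degree E₁ → c ≤ Divisor.degree E₂ →
      Function.Surjective
        (Fermat.Agent.GK.Glue.evPair (evalKFamily E₁ P hdegP) (evalKFamily E₂ Q hdegQ)) := by
  obtain ⟨a₁, ha₁⟩ := exists_range_evalFamily_eq_top (K := k) hP
  obtain ⟨a₂, ha₂⟩ := exists_range_evalFamily_eq_top (K := k) hQ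
  refine ⟨max a₁ a₂, fun E₁ E₂ h1 h2 => ?_⟩
  have s1 := pi_evalKFamily_surjective hdegP (ha₁ E₁ (le_trans (le_max_left _ _) h1))
  have s2 := pi_evalKFamily_surjective hdegQ (ha₂ E₂ (le_trans (le_max_right _ _) h2))
  rintro ⟨y1, y2⟩
  obtain ⟨f1, hf1⟩ := s1 y1
  obtain ⟨f2, hf2⟩ := s2 y2
  refine ⟨(f1, f2), ?_⟩
  rw [Fermat.Agent.GK.Glue.evPair_apply]
  refine Prod.ext ?_ ?_
  · exact hf1
  · exact hf2

end Pair

end Fermat.Agent.GK.EvalK
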