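/-
GATE-K (helper38): the coordinate ring of the union of the graph of Frobenius and its transpose,
and all rings between it and the normalisation.

`k` a field, `R` a Dedekind `k`-algebra (not a field) all of whose maximal ideals are kernels of
`k`-points `a : R →ₐ[k] k`, `Φ : R →ₐ[k] R` an endomorphism which is ramified everywhere
(`Φ (𝔪_{F a}) ⊆ 𝔪_a ^ 2`, e.g. a relative Frobenius) with `Φ² ≠ id`.  `F a := a ∘ Φ` on points.

* `graphAlg Φ`  : the `k`-subalgebra of `R × R` generated by all `(f, Φ f)` and `(Φ f, f)`;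
* `nodalAlg Φ S` : `{x | ∀ a ∈ S, a x.1 = (F a) x.2}` (functions on two copies of the curve, glued
  along the pairs `(a, F a)`, `a ∈ S`);
* `graphAlg_eq_nodalAlg` : `graphAlg Φ = nodalAlg Φ (fixSet Φ)`, `fixSet Φ = {a | F (F a) = a}`;
* `finite_fixSet`;
* `eq_nodalAlg_of_graphAlg_le` : every subalgebra `B` with `graphAlg Φ ≤ B` is `nodalAlg Φ S` for
  a subset `S ⊆ fixSet Φ` (so its only singularities are ordinary nodes).
-/
import Mathlib

set_option autoImplicit false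

namespace Fermat.Agent.GK.FrobGraph

open scoped Classical

variable {k R : Type*} [Field k] [CommRing R] [Algebra k R]

/-- the image of a point under the map induced by `Φ` -/
def frobPt (Φ : R →ₐ[k] R) (a : R →ₐ[k] k) : R →ₐ[k] k := a.comp Φ

@[simp] theorem frobPt_apply (Φ : R →ₐ[k] R) (a : R →ₐ[k] k) (f : R) :
    frobPt Φ a f = a (Φ f) := rfl

/-- the points fixed by `F²` -/
def fixSet (Φ : R →ₐ[k] R) : Set (R →ₐ[k] k) := {a | frobPt Φ (frobPt Φ a) = a}

theorem mem_fixSet {Φ : R →ₐ[k] R} {a : R →ₐ[k] k} :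
    a ∈ fixSet Φ ↔ ∀ f, a (Φ (Φ f)) = a f :=
  ⟨fun h f => by
    have := DFunLike.congr_fun h f
    simpa using this, fun h => AlgHom.ext fun f => by simpa using h f⟩

theorem frobPt_mem_fixSet {Φ : R →ₐ[k] R} {a : R →ₐ[k] k} (ha : a ∈ fixSet Φ) :
    frobPt Φ a ∈ fixSet Φ := by
  rw [mem_fixSet] at ha ⊢
  intro f
  simpa using ha (Φ f)

/-- the subalgebra generated by the graph of `Φ` and its transpose -/
def graphAlg (Φ : R →ₐ[k] R) : Subalgebra k (R × R) :=
  Algebra.adjoin k (Set.range (fun f : R => (f, Φ f)) ∪ Set.range (fun f : R => (Φ f, f)))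

theorem pair_mem_graphAlg (Φ : R →ₐ[k] R) (f : R) : (f, Φ f) ∈ graphAlg Φ :=
  Algebra.subset_adjoin (Or.inl ⟨f, rfl⟩)

theorem pair_mem_graphAlg' (Φ : R →ₐ[k] R) (f : R) : (Φ f, f) ∈ graphAlg Φ :=
  Algebra.subset_adjoin (Or.inr ⟨f, rfl⟩)

/-- the gluing defect at the point `a` -/
def glue (Φ : R →ₐ[k] R) (a : R →ₐ[k] k) : (R × R) →ₗ[k] k :=
  (a.toLinearMap.comp (LinearMap.fst k R R)) - ((frobPt Φ a).toLinearMap.comp (LinearMap.snd k R R))

@[simp] theorem glue_apply (Φ : R →ₐ[k] R) (a : R →ₐ[k] k) (x : R × R) :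
    glue Φ a x = a x.1 - a (Φ x.2) := rfl

/-- pairs of functions glued along `(a, F a)`, `a ∈ S` -/
def nodalAlg (Φ : R →ₐ[k] R) (S : Set (R →ₐ[k] k)) : Subalgebra k (R × R) where
  carrier := {x | ∀ a ∈ S, a x.1 = a (Φ x.2)}
  mul_mem' := fun {x y} hx hy a ha => by
    simp only [Prod.fst_mul, Prod.snd_mul, map_mul, hx a ha, hy a ha]
  add_mem' := fun {x y} hx hy a ha => by
    simp only [Prod.fst_add, Prod.snd_add, map_add, hx a ha, hy a ha]
  algebraMap_mem' := fun c a _ => by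
    simp only [Prod.algebraMap_apply, AlgHom.commutes]

theorem mem_nodalAlg {Φ : R →ₐ[k] R} {S : Set (R →ₐ[k] k)} {x : R × R} :
    x ∈ nodalAlg Φ S ↔ ∀ a ∈ S, a x.1 = a (Φ x.2) := Iff.rfl

theorem mem_nodalAlg_iff_glue {Φ : R →ₐ[k] R} {S : Set (R →ₐ[k] k)} {x : R × R} :
    x ∈ nodalAlg Φ S ↔ ∀ a ∈ S, glue Φ a x = 0 := by
  simp only [mem_nodalAlg, glue_apply, sub_eq_zero]

theorem nodalAlg_anti {Φ : R →ₐ[k] R} {S T : Set (R →ₐ[k] k)} (h : S ⊆ T) :
    nodalAlg Φ T ≤ nodalAlg Φ S := fun _ hx a ha => hx a (h ha)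

/-- the easy inclusion -/
theorem graphAlg_le_nodalAlg (Φ : R →ₐ[k] R) : graphAlg Φ ≤ nodalAlg Φ (fixSet Φ) := by
  refine Algebra.adjoin_le ?_
  rintro x (⟨f, rfl⟩ | ⟨f, rfl⟩) a ha
  · exact ((mem_fixSet.mp ha) f).symm
  · rfl

/-- the ideal generated by the `f - Φ² f` -/
def defectIdeal (Φ : R →ₐ[k] R) : Ideal R := Ideal.span (Set.range fun f : R => f - Φ (Φ f))

theorem zero_pair_mem_graphAlg {Φ : R →ₐ[k] R} {g : R} (hg : g ∈ defectIdeal Φ) :
    ((0 : R), g) ∈ graphAlg Φ := by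
  induction hg using Submodule.span_induction with
  | mem x hx =>
    obtain ⟨f, rfl⟩ := hx
    have h1 := pair_mem_graphAlg' Φ f
    have h2 := pair_mem_graphAlg Φ (Φ f)
    have h3 := (graphAlg Φ).sub_mem h1 h2
    simpa using h3
  | zero => exact (graphAlg Φ).zero_mem
  | add x y _ _ hx hy =>
    have := (graphAlg Φ).add_mem hx hy
    simpa using this
  | smul r x _ hx =>
    have := (graphAlg Φ).mul_mem (pair_mem_graphAlg' Φ r) hx
    simpa using this

theorem pair_zero_mem_graphAlg {Φ : R →ₐ[k] R} {g : R} (hg : g ∈ defectIdeal Φ) :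
    (g, (0 : R)) ∈ graphAlg Φ := by
  induction hg using Submodule.span_induction with
  | mem x hx =>
    obtain ⟨f, rfl⟩ := hx
    have h1 := pair_mem_graphAlg Φ f
    have h2 := pair_mem_graphAlg' Φ (Φ f)
    have h3 := (graphAlg Φ).sub_mem h1 h2
    simpa using h3
  | zero => exact (graphAlg Φ).zero_mem
  | add x y _ _ hx hy =>
    have := (graphAlg Φ).add_mem hx hy
    simpa using this
  | smul r x _ hx =>
    have := (graphAlg Φ).mul_mem (pair_mem_graphAlg Φ r) hx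
    simpa using this

theorem defectIdeal_le_ker_iff {Φ : R →ₐ[k] R} {a : R →ₐ[k] k} :
    defectIdeal Φ ≤ RingHom.ker a ↔ a ∈ fixSet Φ := by
  rw [defectIdeal, Ideal.span_le, mem_fixSet]
  constructor
  · intro h f
    have := h ⟨f, rfl⟩
    rw [SetLike.mem_coe, RingHom.mem_ker, map_sub, sub_eq_zero] at this
    exact this.symm
  · rintro h _ ⟨f, rfl⟩
    rw [SetLike.mem_coe, RingHom.mem_ker, map_sub, h f, sub_self]

theorem ker_injective {a b : R →ₐ[k] k} (h : RingHom.ker a = RingHom.ker b) : a = b := by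
  refine AlgHom.ext fun f => ?_
  have h1 : f - algebraMap k R (a f) ∈ RingHom.ker a := by
    rw [RingHom.mem_ker, map_sub, AlgHom.commutes, Algebra.algebraMap_self_apply, sub_self]
  rw [h, RingHom.mem_ker, map_sub, AlgHom.commutes, Algebra.algebraMap_self_apply,
    sub_eq_zero] at h1
  exact h1.symm

theorem ker_isMaximal (a : R →ₐ[k] k) : (RingHom.ker a).IsMaximal :=
  RingHom.ker_isMaximal_of_surjective a fun c => ⟨algebraMap k R c, by
    rw [AlgHom.commutes, Algebra.algebraMap_self_apply]⟩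

section Dedekind

variable [IsDedekindDomain R]

/-- the hypotheses on `Φ` -/
structure FrobLike (Φ : R →ₐ[k] R) : Prop where
  not_isField : ¬ IsField R
  exists_point : ∀ m : Ideal R, m.IsMaximal → ∃ a : R →ₐ[k] k, RingHom.ker a = m
  ramified : ∀ (a : R →ₐ[k] k) (f : R), a (Φ f) = 0 → Φ f ∈ (RingHom.ker a) ^ 2
  sq_ne_id : ∃ f, Φ (Φ f) ≠ f

variable {Φ : R →ₐ[k] R}

theorem FrobLike.exists_uniformizer (h : FrobLike Φ) (a : R →ₐ[k] k) :
    ∃ f, a f = 0 ∧ f ∉ (RingHom.ker a) ^ 2 := by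
  have := ker_isMaximal a
  have hne : RingHom.ker a ≠ ⊥ := Ring.ne_bot_of_isMaximal_of_not_isField inferInstance h.not_isField
  have hlt := Ideal.pow_succ_lt_pow hne 1
  rw [pow_one] at hlt
  obtain ⟨f, hf, hf'⟩ := SetLike.exists_of_lt hlt
  exact ⟨f, (RingHom.mem_ker).mp hf, hf'⟩

theorem FrobLike.not_defectIdeal_le_sq (h : FrobLike Φ) {a : R →ₐ[k] k} (ha : a ∈ fixSet Φ) :
    ¬ defectIdeal Φ ≤ (RingHom.ker a) ^ 2 := by
  intro hle
  obtain ⟨f, hf0, hf⟩ := h.exists_uniformizer a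
  have h1 : (frobPt Φ a) (Φ f) = 0 := by
    rw [frobPt_apply, (mem_fixSet.mp ha) f, hf0]
  have h2 : Φ f ∈ (RingHom.ker (frobPt Φ a)) ^ 2 := h.ramified (frobPt Φ a) f h1
  have h3 : a (Φ (Φ f)) = 0 := by rw [(mem_fixSet.mp ha) f, hf0]
  have h4 : Φ (Φ f) ∈ (RingHom.ker a) ^ 2 := h.ramified a (Φ f) h3
  have h5 : f - Φ (Φ f) ∈ (RingHom.ker a) ^ 2 := hle (Ideal.subset_span ⟨f, rfl⟩)
  apply hf
  have := Ideal.add_mem _ h5 h4
  simpa using this

/-- **the defect ideal is the (radical) ideal of the fixed points of `F²`.** -/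
theorem FrobLike.defectIdeal_eq (h : FrobLike Φ) :
    defectIdeal Φ = ⨅ a ∈ fixSet Φ, RingHom.ker a := by
  set I : Ideal R := ⨅ a ∈ fixSet Φ, RingHom.ker a with hI
  have hJI : defectIdeal Φ ≤ I := le_iInf₂ fun a ha => defectIdeal_le_ker_iff.mpr ha
  obtain ⟨J', hJ'⟩ := Ideal.dvd_iff_le.mpr hJI
  by_cases htop : J' = ⊤
  · rw [hJ', htop, Ideal.mul_top]
  · exfalso
    obtain ⟨m, hm, hJm⟩ := Ideal.exists_le_maximal J' htop
    obtain ⟨a, rfl⟩ := h.exists_point m hm
    have h1 : defectIdeal Φ ≤ RingHom.ker a := by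
      rw [hJ']; exact Ideal.mul_le_right.trans hJm
    have ha : a ∈ fixSet Φ := defectIdeal_le_ker_iff.mp h1
    have h2 : I ≤ RingHom.ker a := iInf₂_le a ha
    apply h.not_defectIdeal_le_sq ha
    rw [hJ', pow_two]
    exact Ideal.mul_mono h2 hJm

omit [IsDedekindDomain R] in
theorem FrobLike.defectIdeal_ne_bot (h : FrobLike Φ) : defectIdeal Φ ≠ ⊥ := by
  obtain ⟨f, hf⟩ := h.sq_ne_id
  intro hbot
  have : f - Φ (Φ f) ∈ defectIdeal Φ := Ideal.subset_span ⟨f, rfl⟩
  rw [hbot, Ideal.mem_bot, sub_eq_zero] at this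
  exact hf this.symm

/-- `F²` has finitely many fixed points -/
theorem FrobLike.finite_fixSet (h : FrobLike Φ) : (fixSet Φ).Finite := by
  have hfin := Ideal.finite_minimalPrimes_of_isNoetherianRing R (defectIdeal Φ)
  refine Set.Finite.of_finite_image (f := fun a : R →ₐ[k] k => RingHom.ker a)
    (hfin.subset ?_) (fun a _ b _ hab => ker_injective hab)
  rintro _ ⟨a, ha, rfl⟩
  have := ker_isMaximal a
  refine ⟨⟨(ker_isMaximal a).isPrime, defectIdeal_le_ker_iff.mpr ha⟩, ?_⟩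
  rintro p ⟨hp, hJp⟩ hpa
  have := hp
  have hp0 : p ≠ ⊥ := fun h0 => h.defectIdeal_ne_bot (le_bot_iff.mp (h0 ▸ hJp))
  have hpm : p.IsMaximal := hp.isMaximal hp0
  exact (hpm.eq_of_le (ker_isMaximal a).ne_top hpa).ge

/-- **the graph ring is the nodal ring of all fixed points of `F²`.** -/
theorem FrobLike.graphAlg_eq_nodalAlg (h : FrobLike Φ) :
    graphAlg Φ = nodalAlg Φ (fixSet Φ) := by
  refine le_antisymm (graphAlg_le_nodalAlg Φ) fun x hx => ?_
  have h1 : x.2 - Φ x.1 ∈ defectIdeal Φ := by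
    rw [h.defectIdeal_eq, Ideal.mem_iInf]
    intro b
    rw [Ideal.mem_iInf]
    intro hb
    have := hx (frobPt Φ b) (frobPt_mem_fixSet hb)
    rw [frobPt_apply, frobPt_apply, (mem_fixSet.mp hb) x.2] at this
    rw [RingHom.mem_ker, map_sub, this, sub_self]
  have h2 := (graphAlg Φ).add_mem (pair_mem_graphAlg Φ x.1) (zero_pair_mem_graphAlg h1)
  have h3 : (x.1, Φ x.1) + ((0 : R), x.2 - Φ x.1) = x := by
    ext <;> simp
  rwa [h3] at h2

omit [IsDedekindDomain R] in
theorem glue_pair_mul {a : R →ₐ[k] k} (ha : a ∈ fixSet Φ) (e : R) (s : R × R) :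
    glue Φ a ((e, Φ e) * s) = a e * glue Φ a s := by
  simp only [glue_apply, Prod.fst_mul, Prod.snd_mul, map_mul, (mem_fixSet.mp ha) e]
  ring

/-- separating functions for finitely many points -/
theorem exists_sep (T : Finset (R →ₐ[k] k)) (a₀ : R →ₐ[k] k) :
    ∃ e : R, a₀ e = 1 ∧ ∀ a ∈ T, a ≠ a₀ → a e = 0 := by
  have key : ∀ a : R →ₐ[k] k, a ≠ a₀ → ∃ g : R, a₀ g = 1 ∧ a g = 0 := by
    intro a hne
    obtain ⟨f, hf⟩ : ∃ f, a f ≠ a₀ f := by
      by_contra hcon
      push Not at hcon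
      exact hne (AlgHom.ext hcon)
    have hd : a₀ f - a f ≠ 0 := sub_ne_zero.mpr (Ne.symm hf)
    refine ⟨(a₀ f - a f)⁻¹ • (f - algebraMap k R (a f)), ?_, ?_⟩
    · rw [map_smul, map_sub, AlgHom.commutes, Algebra.algebraMap_self_apply, smul_eq_mul,
        inv_mul_cancel₀ hd]
    · rw [map_smul, map_sub, AlgHom.commutes, Algebra.algebraMap_self_apply, sub_self, smul_zero]
  choose! g hg1 hg0 using key
  refine ⟨∏ a ∈ T.filter (· ≠ a₀), g a, ?_, ?_⟩
  · rw [map_prod]
    exact Finset.prod_eq_one fun a ha => hg1 a (Finset.mem_filter.mp ha).2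
  · intro a ha hne
    rw [map_prod]
    exact Finset.prod_eq_zero (Finset.mem_filter.mpr ⟨ha, hne⟩) (hg0 a hne)

/-- **every ring between the graph ring and `R × R` is a nodal ring** for a subset of the fixed
points of `F²`. -/
theorem FrobLike.eq_nodalAlg_of_graphAlg_le (h : FrobLike Φ) (B : Subalgebra k (R × R))
    (hB : graphAlg Φ ≤ B) :
    B = nodalAlg Φ {a | a ∈ fixSet Φ ∧ ∀ x ∈ B, a x.1 = a (Φ x.2)} := by
  refine le_antisymm (fun x hx a ha => ha.2 x hx) fun x hx => ?_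
  set T : Finset (R →ₐ[k] k) := h.finite_fixSet.toFinset with hT
  have hTmem : ∀ a, a ∈ T ↔ a ∈ fixSet Φ := fun a => h.finite_fixSet.mem_toFinset
  -- the points of `T` that are separated by `B`
  set N : Finset (R →ₐ[k] k) := T.filter (fun a => ∃ s ∈ B, glue Φ a s ≠ 0) with hN
  have hs : ∀ a, ∃ s : R × R, a ∈ N → s ∈ B ∧ glue Φ a s ≠ 0 := by
    intro a
    by_cases ha : a ∈ N
    · obtain ⟨s, hsB, hs0⟩ := (Finset.mem_filter.mp ha).2
      exact ⟨s, fun _ => ⟨hsB, hs0⟩⟩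
    · exact ⟨0, fun h' => absurd h' ha⟩
  choose s hs using hs
  have he : ∀ a, ∃ e : R, a e = 1 ∧ ∀ b ∈ T, b ≠ a → b e = 0 := fun a => exists_sep T a
  choose e he1 he0 using he
  set y : R × R := ∑ a ∈ N, (glue Φ a x / glue Φ a (s a)) • ((e a, Φ (e a)) * s a) with hy
  have hyB : y ∈ B := by
    refine B.sum_mem fun a ha => B.smul_mem (B.mul_mem (hB (pair_mem_graphAlg Φ _)) (hs a ha).1) _
  have hxy : x - y ∈ graphAlg Φ := by
    rw [h.graphAlg_eq_nodalAlg, mem_nodalAlg_iff_glue]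
    intro b hb
    have hbT : b ∈ T := (hTmem b).mpr hb
    rw [map_sub, hy, map_sum]
    have hterm : ∀ a ∈ N, glue Φ b ((glue Φ a x / glue Φ a (s a)) • ((e a, Φ (e a)) * s a))
        = if a = b then glue Φ b x else 0 := by
      intro a ha
      rw [map_smul, glue_pair_mul hb, smul_eq_mul]
      split_ifs with hab
      · subst hab
        rw [he1, one_mul, div_mul_cancel₀ _ (hs a ha).2]
      · rw [he0 a b hbT (Ne.symm hab), zero_mul, mul_zero]
    rw [Finset.sum_congr rfl hterm, Finset.sum_ite_eq' N b]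
    split_ifs with hbN
    · rw [sub_self]
    · rw [sub_zero]
      -- `b` is not separated by `B`, so it is one of the gluing conditions of `x`
      have hbS : ∀ z ∈ B, b z.1 = b (Φ z.2) := by
        intro z hz
        by_contra hne
        apply hbN
        rw [hN, Finset.mem_filter]
        exact ⟨hbT, z, hz, by rw [glue_apply]; exact sub_ne_zero.mpr hne⟩
      have := hx b ⟨hb, hbS⟩
      rw [glue_apply, this, sub_self]
  have := B.add_mem (hB hxy) hyB
  rwa [sub_add_cancel] at this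

end Dedekind

end Fermat.Agent.GK.FrobGraph
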