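import Fermat.Agent.RR.Final

/-!
# Riemann's theorem for a nodal glueing of two function fields  (GATE-K prep, helper34)

`F₁`, `F₂` function fields over `k` (prelude API + the RR typeclasses), `P : ι → Place k F₁`,
`Q : ι → Place k F₂` two injective finite families of places ("the two preimages of the nodes"),
`θ j : κ(P j) ≃ₗ[k] κ(Q j)` the glueing data (for places of degree one: multiplication by the
glueing constant).  For divisors `E₁`, `E₂`:

`nodalSpace P Q θ E₁ E₂ = {(f₁, f₂) ∈ L(E₁) × L(E₂) | ∀ j, θ j (f₁(P j)) = f₂(Q j)}`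

(`f(P)` = leading coefficient with respect to the order `-E(P)`; the honest value when
`E(P) = 0`, see `evalMap_eq_residue`).  Results:

* `evalFamily`, `ker_evalFamily`, `exists_range_evalFamily_eq_top` : simultaneous evaluation
  `L(D) → ∏ κ(P j)` has kernel `L(D - ∑ P j)` and is onto for `deg D` large;
* `nodal_riemann_inequality` : `dim ≥ deg E₁ + deg E₂ + ℓ₁(0) + ℓ₂(0) - g₁ - g₂ - ∑ deg (Q j)`;
* `nodal_riemann` : equality for `deg E₁, deg E₂ ≥ c`
  (arithmetic genus `g₁ + g₂ + s - 1` for `s` nodes of degree one, `ℓᵢ(0) = 1`).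
-/

set_option autoImplicit false
set_option linter.unusedSectionVars false

noncomputable section

open AlgebraicCurve

namespace Fermat.Agent.GK.NodalRR

open Fermat.Agent.RRh45 Fermat.Agent.RR

section Family

variable {K F : Type*} [Field K] [Field F] [Algebra K F]
variable {ι : Type*} [Fintype ι]

/-- the sum of the places `P j` -/
def nodeDiv (P : ι → Place K F) : Divisor K F := ∑ j, Finsupp.single (P j) 1

open scoped Classical in
theorem nodeDiv_apply (P : ι → Place K F) (v : Place K F) :
    nodeDiv P v = ∑ j, (if P j = v then (1 : ℤ) else 0) := by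
  rw [nodeDiv, Finsupp.finsetSum_apply]
  exact Finset.sum_congr rfl fun j _ => Finsupp.single_apply

theorem nodeDiv_apply_self {P : ι → Place K F} (hP : Function.Injective P) (j : ι) :
    nodeDiv P (P j) = 1 := by
  classical
  rw [nodeDiv_apply, Finset.sum_eq_single j]
  · simp
  · intro i _ hij
    rw [if_neg fun h => hij (hP h)]
  · intro h
    exact absurd (Finset.mem_univ j) h

theorem nodeDiv_apply_of_forall_ne {P : ι → Place K F} {v : Place K F} (hv : ∀ j, P j ≠ v) :
    nodeDiv P v = 0 := by
  rw [nodeDiv_apply]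
  exact Finset.sum_eq_zero fun j _ => if_neg (hv j)

theorem nodeDiv_nonneg (P : ι → Place K F) : 0 ≤ nodeDiv P := by
  rw [Finsupp.le_def]
  intro v
  rw [nodeDiv_apply, Finsupp.coe_zero, Pi.zero_apply]
  exact Finset.sum_nonneg fun j _ => by split_ifs <;> simp

theorem degree_nodeDiv (P : ι → Place K F) :
    Divisor.degree (nodeDiv P) = ∑ j, ((P j).deg : ℤ) := by
  rw [nodeDiv, map_sum]
  exact Finset.sum_congr rfl fun j _ => by rw [Divisor.degree_single, one_mul]

theorem single_le_nodeDiv {P : ι → Place K F} (hP : Function.Injective P) (j : ι) :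
    Finsupp.single (P j) 1 ≤ nodeDiv P := by
  classical
  rw [Finsupp.le_def]
  intro v
  by_cases hv : P j = v
  · subst hv
    rw [Finsupp.single_eq_same, nodeDiv_apply_self hP]
  · rw [Finsupp.single_eq_of_ne' hv]
    exact Finsupp.le_def.mp (nodeDiv_nonneg P) v

/-- simultaneous evaluation at the places `P j` -/
def evalFamily (D : Divisor K F) (P : ι → Place K F) :
    riemannRochSpace D →ₗ[K] (∀ j, (P j).ResidueField) :=
  LinearMap.pi fun j => evalMap D (P j)

@[simp] theorem evalFamily_apply (D : Divisor K F) (P : ι → Place K F)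
    (f : riemannRochSpace D) (j : ι) : evalFamily D P f j = evalMap D (P j) f := rfl

theorem sub_nodeDiv_le (D : Divisor K F) (P : ι → Place K F) : D - nodeDiv P ≤ D :=
  sub_le_self D (nodeDiv_nonneg P)

theorem ker_evalFamily (D : Divisor K F) {P : ι → Place K F} (hP : Function.Injective P) :
    LinearMap.ker (evalFamily D P) =
      (riemannRochSpace (D - nodeDiv P)).comap (riemannRochSpace D).subtype := by
  ext f
  rw [LinearMap.mem_ker, Submodule.mem_comap, Submodule.subtype_apply]
  constructor
  · intro h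
    have hj : ∀ j, (f : F) ∈ riemannRochSpace (D - Finsupp.single (P j) 1) := fun j =>
      (evalMap_eq_zero_iff D (P j) f).mp (by rw [← evalFamily_apply, h]; rfl)
    rw [mem_riemannRochSpace_iff]
    intro v
    by_cases hv : ∃ j, P j = v
    · obtain ⟨j, rfl⟩ := hv
      have := (mem_riemannRochSpace_iff.mp (hj j)) (P j)
      rcases this with h0 | h0
      · exact Or.inl h0
      · right
        rw [Finsupp.coe_sub, Pi.sub_apply, Finsupp.single_eq_same] at h0
        rw [Finsupp.coe_sub, Pi.sub_apply, nodeDiv_apply_self hP]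
        exact h0
    · have hv' : ∀ j, P j ≠ v := fun j hj => hv ⟨j, hj⟩
      rcases (mem_riemannRochSpace_iff.mp f.2) v with h0 | h0
      · exact Or.inl h0
      · right
        rw [Finsupp.coe_sub, Pi.sub_apply, nodeDiv_apply_of_forall_ne hv', sub_zero]
        exact h0
  · intro h
    funext j
    rw [evalFamily_apply, Pi.zero_apply, evalMap_eq_zero_iff]
    exact riemannRochSpace_mono (sub_le_sub_left (single_le_nodeDiv hP j) D) h

theorem mem_valuationSubring_of_apply_eq_zero {D : Divisor K F} {v : Place K F} (hD : D v = 0)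
    (f : riemannRochSpace D) : (f : F) ∈ v.toValuationSubring := by
  have := mul_unif_zpow_mem v (riemannRochSpace_le_ordGE D v f.2)
  simpa [hD] using this

/-- at a place outside the support of `D`, `evalMap` is the honest value of `f` -/
theorem evalMap_eq_residue {D : Divisor K F} {v : Place K F} (hD : D v = 0)
    (f : riemannRochSpace D) :
    evalMap D v f = IsLocalRing.residue v.toValuationSubring
      ⟨(f : F), mem_valuationSubring_of_apply_eq_zero hD f⟩ := by
  unfold evalMap leadCoeff
  simp only [LinearMap.coe_comp, LinearMap.coe_mk, AddHom.coe_mk, Function.comp_apply,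
    Submodule.coe_inclusion]
  congr 1
  ext
  simp [hD]

variable [FiniteResidues K F] [HasPrincipalDivisors K F] [Nonempty (Place K F)]

/-- rank of the simultaneous evaluation -/
theorem finrank_range_evalFamily (D : Divisor K F) {P : ι → Place K F}
    (hP : Function.Injective P) :
    Module.finrank K (LinearMap.range (evalFamily D P)) +
        Module.finrank K (riemannRochSpace (D - nodeDiv P)) =
      Module.finrank K (riemannRochSpace D) := by
  have h1 := LinearMap.finrank_range_add_finrank_ker (evalFamily D P)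
  have hle := riemannRochSpace_mono (sub_nodeDiv_le D P)
  have h3 : Module.finrank K (LinearMap.ker (evalFamily D P)) =
      Module.finrank K (riemannRochSpace (D - nodeDiv P)) := by
    rw [ker_evalFamily D hP]
    exact (Submodule.comapSubtypeEquivOfLe hle).finrank_eq
  omega

theorem finrank_pi_residueField (P : ι → Place K F) :
    (Module.finrank K (∀ j, (P j).ResidueField) : ℤ) = ∑ j, ((P j).deg : ℤ) := by
  rw [Module.finrank_pi_fintype]
  push_cast
  rfl

/-- for `deg D` large the simultaneous evaluation is onto -/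
theorem exists_range_evalFamily_eq_top {P : ι → Place K F} (hP : Function.Injective P) :
    ∃ c : ℤ, ∀ D : Divisor K F, c ≤ Divisor.degree D →
      LinearMap.range (evalFamily D P) = ⊤ := by
  obtain ⟨c, hc⟩ := exists_ell_eq K F
  refine ⟨c + Divisor.degree (nodeDiv P), fun D hD => ?_⟩
  have hdeg : Divisor.degree (D - nodeDiv P) = Divisor.degree D - Divisor.degree (nodeDiv P) :=
    map_sub _ _ _
  have hnn : 0 ≤ Divisor.degree (nodeDiv P) := by
    rw [degree_nodeDiv]
    exact Finset.sum_nonneg fun j _ => by positivity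
  have h1 := (hc (D - nodeDiv P) (by rw [hdeg]; linarith)).1
  have h2 := (hc D (by linarith)).1
  have h3 := finrank_range_evalFamily D hP
  apply Submodule.eq_top_of_finrank_eq
  have h4 := finrank_pi_residueField P
  rw [← degree_nodeDiv] at h4
  have : (Module.finrank K (LinearMap.range (evalFamily D P)) : ℤ) =
      Module.finrank K (∀ j, (P j).ResidueField) := by
    have h3' : (Module.finrank K (LinearMap.range (evalFamily D P)) : ℤ) +
        Module.finrank K (riemannRochSpace (D - nodeDiv P)) =
          Module.finrank K (riemannRochSpace D) := by exact_mod_cast h3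
    rw [h4]
    linarith
  exact_mod_cast this

end Family

section Nodal

variable {k F₁ F₂ : Type*} [Field k] [Field F₁] [Field F₂] [Algebra k F₁] [Algebra k F₂]
variable {ι : Type*} [Fintype ι]
variable (P : ι → Place k F₁) (Q : ι → Place k F₂)
variable (θ : ∀ j, (P j).ResidueField ≃ₗ[k] (Q j).ResidueField)

/-- the glueing defect `(f₁, f₂) ↦ (θ j (f₁(P j)) - f₂(Q j))_j` -/
def glueMap (E₁ : Divisor k F₁) (E₂ : Divisor k F₂) :
    (riemannRochSpace E₁ × riemannRochSpace E₂) →ₗ[k] (∀ j, (Q j).ResidueField) :=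
  ((LinearMap.pi fun j => ((θ j : (P j).ResidueField →ₗ[k] (Q j).ResidueField)).comp
      (LinearMap.proj j)).comp (evalFamily E₁ P)).comp (LinearMap.fst k _ _) -
    (evalFamily E₂ Q).comp (LinearMap.snd k _ _)

theorem glueMap_apply (E₁ : Divisor k F₁) (E₂ : Divisor k F₂)
    (x : riemannRochSpace E₁ × riemannRochSpace E₂) (j : ι) :
    glueMap P Q θ E₁ E₂ x j = θ j (evalMap E₁ (P j) x.1) - evalMap E₂ (Q j) x.2 := rfl

/-- **the Riemann–Roch space of the nodal curve** -/
def nodalSpace (E₁ : Divisor k F₁) (E₂ : Divisor k F₂) :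
    Submodule k (riemannRochSpace E₁ × riemannRochSpace E₂) :=
  LinearMap.ker (glueMap P Q θ E₁ E₂)

theorem mem_nodalSpace {E₁ : Divisor k F₁} {E₂ : Divisor k F₂}
    {x : riemannRochSpace E₁ × riemannRochSpace E₂} :
    x ∈ nodalSpace P Q θ E₁ E₂ ↔ ∀ j, θ j (evalMap E₁ (P j) x.1) = evalMap E₂ (Q j) x.2 := by
  rw [nodalSpace, LinearMap.mem_ker]
  constructor
  · intro h j
    have := congrFun h j
    rw [glueMap_apply, Pi.zero_apply, sub_eq_zero] at this
    exact this
  · intro h
    funext j
    rw [glueMap_apply, Pi.zero_apply, sub_eq_zero]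
    exact h j

/-- if the evaluation on the first component is onto, so is the glueing defect -/
theorem range_glueMap_eq_top {E₁ : Divisor k F₁} (E₂ : Divisor k F₂)
    (h : LinearMap.range (evalFamily E₁ P) = ⊤) :
    LinearMap.range (glueMap P Q θ E₁ E₂) = ⊤ := by
  rw [LinearMap.range_eq_top] at h ⊢
  intro y
  obtain ⟨f, hf⟩ := h fun j => (θ j).symm (y j)
  refine ⟨(f, 0), ?_⟩
  funext j
  rw [glueMap_apply, map_zero, sub_zero, ← evalFamily_apply, hf, LinearEquiv.apply_symm_apply]

variable [FiniteResidues k F₁] [HasPrincipalDivisors k F₁] [Nonempty (Place k F₁)]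
variable [FiniteResidues k F₂] [HasPrincipalDivisors k F₂] [Nonempty (Place k F₂)]

theorem finrank_nodalSpace_add (E₁ : Divisor k F₁) (E₂ : Divisor k F₂) :
    Module.finrank k (LinearMap.range (glueMap P Q θ E₁ E₂)) +
        Module.finrank k (nodalSpace P Q θ E₁ E₂) =
      Module.finrank k (riemannRochSpace E₁) + Module.finrank k (riemannRochSpace E₂) := by
  rw [nodalSpace, LinearMap.finrank_range_add_finrank_ker, Module.finrank_prod]

/-- `dim ≥ ℓ(E₁) + ℓ(E₂) - ∑ deg (Q j)` -/
theorem finrank_nodalSpace_ge (E₁ : Divisor k F₁) (E₂ : Divisor k F₂) :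
    (Module.finrank k (riemannRochSpace E₁) : ℤ) + Module.finrank k (riemannRochSpace E₂)
        - ∑ j, ((Q j).deg : ℤ) ≤ Module.finrank k (nodalSpace P Q θ E₁ E₂) := by
  have h1 := finrank_nodalSpace_add P Q θ E₁ E₂
  have h2 : Module.finrank k (LinearMap.range (glueMap P Q θ E₁ E₂)) ≤
      Module.finrank k (∀ j, (Q j).ResidueField) := Submodule.finrank_le _
  have h3 := finrank_pi_residueField Q
  have h1' : (Module.finrank k (LinearMap.range (glueMap P Q θ E₁ E₂)) : ℤ) +
      Module.finrank k (nodalSpace P Q θ E₁ E₂) =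
        Module.finrank k (riemannRochSpace E₁) + Module.finrank k (riemannRochSpace E₂) := by
    exact_mod_cast h1
  have h2' : (Module.finrank k (LinearMap.range (glueMap P Q θ E₁ E₂)) : ℤ) ≤
      Module.finrank k (∀ j, (Q j).ResidueField) := by exact_mod_cast h2
  linarith

/-- `dim = ℓ(E₁) + ℓ(E₂) - ∑ deg (Q j)` when the evaluation on the first component is onto -/
theorem finrank_nodalSpace_eq {E₁ : Divisor k F₁} (E₂ : Divisor k F₂)
    (h : LinearMap.range (evalFamily E₁ P) = ⊤) :
    (Module.finrank k (nodalSpace P Q θ E₁ E₂) : ℤ) =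
      (Module.finrank k (riemannRochSpace E₁) : ℤ) + Module.finrank k (riemannRochSpace E₂)
        - ∑ j, ((Q j).deg : ℤ) := by
  have h1 := finrank_nodalSpace_add P Q θ E₁ E₂
  rw [range_glueMap_eq_top P Q θ E₂ h, finrank_top] at h1
  have h3 := finrank_pi_residueField Q
  have h1' : (Module.finrank k (∀ j, (Q j).ResidueField) : ℤ) +
      Module.finrank k (nodalSpace P Q θ E₁ E₂) =
        Module.finrank k (riemannRochSpace E₁) + Module.finrank k (riemannRochSpace E₂) := by
    exact_mod_cast h1
  linarith

/-- **Riemann's inequality on the nodal curve.** -/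
theorem nodal_riemann_inequality (E₁ : Divisor k F₁) (E₂ : Divisor k F₂) :
    Divisor.degree E₁ + Divisor.degree E₂
        + Module.finrank k (riemannRochSpace (0 : Divisor k F₁))
        + Module.finrank k (riemannRochSpace (0 : Divisor k F₂))
        - genusFF k F₁ - genusFF k F₂ - ∑ j, ((Q j).deg : ℤ) ≤
      Module.finrank k (nodalSpace P Q θ E₁ E₂) := by
  have h1 := finrank_nodalSpace_ge P Q θ E₁ E₂
  have h2 := riemann_inequality E₁
  have h3 := riemann_inequality E₂
  linarith

/-- **Riemann's theorem on the nodal curve**: for `deg E₁, deg E₂ ≥ c`,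
`dim = deg E₁ + deg E₂ + ℓ₁(0) + ℓ₂(0) - g₁ - g₂ - ∑ deg (Q j)`. -/
theorem nodal_riemann (hP : Function.Injective P) :
    ∃ c : ℤ, ∀ (E₁ : Divisor k F₁) (E₂ : Divisor k F₂),
      c ≤ Divisor.degree E₁ → c ≤ Divisor.degree E₂ →
      (Module.finrank k (nodalSpace P Q θ E₁ E₂) : ℤ) =
        Divisor.degree E₁ + Divisor.degree E₂
          + Module.finrank k (riemannRochSpace (0 : Divisor k F₁))
          + Module.finrank k (riemannRochSpace (0 : Divisor k F₂))
          - genusFF k F₁ - genusFF k F₂ - ∑ j, ((Q j).deg : ℤ) := by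
  obtain ⟨c₀, hc₀⟩ := exists_range_evalFamily_eq_top (K := k) hP
  obtain ⟨c₁, hc₁⟩ := exists_ell_eq k F₁
  obtain ⟨c₂, hc₂⟩ := exists_ell_eq k F₂
  refine ⟨max c₀ (max c₁ c₂), fun E₁ E₂ h1 h2 => ?_⟩
  have hE1 : c₀ ≤ Divisor.degree E₁ := le_trans (le_max_left _ _) h1
  have hE1' : c₁ ≤ Divisor.degree E₁ :=
    le_trans (le_trans (le_max_left _ _) (le_max_right _ _)) h1
  have hE2' : c₂ ≤ Divisor.degree E₂ :=
    le_trans (le_trans (le_max_right _ _) (le_max_right _ _)) h2
  rw [finrank_nodalSpace_eq P Q θ E₂ (hc₀ E₁ hE1), (hc₁ E₁ hE1').1, (hc₂ E₂ hE2').1]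
  ring

end Nodal

end Fermat.Agent.GK.NodalRR
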