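import Fermat.Agent.GK.NodalRR

/-!
# Nodal Riemann–Roch spaces with vanishing on a subset of the nodes  (GATE-K K4'-DIM, helper34)

`nodalSpaceJ P Q θ J E₁ E₂ = {(f₁, f₂) ∈ L(E₁) × L(E₂) | f₁(P j) = 0 = f₂(Q j) for j ∈ J,
θ j (f₁(P j)) = f₂(Q j) for j ∉ J}` — helper47's `M_{J,ξ}` (board 2126 (3)).  Its dimension for
`deg E₁, deg E₂` large is the nodal dimension minus `∑_{j ∈ J} deg (P j)`.
-/

set_option autoImplicit false
set_option linter.unusedSectionVars false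

noncomputable section

open AlgebraicCurve

namespace Fermat.Agent.GK.NodalRR

open Fermat.Agent.RRh45 Fermat.Agent.RR

variable {k F₁ F₂ : Type*} [Field k] [Field F₁] [Field F₂] [Algebra k F₁] [Algebra k F₂]
variable {ι : Type*} [Fintype ι] [DecidableEq ι]
variable (P : ι → Place k F₁) (Q : ι → Place k F₂)
variable (θ : ∀ j, (P j).ResidueField ≃ₗ[k] (Q j).ResidueField)
variable (J : Finset ι)

/-- the defect map whose kernel is `nodalSpaceJ` -/
def glueMapJ (E₁ : Divisor k F₁) (E₂ : Divisor k F₂) :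
    (riemannRochSpace E₁ × riemannRochSpace E₂) →ₗ[k]
      ((∀ j, (Q j).ResidueField) × (∀ j : J, (P j).ResidueField)) :=
  LinearMap.prod
    (LinearMap.pi fun j =>
      if j ∈ J then (evalMap E₂ (Q j)).comp (LinearMap.snd k _ _)
      else ((θ j : (P j).ResidueField →ₗ[k] (Q j).ResidueField).comp
          (evalMap E₁ (P j))).comp (LinearMap.fst k _ _) -
        (evalMap E₂ (Q j)).comp (LinearMap.snd k _ _))
    (LinearMap.pi fun j : J => (evalMap E₁ (P j)).comp (LinearMap.fst k _ _))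

theorem glueMapJ_fst_of_mem (E₁ : Divisor k F₁) (E₂ : Divisor k F₂)
    (x : riemannRochSpace E₁ × riemannRochSpace E₂) {j : ι} (hj : j ∈ J) :
    (glueMapJ P Q θ J E₁ E₂ x).1 j = evalMap E₂ (Q j) x.2 := by
  simp [glueMapJ, hj]

theorem glueMapJ_fst_of_notMem (E₁ : Divisor k F₁) (E₂ : Divisor k F₂)
    (x : riemannRochSpace E₁ × riemannRochSpace E₂) {j : ι} (hj : j ∉ J) :
    (glueMapJ P Q θ J E₁ E₂ x).1 j = θ j (evalMap E₁ (P j) x.1) - evalMap E₂ (Q j) x.2 := by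
  simp [glueMapJ, hj]

theorem glueMapJ_snd (E₁ : Divisor k F₁) (E₂ : Divisor k F₂)
    (x : riemannRochSpace E₁ × riemannRochSpace E₂) (j : J) :
    (glueMapJ P Q θ J E₁ E₂ x).2 j = evalMap E₁ (P j) x.1 := by
  simp [glueMapJ]

/-- **helper47's `M_{J,ξ}`**: vanishing at the nodes in `J`, glueing at the others -/
def nodalSpaceJ (E₁ : Divisor k F₁) (E₂ : Divisor k F₂) :
    Submodule k (riemannRochSpace E₁ × riemannRochSpace E₂) :=
  LinearMap.ker (glueMapJ P Q θ J E₁ E₂)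

theorem mem_nodalSpaceJ {E₁ : Divisor k F₁} {E₂ : Divisor k F₂}
    {x : riemannRochSpace E₁ × riemannRochSpace E₂} :
    x ∈ nodalSpaceJ P Q θ J E₁ E₂ ↔
      (∀ j ∈ J, evalMap E₁ (P j) x.1 = 0 ∧ evalMap E₂ (Q j) x.2 = 0) ∧
        ∀ j, j ∉ J → θ j (evalMap E₁ (P j) x.1) = evalMap E₂ (Q j) x.2 := by
  rw [nodalSpaceJ, LinearMap.mem_ker, Prod.ext_iff]
  constructor
  · rintro ⟨h1, h2⟩
    refine ⟨fun j hj => ⟨?_, ?_⟩, fun j hj => ?_⟩
    · have := congrFun h2 ⟨j, hj⟩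
      rwa [glueMapJ_snd] at this
    · have := congrFun h1 j
      rwa [glueMapJ_fst_of_mem P Q θ J E₁ E₂ x hj] at this
    · have := congrFun h1 j
      rw [glueMapJ_fst_of_notMem P Q θ J E₁ E₂ x hj] at this
      exact sub_eq_zero.mp this
  · rintro ⟨h1, h2⟩
    refine ⟨?_, ?_⟩
    · funext j
      by_cases hj : j ∈ J
      · rw [glueMapJ_fst_of_mem P Q θ J E₁ E₂ x hj]
        exact (h1 j hj).2
      · rw [glueMapJ_fst_of_notMem P Q θ J E₁ E₂ x hj]
        exact sub_eq_zero.mpr (h2 j hj)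
    · funext j
      rw [glueMapJ_snd]
      exact (h1 j j.2).1

theorem nodalSpaceJ_empty (E₁ : Divisor k F₁) (E₂ : Divisor k F₂) :
    nodalSpaceJ P Q θ ∅ E₁ E₂ = nodalSpace P Q θ E₁ E₂ := by
  ext x
  rw [mem_nodalSpaceJ, mem_nodalSpace]
  constructor
  · rintro ⟨-, h⟩ j
    exact h j (Finset.notMem_empty j)
  · intro h
    exact ⟨fun j hj => absurd hj (Finset.notMem_empty j), fun j _ => h j⟩

/-- `M_{J,ξ} ⊂ M_{∅,ξ}` -/
theorem nodalSpaceJ_le (E₁ : Divisor k F₁) (E₂ : Divisor k F₂) :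
    nodalSpaceJ P Q θ J E₁ E₂ ≤ nodalSpace P Q θ E₁ E₂ := by
  intro x hx
  rw [mem_nodalSpaceJ] at hx
  rw [mem_nodalSpace]
  intro j
  by_cases hj : j ∈ J
  · rw [(hx.1 j hj).1, (hx.1 j hj).2, map_zero]
  · exact hx.2 j hj

/-- the defect map is onto when both simultaneous evaluations are -/
theorem range_glueMapJ_eq_top {E₁ : Divisor k F₁} {E₂ : Divisor k F₂}
    (h₁ : LinearMap.range (evalFamily E₁ P) = ⊤) (h₂ : LinearMap.range (evalFamily E₂ Q) = ⊤) :
    LinearMap.range (glueMapJ P Q θ J E₁ E₂) = ⊤ := by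
  rw [LinearMap.range_eq_top] at h₁ h₂ ⊢
  rintro ⟨a, b⟩
  obtain ⟨f₁, hf₁⟩ := h₁ fun j => if hj : j ∈ J then b ⟨j, hj⟩ else (θ j).symm (a j)
  obtain ⟨f₂, hf₂⟩ := h₂ fun j => if j ∈ J then a j else 0
  refine ⟨(f₁, f₂), ?_⟩
  have e₁ : ∀ j, evalMap E₁ (P j) f₁ = if hj : j ∈ J then b ⟨j, hj⟩ else (θ j).symm (a j) :=
    fun j => by rw [← evalFamily_apply, hf₁]
  have e₂ : ∀ j, evalMap E₂ (Q j) f₂ = if j ∈ J then a j else 0 :=
    fun j => by rw [← evalFamily_apply, hf₂]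
  refine Prod.ext ?_ ?_
  · funext j
    by_cases hj : j ∈ J
    · rw [glueMapJ_fst_of_mem P Q θ J E₁ E₂ _ hj]
      show evalMap E₂ (Q j) f₂ = a j
      rw [e₂, if_pos hj]
    · rw [glueMapJ_fst_of_notMem P Q θ J E₁ E₂ _ hj]
      show θ j (evalMap E₁ (P j) f₁) - evalMap E₂ (Q j) f₂ = a j
      rw [e₁, e₂, dif_neg hj, if_neg hj, LinearEquiv.apply_symm_apply, sub_zero]
  · funext j
    rw [glueMapJ_snd]
    show evalMap E₁ (P j) f₁ = b j
    rw [e₁, dif_pos j.2]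

variable [FiniteResidues k F₁] [HasPrincipalDivisors k F₁] [Nonempty (Place k F₁)]
variable [FiniteResidues k F₂] [HasPrincipalDivisors k F₂] [Nonempty (Place k F₂)]

theorem finrank_target (J : Finset ι) :
    (Module.finrank k ((∀ j, (Q j).ResidueField) × (∀ j : J, (P j).ResidueField)) : ℤ) =
      ∑ j, ((Q j).deg : ℤ) + ∑ j ∈ J, ((P j).deg : ℤ) := by
  rw [Module.finrank_prod, Module.finrank_pi_fintype, Module.finrank_pi_fintype]
  push_cast
  congr 1
  rw [← Finset.sum_coe_sort J (fun j => ((P j).deg : ℤ))]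
  rfl

/-- `dim M_J ≥ ℓ(E₁) + ℓ(E₂) - ∑ deg (Q j) - ∑_{j ∈ J} deg (P j)` -/
theorem finrank_nodalSpaceJ_ge (E₁ : Divisor k F₁) (E₂ : Divisor k F₂) :
    (Module.finrank k (riemannRochSpace E₁) : ℤ) + Module.finrank k (riemannRochSpace E₂)
        - ∑ j, ((Q j).deg : ℤ) - ∑ j ∈ J, ((P j).deg : ℤ) ≤
      Module.finrank k (nodalSpaceJ P Q θ J E₁ E₂) := by
  have h1 := LinearMap.finrank_range_add_finrank_ker (glueMapJ P Q θ J E₁ E₂)
  rw [Module.finrank_prod] at h1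
  have h2 : Module.finrank k (LinearMap.range (glueMapJ P Q θ J E₁ E₂)) ≤
      Module.finrank k ((∀ j, (Q j).ResidueField) × (∀ j : J, (P j).ResidueField)) :=
    Submodule.finrank_le _
  have h3 := finrank_target P Q J
  have h1' : (Module.finrank k (LinearMap.range (glueMapJ P Q θ J E₁ E₂)) : ℤ) +
      Module.finrank k (nodalSpaceJ P Q θ J E₁ E₂) =
        Module.finrank k (riemannRochSpace E₁) + Module.finrank k (riemannRochSpace E₂) := by
    exact_mod_cast h1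
  have h2' : (Module.finrank k (LinearMap.range (glueMapJ P Q θ J E₁ E₂)) : ℤ) ≤
      Module.finrank k ((∀ j, (Q j).ResidueField) × (∀ j : J, (P j).ResidueField)) := by
    exact_mod_cast h2
  linarith

/-- `dim M_J = ℓ(E₁) + ℓ(E₂) - ∑ deg (Q j) - ∑_{j ∈ J} deg (P j)` when both simultaneous
evaluations are onto -/
theorem finrank_nodalSpaceJ_eq {E₁ : Divisor k F₁} {E₂ : Divisor k F₂}
    (h₁ : LinearMap.range (evalFamily E₁ P) = ⊤) (h₂ : LinearMap.range (evalFamily E₂ Q) = ⊤) :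
    (Module.finrank k (nodalSpaceJ P Q θ J E₁ E₂) : ℤ) =
      (Module.finrank k (riemannRochSpace E₁) : ℤ) + Module.finrank k (riemannRochSpace E₂)
        - ∑ j, ((Q j).deg : ℤ) - ∑ j ∈ J, ((P j).deg : ℤ) := by
  have h1 := LinearMap.finrank_range_add_finrank_ker (glueMapJ P Q θ J E₁ E₂)
  rw [range_glueMapJ_eq_top P Q θ J h₁ h₂, finrank_top, Module.finrank_prod (M := riemannRochSpace E₁)] at h1
  have h3 := finrank_target P Q J
  have h1' : (Module.finrank k ((∀ j, (Q j).ResidueField) × (∀ j : J, (P j).ResidueField)) : ℤ) +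
      Module.finrank k (nodalSpaceJ P Q θ J E₁ E₂) =
        Module.finrank k (riemannRochSpace E₁) + Module.finrank k (riemannRochSpace E₂) := by
    exact_mod_cast h1
  linarith

/-- **Riemann's theorem for `M_J`**, uniformly in `J`. -/
theorem nodal_riemannJ (hP : Function.Injective P) (hQ : Function.Injective Q) :
    ∃ c : ℤ, ∀ (E₁ : Divisor k F₁) (E₂ : Divisor k F₂) (J : Finset ι),
      c ≤ Divisor.degree E₁ → c ≤ Divisor.degree E₂ →
      (Module.finrank k (nodalSpaceJ P Q θ J E₁ E₂) : ℤ) =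
        Divisor.degree E₁ + Divisor.degree E₂
          + Module.finrank k (riemannRochSpace (0 : Divisor k F₁))
          + Module.finrank k (riemannRochSpace (0 : Divisor k F₂))
          - genusFF k F₁ - genusFF k F₂ - ∑ j, ((Q j).deg : ℤ) - ∑ j ∈ J, ((P j).deg : ℤ) := by
  obtain ⟨a₁, ha₁⟩ := exists_range_evalFamily_eq_top (K := k) hP
  obtain ⟨a₂, ha₂⟩ := exists_range_evalFamily_eq_top (K := k) hQ
  obtain ⟨c₁, hc₁⟩ := exists_ell_eq k F₁
  obtain ⟨c₂, hc₂⟩ := exists_ell_eq k F₂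
  refine ⟨max (max a₁ a₂) (max c₁ c₂), fun E₁ E₂ J h1 h2 => ?_⟩
  have hE1 : a₁ ≤ Divisor.degree E₁ :=
    le_trans (le_trans (le_max_left _ _) (le_max_left _ _)) h1
  have hE2 : a₂ ≤ Divisor.degree E₂ :=
    le_trans (le_trans (le_max_right _ _) (le_max_left _ _)) h2
  have hE1' : c₁ ≤ Divisor.degree E₁ :=
    le_trans (le_trans (le_max_left _ _) (le_max_right _ _)) h1
  have hE2' : c₂ ≤ Divisor.degree E₂ :=
    le_trans (le_trans (le_max_right _ _) (le_max_right _ _)) h2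
  rw [finrank_nodalSpaceJ_eq P Q θ J (ha₁ E₁ hE1) (ha₂ E₂ hE2), (hc₁ E₁ hE1').1, (hc₂ E₂ hE2').1]
  ring

end Fermat.Agent.GK.NodalRR
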