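import Fermat.Agent.RR.Final

/-!
# Strong approximation from `H¹ = 0`  (GATE-K prep, helper34)

`strong_approx` : if `H1 D` is trivial, then for every finite set `S` of places and every family
`g : Place K F → F` there is `f : F` with `ord_v (f - g v) ≥ -D v` for `v ∈ S` and
`ord_v f ≥ -D v` for `v ∉ S`.  `exists_strong_approx` : this holds as soon as `deg D ≥ c`
(Riemann's theorem, `RR.exists_ell_eq`).
-/

set_option autoImplicit false
set_option linter.unusedSectionVars false

noncomputable section

open AlgebraicCurve

namespace Fermat.Agent.GK.StrongApprox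

open Fermat.Agent.RRh45 Fermat.Agent.RR

variable {K F : Type*} [Field K] [Field F] [Algebra K F]

open scoped Classical in
/-- **Strong approximation** from the vanishing of `H1 D`. -/
theorem strong_approx (D : Divisor K F) [h : Subsingleton (H1 D)] (S : Finset (Place K F))
    (g : Place K F → F) :
    ∃ f : F, (∀ v ∈ S, f - g v = 0 ∨ -D v ≤ v.ord (f - g v)) ∧
      (∀ v, v ∉ S → f = 0 ∨ -D v ≤ v.ord f) := by
  -- the repartition `α = g` on `S`, `0` elsewhere
  let α₀ : Place K F → F := fun v => if v ∈ S then g v else 0
  have hα₀ : α₀ ∈ repartitions K F := by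
    apply mem_repartitions_of_finite
    apply S.finite_toSet.subset
    intro v hv
    by_contra hvS
    apply hv
    have : α₀ v = 0 := if_neg hvS
    rw [this]
    simp
  let α : ↥(repartitions K F) := ⟨α₀, hα₀⟩
  have h0 : (Submodule.Quotient.mk α : H1 D) = 0 := Subsingleton.elim _ _
  rw [Submodule.Quotient.mk_eq_zero, Submodule.mem_sup] at h0
  obtain ⟨β, hβ, φ, hφ, hsum⟩ := h0
  rw [mem_principalRepartitions_iff] at hφ
  obtain ⟨f, hf⟩ := hφ
  rw [mem_repartitionsOf_iff] at hβ
  have hv : ∀ v, (β : Place K F → F) v + f = α₀ v := by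
    intro v
    have := congrArg (fun x : ↥(repartitions K F) => (x : Place K F → F) v) hsum
    simpa [hf] using this
  refine ⟨f, fun v hvS => ?_, fun v hvS => ?_⟩
  · have h1 := hv v
    have h2 : α₀ v = g v := if_pos hvS
    have h3 : f - g v = -((β : Place K F → F) v) := by rw [← h2, ← h1]; ring
    rw [h3]
    rcases hβ v with h4 | h4
    · left; rw [h4, neg_zero]
    · right
      rwa [Fermat.Agent.S24.PlaceB.ord_neg]
  · have h1 := hv v
    have h2 : α₀ v = 0 := if_neg hvS
    have h3 : f = -((β : Place K F → F) v) := by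
      have : (β : Place K F → F) v + f = 0 := by rw [h1, h2]
      linear_combination this
    rw [h3]
    rcases hβ v with h4 | h4
    · left; rw [h4, neg_zero]
    · right
      rwa [Fermat.Agent.S24.PlaceB.ord_neg]

variable [FiniteResidues K F] [HasPrincipalDivisors K F] [Nonempty (Place K F)]

variable (K F) in
/-- Strong approximation holds for all divisors of large degree. -/
theorem exists_strong_approx : ∃ c : ℤ, ∀ D : Divisor K F, c ≤ Divisor.degree D →
    ∀ (S : Finset (Place K F)) (g : Place K F → F),
      ∃ f : F, (∀ v ∈ S, f - g v = 0 ∨ -D v ≤ v.ord (f - g v)) ∧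
        (∀ v, v ∉ S → f = 0 ∨ -D v ≤ v.ord f) := by
  obtain ⟨c, hc⟩ := exists_ell_eq K F
  refine ⟨c, fun D hD S g => ?_⟩
  have := (hc D hD).2
  exact strong_approx D S g

end Fermat.Agent.GK.StrongApprox
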